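import Mathlib

open MeasureTheory Module

namespace Fermat.Agent.IdealL

variable {E : Type*} [NormedAddCommGroup E] [NormedSpace ℝ E] [FiniteDimensional ℝ E]
  [MeasurableSpace E] [BorelSpace E]

theorem finite_norm_lt (L : Submodule ℤ E) [DiscreteTopology L] (R : ℝ) :
    {v : L | ‖(v : E)‖ < R}.Finite := by
  have H : IsClosed (X := E) L := @AddSubgroup.isClosed_of_discrete _ _ _ _ _
    L.toAddSubgroup (inferInstanceAs (DiscreteTopology L))
  refine ((Metric.finite_isBounded_inter_isClosed DiscreteTopology.isDiscrete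
    (Metric.isBounded_closedBall (x := (0 : E)) (r := R)) H).preimage_embedding
    (.subtype _)).subset ?_
  intro t ht
  have ht' : ‖(t : E)‖ < R := ht
  simpa using ht'.le

/-- Comparison of a lattice sum and an integral. -/
theorem sum_sub_integral_le (μ : Measure E) [μ.IsAddHaarMeasure] (L : Submodule ℤ E)
    [DiscreteTopology L] [IsZLattice ℝ L] :
    ∃ D : ℝ, 0 < D ∧ ∀ R C : ℝ, ∃ C' : ℝ, ∀ h : E → ℝ, Measurable h → (∀ x, 0 ≤ h x) →
      (∀ x, h x ≤ 1) →
      (∀ x y, R ≤ ‖x‖ → ‖x - y‖ ≤ D →
        |h x - h y| ≤ C * ‖x‖ ^ (-(finrank ℝ E + 1 : ℝ))) →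
      Summable (fun v : L => h v) →
        Integrable h μ ∧ |ZLattice.covolume L μ * ∑' v : L, h v - ∫ x, h x ∂μ| ≤ C' := by
  classical
  let b := Free.chooseBasis ℤ L
  let F := ZSpan.fundamentalDomain (b.ofZLatticeBasis ℝ L)
  have hF : IsAddFundamentalDomain L F μ := ZLattice.isAddFundamentalDomain b μ
  have hFm : MeasurableSet F := ZSpan.fundamentalDomain_measurableSet _
  have hFb : Bornology.IsBounded F := ZSpan.fundamentalDomain_isBounded _
  have hFfin : μ F < ⊤ := hFb.measure_lt_top
  obtain ⟨D, hD0, hD⟩ := hFb.exists_pos_norm_le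
  refine ⟨D, hD0, fun R C => ?_⟩
  let e : L → ℝ := fun v => |C| * ‖(v : E)‖ ^ (-(finrank ℝ E + 1 : ℝ)) +
    (if ‖(v : E)‖ < R then 1 else 0)
  have he0 : ∀ v, 0 ≤ e v := fun v => by
    simp only [e]; split_ifs <;> positivity
  have hrank : finrank ℤ L = finrank ℝ E := ZLattice.rank ℝ L
  have hesum : Summable e := by
    refine Summable.add (Summable.mul_left _ ?_) ?_
    · have := ZLattice.summable_norm_rpow L (-(finrank ℝ E + 1 : ℝ)) (by rw [hrank]; linarith)
      simpa using this
    · refine summable_of_hasFiniteSupport ((finite_norm_lt L R).subset ?_)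
      intro v hv
      simp only [Function.mem_support, ne_eq, ite_eq_right_iff, one_ne_zero, imp_false,
        not_not] at hv
      exact hv
  have : MeasurableVAdd L E := (inferInstance : MeasurableVAdd L.toAddSubgroup E)
  have : VAddInvariantMeasure L E μ := (inferInstance : VAddInvariantMeasure L.toAddSubgroup E μ)
  have hcov : ZLattice.covolume L μ = (μ F).toReal :=
    ZLattice.covolume_eq_measure_fundamentalDomain L μ hF
  refine ⟨(μ F).toReal * ∑' v, e v, fun h hm h0 h1 hlip hs => ?_⟩
  have key : ∀ v : L, ∀ x ∈ F, |h (v + x) - h v| ≤ e v := by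
    intro v x hx
    by_cases hv : ‖(v : E)‖ < R
    · have : |h (v + x) - h v| ≤ 1 := by
        rw [abs_le]; constructor <;> linarith [h0 (v + x), h1 (v + x), h0 v, h1 v]
      refine this.trans ?_
      simp only [e, hv, if_true]
      have : 0 ≤ |C| * ‖(v : E)‖ ^ (-(finrank ℝ E + 1 : ℝ)) := by positivity
      linarith
    · have h2 := hlip v (v + x) (not_lt.mp hv) (by simpa using hD x hx)
      rw [abs_sub_comm]
      refine h2.trans ?_
      simp only [e, hv, if_false, add_zero]
      exact mul_le_mul_of_nonneg_right (le_abs_self C) (by positivity)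
  have hint : ∀ v : L, IntegrableOn (fun x => h (v + x)) F μ := by
    intro v
    refine Measure.integrableOn_of_bounded (M := 1) hFfin.ne
      ((hm.comp (measurable_const_add _)).aestronglyMeasurable) ?_
    refine Filter.Eventually.of_forall fun x => ?_
    rw [Real.norm_eq_abs, abs_of_nonneg (h0 _)]
    exact h1 _
  have htile : ∀ v : L, |(μ F).toReal * h v - ∫ x in F, h (v + x) ∂μ| ≤ (μ F).toReal * e v := by
    intro v
    have h3 : (μ F).toReal * h v - ∫ x in F, h (v + x) ∂μ =
        ∫ x in F, (h v - h (v + x)) ∂μ := by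
      have h5 : IntegrableOn (fun _ : E => h v) F μ := integrableOn_const hFfin.ne
      rw [integral_sub h5 (hint v)]
      simp [Measure.real]
    rw [h3, ← Real.norm_eq_abs, mul_comm]
    refine norm_setIntegral_le_of_norm_le_const hFfin ?_
    intro x hx
    rw [Real.norm_eq_abs, abs_sub_comm]
    exact key v x hx
  have hle : ∀ v : L, ∀ x ∈ F, h (v + x) ≤ h v + e v := fun v x hx => by
    have := (abs_le.mp (key v x hx)).2
    linarith
  have hsum2 : Summable fun v : L => h v + e v := hs.add hesum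
  have hInt : Integrable h μ := by
    refine ⟨hm.aestronglyMeasurable, ?_⟩
    rw [HasFiniteIntegral, hF.lintegral_eq_tsum'']
    have : ∀ v : L, ∫⁻ x in F, ‖h (v +ᵥ x)‖ₑ ∂μ ≤ μ F * ENNReal.ofReal (h v + e v) := by
      intro v
      calc ∫⁻ x in F, ‖h (v +ᵥ x)‖ₑ ∂μ ≤ ∫⁻ x in F, ENNReal.ofReal (h v + e v) ∂μ := by
            refine setLIntegral_mono' hFm fun x hx => ?_
            rw [Real.enorm_eq_ofReal (h0 _)]
            exact ENNReal.ofReal_le_ofReal (hle v x hx)
        _ = μ F * ENNReal.ofReal (h v + e v) := by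
            rw [setLIntegral_const, mul_comm]
    refine lt_of_le_of_lt (ENNReal.tsum_le_tsum this) ?_
    rw [ENNReal.tsum_mul_left, ← ENNReal.ofReal_tsum_of_nonneg
      (fun v => add_nonneg (h0 _) (he0 v)) hsum2]
    exact ENNReal.mul_lt_top hFfin ENNReal.ofReal_lt_top
  refine ⟨hInt, ?_⟩
  rw [hF.integral_eq_tsum'' _ hInt, hcov, ← tsum_mul_left]
  have hA : Summable fun v : L => (μ F).toReal * h v := hs.mul_left _
  have hB : Summable fun v : L => ∫ x in F, h (v +ᵥ x) ∂μ := by
    refine Summable.of_nonneg_of_le (fun v => ?_) (fun v => ?_)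
      (hsum2.mul_left (μ F).toReal)
    · exact integral_nonneg fun x => h0 _
    · have := (abs_le.mp (htile v)).1
      have h4 : ∫ x in F, h (v +ᵥ x) ∂μ = ∫ x in F, h (v + x) ∂μ := rfl
      rw [h4]
      nlinarith
  rw [← hA.tsum_sub hB, ← tsum_mul_left, ← Real.norm_eq_abs]
  exact tsum_of_norm_bounded (hesum.mul_left _).hasSum fun v => htile v

end Fermat.Agent.IdealL
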