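import Mathlib

open MeasureTheory Module NumberField NumberField.Units
  NumberField.Units.dirichletUnitTheorem NumberField.mixedEmbedding NumberField.InfinitePlace

open scoped Classical

namespace Fermat.Agent.IdealL

theorem abs_prod_sub_prod_le {ι : Type*} (s : Finset ι) (a b : ι → ℝ) (ha0 : ∀ i, 0 ≤ a i)
    (ha1 : ∀ i, a i ≤ 1) (hb0 : ∀ i, 0 ≤ b i) (hb1 : ∀ i, b i ≤ 1) :
    |∏ i ∈ s, a i - ∏ i ∈ s, b i| ≤ ∑ i ∈ s, |a i - b i| := by
  classical
  induction s using Finset.induction_on with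
  | empty => simp
  | insert i s his ih =>
    rw [Finset.prod_insert his, Finset.prod_insert his, Finset.sum_insert his]
    have h1 : 0 ≤ ∏ i ∈ s, a i := Finset.prod_nonneg fun i _ => ha0 i
    have h2 : ∏ i ∈ s, a i ≤ 1 := Finset.prod_le_one (fun i _ => ha0 i) fun i _ => ha1 i
    calc |a i * ∏ i ∈ s, a i - b i * ∏ i ∈ s, b i|
        = |(a i - b i) * ∏ i ∈ s, a i + b i * (∏ i ∈ s, a i - ∏ i ∈ s, b i)| := by
          congr 1; ring
      _ ≤ |(a i - b i) * ∏ i ∈ s, a i| + |b i * (∏ i ∈ s, a i - ∏ i ∈ s, b i)| := abs_add_le _ _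
      _ = |a i - b i| * (∏ i ∈ s, a i) + b i * |∏ i ∈ s, a i - ∏ i ∈ s, b i| := by
          rw [abs_mul, abs_mul, abs_of_nonneg h1, abs_of_nonneg (hb0 i)]
      _ ≤ |a i - b i| * 1 + 1 * |∏ i ∈ s, a i - ∏ i ∈ s, b i| := by
          gcongr
          exact hb1 i
      _ ≤ |a i - b i| + ∑ i ∈ s, |a i - b i| := by linarith

/-- The tent function. -/
noncomputable def tent (y : ℝ) : ℝ := max (1 - |y|) 0

theorem tent_nonneg (y : ℝ) : 0 ≤ tent y := le_max_right _ _

theorem tent_le_one (y : ℝ) : tent y ≤ 1 := max_le (by linarith [abs_nonneg y]) zero_le_one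

theorem tent_lip (x y : ℝ) : |tent x - tent y| ≤ |x - y| := by
  refine (abs_max_sub_max_le_abs _ _ _).trans ?_
  have : (1 - |x|) - (1 - |y|) = |y| - |x| := by ring
  rw [this, abs_sub_comm x y]
  exact abs_abs_sub_abs_le_abs_sub y x

theorem abs_lt_one_of_tent_ne_zero {y : ℝ} (h : tent y ≠ 0) : |y| < 1 := by
  by_contra h1
  exact h (max_eq_right (by linarith))

theorem measurable_tent : Measurable tent :=
  ((measurable_const.sub measurable_id.abs).max measurable_const)

theorem abs_log_sub_log_le {a b m : ℝ} (hm : 0 < m) (ha : m ≤ a) (hb : m ≤ b) :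
    |Real.log a - Real.log b| ≤ |a - b| / m := by
  wlog hab : b ≤ a generalizing a b
  · rw [abs_sub_comm, abs_sub_comm a b]
    exact this hb ha (le_of_not_ge hab)
  have hb0 : 0 < b := hm.trans_le hb
  have ha0 : 0 < a := hm.trans_le ha
  have h1 : Real.log a - Real.log b = Real.log (a / b) := (Real.log_div ha0.ne' hb0.ne').symm
  have h2 : 0 ≤ Real.log a - Real.log b := sub_nonneg.mpr (Real.log_le_log hb0 hab)
  rw [abs_of_nonneg h2, abs_of_nonneg (sub_nonneg.mpr hab), h1]
  calc Real.log (a / b) ≤ a / b - 1 := Real.log_le_sub_one_of_pos (by positivity)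
    _ = (a - b) / b := by field_simp
    _ ≤ (a - b) / m := by
      gcongr

variable (K : Type*) [Field K] [NumberField K]

/-- The real basis of `logSpace K` given by the unit lattice. -/
noncomputable def logB : Basis (Fin (rank K)) ℝ (logSpace K) :=
  (basisUnitLattice K).ofZLatticeBasis ℝ (unitLattice K)

variable {K}

/-- The weight function. -/
noncomputable def weight (x : mixedSpace K) : ℝ :=
  if mixedEmbedding.norm x = 0 then 0 else ∏ i, tent ((logB K).repr (logMap x) i)

theorem weight_nonneg (x : mixedSpace K) : 0 ≤ weight x := by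
  unfold weight
  split_ifs
  · rfl
  · exact Finset.prod_nonneg fun i _ => tent_nonneg _

theorem weight_le_one (x : mixedSpace K) : weight x ≤ 1 := by
  unfold weight
  split_ifs
  · exact zero_le_one
  · exact Finset.prod_le_one (fun i _ => tent_nonneg _) fun i _ => tent_le_one _

theorem measurable_logMap : Measurable (logMap (K := K)) := by
  unfold logMap
  refine measurable_pi_iff.mpr fun w ↦ measurable_const.mul ?_
  exact (continuous_normAtPlace _).measurable.log.sub <|
      (mixedEmbedding.continuous_norm _).measurable.log.mul measurable_const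

theorem measurable_weight : Measurable (weight (K := K)) := by
  classical
  unfold weight
  refine Measurable.ite ?_ measurable_const ?_
  · exact measurableSet_eq_fun (mixedEmbedding.continuous_norm K).measurable measurable_const
  · refine Finset.measurable_prod _ fun i _ => measurable_tent.comp ?_
    have h1 : Continuous (fun v : logSpace K => (logB K).repr v i) :=
      LinearMap.continuous_of_finiteDimensional ((logB K).coord i)
    exact h1.measurable.comp measurable_logMap

theorem normAtPlace_le_norm (x : mixedSpace K) (w : InfinitePlace K) :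
    normAtPlace w x ≤ ‖x‖ := by
  rw [norm_eq_sup'_normAtPlace]
  exact Finset.le_sup' (fun w => normAtPlace w x) (Finset.mem_univ w)

theorem norm_le_of_forall (x : mixedSpace K) (c : ℝ) (h : ∀ w, normAtPlace w x ≤ c) :
    ‖x‖ ≤ c := by
  rw [norm_eq_sup'_normAtPlace]
  exact Finset.sup'_le _ _ fun w _ => h w

theorem abs_normAtPlace_sub_le (x y : mixedSpace K) (w : InfinitePlace K) :
    |normAtPlace w x - normAtPlace w y| ≤ ‖x - y‖ := by
  have h1 : normAtPlace w x ≤ normAtPlace w (x - y) + normAtPlace w y := by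
    simpa using normAtPlace_add_le w (x - y) y
  have h2 : normAtPlace w y ≤ normAtPlace w (x - y) + normAtPlace w x := by
    have := normAtPlace_add_le w (y - x) x
    rw [sub_add_cancel] at this
    rwa [← normAtPlace_neg w (x - y), neg_sub]
  have h3 := normAtPlace_le_norm (x - y) w
  rw [abs_le]; constructor <;> linarith

theorem log_norm_eq {x : mixedSpace K} (hx : ∀ w, 0 < normAtPlace w x) :
    Real.log (mixedEmbedding.norm x) = ∑ w, (mult w : ℝ) * Real.log (normAtPlace w x) := by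
  rw [mixedEmbedding.norm_apply, Real.log_prod]
  · simp_rw [Real.log_pow]
  · exact fun w _ => pow_ne_zero _ (hx w).ne'

theorem sum_mult_real : ∑ w : InfinitePlace K, (mult w : ℝ) = finrank ℚ K := by
  rw [← sum_mult_eq]; push_cast; rfl

theorem abs_log_norm_sub_le {x y : mixedSpace K} {m : ℝ} (hm : 0 < m)
    (hx : ∀ w, m ≤ normAtPlace w x) (hy : ∀ w, m ≤ normAtPlace w y) :
    |Real.log (mixedEmbedding.norm x) - Real.log (mixedEmbedding.norm y)| ≤
      finrank ℚ K * (‖x - y‖ / m) := by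
  rw [log_norm_eq fun w => hm.trans_le (hx w), log_norm_eq fun w => hm.trans_le (hy w),
    ← Finset.sum_sub_distrib, ← sum_mult_real, Finset.sum_mul]
  refine (Finset.abs_sum_le_sum_abs _ _).trans (Finset.sum_le_sum fun w _ => ?_)
  rw [← mul_sub, abs_mul, Nat.abs_cast]
  gcongr
  refine (abs_log_sub_log_le hm (hx w) (hy w)).trans ?_
  gcongr
  exact abs_normAtPlace_sub_le x y w

theorem norm_logMap_sub_le {x y : mixedSpace K} {m : ℝ} (hm : 0 < m)
    (hx : ∀ w, m ≤ normAtPlace w x) (hy : ∀ w, m ≤ normAtPlace w y) :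
    ‖logMap x - logMap y‖ ≤ 4 * (‖x - y‖ / m) := by
  have hd : (0 : ℝ) < finrank ℚ K := Nat.cast_pos.mpr finrank_pos
  have hq : 0 ≤ ‖x - y‖ / m := by positivity
  rw [pi_norm_le_iff_of_nonneg (by positivity)]
  intro w
  rw [Pi.sub_apply, logMap_apply, logMap_apply, ← mul_sub, Real.norm_eq_abs, abs_mul,
    Nat.abs_cast]
  have h1 : (mult w.val : ℝ) ≤ 2 := by
    unfold mult; split_ifs <;> norm_num
  have h2 : |Real.log (normAtPlace w.val x) - Real.log (mixedEmbedding.norm x) *
      (finrank ℚ K : ℝ)⁻¹ - (Real.log (normAtPlace w.val y) -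
        Real.log (mixedEmbedding.norm y) * (finrank ℚ K : ℝ)⁻¹)| ≤ 2 * (‖x - y‖ / m) := by
    have h3 := (abs_log_sub_log_le hm (hx w) (hy w)).trans
      (div_le_div_of_nonneg_right (abs_normAtPlace_sub_le x y w.val) hm.le)
    have h4 := abs_log_norm_sub_le hm hx hy
    have h5 : |Real.log (mixedEmbedding.norm x) * (finrank ℚ K : ℝ)⁻¹ -
        Real.log (mixedEmbedding.norm y) * (finrank ℚ K : ℝ)⁻¹| ≤ ‖x - y‖ / m := by
      rw [← sub_mul, abs_mul, abs_inv, Nat.abs_cast]
      rw [← div_eq_mul_inv, div_le_iff₀ hd]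
      linarith
    have h6 : Real.log (normAtPlace w.val x) - Real.log (mixedEmbedding.norm x) *
      (finrank ℚ K : ℝ)⁻¹ - (Real.log (normAtPlace w.val y) -
        Real.log (mixedEmbedding.norm y) * (finrank ℚ K : ℝ)⁻¹) =
      (Real.log (normAtPlace w.val x) - Real.log (normAtPlace w.val y)) -
      (Real.log (mixedEmbedding.norm x) * (finrank ℚ K : ℝ)⁻¹ -
        Real.log (mixedEmbedding.norm y) * (finrank ℚ K : ℝ)⁻¹) := by ring
    rw [h6]
    refine (abs_sub _ _).trans ?_
    linarith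
  calc (mult w.val : ℝ) * _ ≤ 2 * (2 * (‖x - y‖ / m)) := by gcongr
    _ = 4 * (‖x - y‖ / m) := by ring

theorem exists_coord_le : ∃ C : ℝ, 0 ≤ C ∧ ∀ (v : logSpace K) (i : Fin (rank K)),
    |(logB K).repr v i| ≤ C * ‖v‖ := by
  have h : ∀ i, ∃ C : ℝ, 0 ≤ C ∧ ∀ v : logSpace K, |(logB K).repr v i| ≤ C * ‖v‖ := by
    intro i
    let f : logSpace K →L[ℝ] ℝ := LinearMap.toContinuousLinearMap ((logB K).coord i)
    exact ⟨‖f‖, norm_nonneg _, fun v => f.le_opNorm v⟩
  choose C hC0 hC using h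
  refine ⟨∑ i, C i, Finset.sum_nonneg fun i _ => hC0 i, fun v i => (hC i v).trans ?_⟩
  gcongr
  exact Finset.single_le_sum (fun i _ => hC0 i) (Finset.mem_univ i)

theorem exists_norm_le_of_coord : ∃ C : ℝ, 0 ≤ C ∧ ∀ (v : logSpace K),
    (∀ i, |(logB K).repr v i| ≤ 1) → ‖v‖ ≤ C := by
  refine ⟨∑ i, ‖logB K i‖, Finset.sum_nonneg fun i _ => norm_nonneg _, fun v hv => ?_⟩
  rw [← (logB K).sum_repr v]
  refine (norm_sum_le _ _).trans (Finset.sum_le_sum fun i _ => ?_)
  rw [_root_.norm_smul, Real.norm_eq_abs]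
  have := hv i
  nlinarith [norm_nonneg (logB K i)]

theorem weight_lip : ∃ C : ℝ, 0 ≤ C ∧ ∀ (x y : mixedSpace K) (m : ℝ), 0 < m →
    (∀ w, m ≤ normAtPlace w x) → (∀ w, m ≤ normAtPlace w y) →
    |weight x - weight y| ≤ C * (‖x - y‖ / m) := by
  obtain ⟨C, hC0, hC⟩ := exists_coord_le (K := K)
  refine ⟨rank K * (C * 4), by positivity, fun x y m hm hx hy => ?_⟩
  have hnx : mixedEmbedding.norm x ≠ 0 :=
    mixedEmbedding.norm_ne_zero_iff.mpr fun w => (hm.trans_le (hx w)).ne'
  have hny : mixedEmbedding.norm y ≠ 0 :=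
    mixedEmbedding.norm_ne_zero_iff.mpr fun w => (hm.trans_le (hy w)).ne'
  unfold weight
  rw [if_neg hnx, if_neg hny]
  refine (abs_prod_sub_prod_le _ _ _ (fun i => tent_nonneg _) (fun i => tent_le_one _)
    (fun i => tent_nonneg _) (fun i => tent_le_one _)).trans ?_
  have h1 : ∀ i ∈ (Finset.univ : Finset (Fin (rank K))),
      |tent ((logB K).repr (logMap x) i) - tent ((logB K).repr (logMap y) i)| ≤
      C * (4 * (‖x - y‖ / m)) := by
    intro i _
    refine (tent_lip _ _).trans ?_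
    have h2 := hC (logMap x - logMap y) i
    rw [map_sub, Finsupp.sub_apply] at h2
    refine h2.trans ?_
    gcongr
    exact norm_logMap_sub_le hm hx hy
  refine (Finset.sum_le_sum h1).trans ?_
  rw [Finset.sum_const, Finset.card_univ, Fintype.card_fin, nsmul_eq_mul]
  apply le_of_eq; ring

theorem weight_support : ∃ c : ℝ, 0 < c ∧ ∀ (x : mixedSpace K), weight x ≠ 0 →
    ∀ w, c * ‖x‖ ≤ normAtPlace w x := by
  obtain ⟨B, hB0, hB⟩ := exists_norm_le_of_coord (K := K)
  set B' : ℝ := (1 + Fintype.card (InfinitePlace K)) * B with hB'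
  refine ⟨Real.exp (-(2 * B')), Real.exp_pos _, fun x hx w => ?_⟩
  have hnx : mixedEmbedding.norm x ≠ 0 := by
    intro h; exact hx (by simp [weight, h])
  have hpos : ∀ w, 0 < normAtPlace w x := fun w =>
    lt_of_le_of_ne (normAtPlace_nonneg _ _) (mixedEmbedding.norm_ne_zero_iff.mp hnx w).symm
  unfold weight at hx
  rw [if_neg hnx] at hx
  have h1 : ‖logMap x‖ ≤ B := hB _ fun i =>
    (abs_lt_one_of_tent_ne_zero (Finset.prod_ne_zero_iff.mp hx i (Finset.mem_univ i))).le
  have hd : (0 : ℝ) < finrank ℚ K := Nat.cast_pos.mpr finrank_pos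
  set a : InfinitePlace K → ℝ := fun w => mult w * (Real.log (normAtPlace w x) -
    Real.log (mixedEmbedding.norm x) * (finrank ℚ K : ℝ)⁻¹) with ha
  have hsum : ∑ w, a w = 0 := by
    simp only [ha, mul_sub]
    rw [Finset.sum_sub_distrib, ← log_norm_eq hpos, ← Finset.sum_mul, sum_mult_real]
    field_simp
    ring
  have hne : ∀ w, w ≠ w₀ → |a w| ≤ B := by
    intro w hw
    have := (norm_le_pi_norm (logMap x) ⟨w, hw⟩).trans h1
    rwa [logMap_apply, Real.norm_eq_abs] at this
  have hall : ∀ w, |a w| ≤ B' := by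
    intro w
    by_cases hw : w = w₀
    · have h2 : a w = -∑ v ∈ Finset.univ.erase w, a v := by
        rw [← Finset.add_sum_erase _ _ (Finset.mem_univ w)] at hsum
        linarith
      rw [h2, abs_neg]
      refine (Finset.abs_sum_le_sum_abs _ _).trans ?_
      have h3 : ∀ v ∈ Finset.univ.erase w, |a v| ≤ B := fun v hv => by
        refine hne v ?_
        rw [← hw]
        exact Finset.ne_of_mem_erase hv
      refine (Finset.sum_le_card_nsmul _ _ _ h3).trans ?_
      rw [nsmul_eq_mul, hB']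
      gcongr
      have := Finset.card_le_univ (Finset.univ.erase w)
      have h4 : ((Finset.univ.erase w).card : ℝ) ≤ Fintype.card (InfinitePlace K) := by
        exact_mod_cast this
      linarith
    · refine (hne w hw).trans ?_
      rw [hB']
      have : (0 : ℝ) ≤ Fintype.card (InfinitePlace K) := Nat.cast_nonneg _
      nlinarith
  have hlog : ∀ w, |Real.log (normAtPlace w x) -
      Real.log (mixedEmbedding.norm x) * (finrank ℚ K : ℝ)⁻¹| ≤ B' := by
    intro w
    refine le_trans ?_ (hall w)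
    simp only [ha]
    rw [abs_mul, Nat.abs_cast]
    have : (1 : ℝ) ≤ mult w := by exact_mod_cast one_le_mult
    nlinarith [abs_nonneg (Real.log (normAtPlace w x) -
      Real.log (mixedEmbedding.norm x) * (finrank ℚ K : ℝ)⁻¹)]
  rw [Real.exp_neg, inv_mul_le_iff₀ (Real.exp_pos _)]
  refine norm_le_of_forall _ _ fun w' => ?_
  have h5 := (abs_le.mp (hlog w')).2
  have h6 := (abs_le.mp (hlog w)).1
  have h7 : Real.log (normAtPlace w' x) ≤ 2 * B' + Real.log (normAtPlace w x) := by linarith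
  calc normAtPlace w' x = Real.exp (Real.log (normAtPlace w' x)) :=
        (Real.exp_log (hpos w')).symm
    _ ≤ Real.exp (2 * B' + Real.log (normAtPlace w x)) := Real.exp_le_exp.mpr h7
    _ = Real.exp (2 * B') * normAtPlace w x := by rw [Real.exp_add, Real.exp_log (hpos w)]

/-- The weighted norm function. -/
noncomputable def hfun (s : ℝ) (x : mixedSpace K) : ℝ :=
  weight x * (max (mixedEmbedding.norm x) 1) ^ (-s)

theorem hfun_nonneg (s : ℝ) (x : mixedSpace K) : 0 ≤ hfun s x :=
  mul_nonneg (weight_nonneg x) (Real.rpow_nonneg (le_max_of_le_right zero_le_one) _)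

theorem hfun_le_one {s : ℝ} (hs : 0 ≤ s) (x : mixedSpace K) : hfun s x ≤ 1 := by
  have h1 : (max (mixedEmbedding.norm x) 1) ^ (-s) ≤ 1 :=
    Real.rpow_le_one_of_one_le_of_nonpos (le_max_right _ _) (by linarith)
  have h2 : 0 ≤ (max (mixedEmbedding.norm x) 1) ^ (-s) :=
    Real.rpow_nonneg (le_max_of_le_right zero_le_one) _
  unfold hfun
  nlinarith [weight_nonneg x, weight_le_one x]

theorem measurable_hfun (s : ℝ) : Measurable (hfun (K := K) s) := by
  unfold hfun
  exact measurable_weight.mul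
    (((mixedEmbedding.continuous_norm K).measurable.max measurable_const).pow_const _)

theorem pow_le_norm {x : mixedSpace K} {m : ℝ} (hm : 0 < m)
    (hx : ∀ w, m ≤ normAtPlace w x) : m ^ (finrank ℚ K) ≤ mixedEmbedding.norm x := by
  rw [mixedEmbedding.norm_apply, ← sum_mult_eq, ← Finset.prod_pow_eq_pow_sum]
  exact Finset.prod_le_prod (fun w _ => by positivity) fun w _ =>
    pow_le_pow_left₀ hm.le (hx w) _

theorem abs_exp_sub_exp_le {a b m : ℝ} (ha : a ≤ m) (hb : b ≤ m) :
    |Real.exp a - Real.exp b| ≤ |a - b| * Real.exp m := by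
  wlog hab : b ≤ a generalizing a b
  · rw [abs_sub_comm, abs_sub_comm a b]
    exact this hb ha (le_of_not_ge hab)
  rw [abs_of_nonneg (sub_nonneg.mpr (Real.exp_le_exp.mpr hab)), abs_of_nonneg
    (sub_nonneg.mpr hab)]
  have h1 : Real.exp b = Real.exp a * Real.exp (b - a) := by
    rw [← Real.exp_add]; congr 1; ring
  have h2 : b - a + 1 ≤ Real.exp (b - a) := Real.add_one_le_exp _
  have h3 : Real.exp a ≤ Real.exp m := Real.exp_le_exp.mpr ha
  have h4 : 0 < Real.exp a := Real.exp_pos a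
  calc Real.exp a - Real.exp b = Real.exp a * (1 - Real.exp (b - a)) := by rw [h1]; ring
    _ ≤ Real.exp a * (a - b) := mul_le_mul_of_nonneg_left (by linarith) h4.le
    _ ≤ Real.exp m * (a - b) := mul_le_mul_of_nonneg_right h3 (by linarith)
    _ = (a - b) * Real.exp m := mul_comm _ _

theorem hfun_lip_aux : ∃ C : ℝ, 0 ≤ C ∧ ∀ s ∈ Set.Icc (1 : ℝ) 2, ∀ (x y : mixedSpace K) (m : ℝ),
    1 ≤ m → (∀ w, m ≤ normAtPlace w x) → (∀ w, m ≤ normAtPlace w y) →
    |hfun s x - hfun s y| ≤ C * ‖x - y‖ * m ^ (-(finrank ℚ K + 1 : ℝ)) := by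
  obtain ⟨C, hC0, hC⟩ := weight_lip (K := K)
  refine ⟨C + 2 * finrank ℚ K, by positivity, fun s hs x y m hm1 hx hy => ?_⟩
  have hm : 0 < m := one_pos.trans_le hm1
  have hNx := pow_le_norm hm hx
  have hNy := pow_le_norm hm hy
  have hpow1 : 1 ≤ m ^ (finrank ℚ K) := one_le_pow₀ hm1
  have hx1 : max (mixedEmbedding.norm x) 1 = mixedEmbedding.norm x :=
    max_eq_left (hpow1.trans hNx)
  have hy1 : max (mixedEmbedding.norm y) 1 = mixedEmbedding.norm y :=
    max_eq_left (hpow1.trans hNy)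
  have hpowpos : 0 < m ^ (finrank ℚ K) := by positivity
  have hNx0 : 0 < mixedEmbedding.norm x := hpowpos.trans_le hNx
  have hNy0 : 0 < mixedEmbedding.norm y := hpowpos.trans_le hNy
  unfold hfun
  rw [hx1, hy1]
  set M : ℝ := Real.log (m ^ (finrank ℚ K)) with hM
  have hM0 : 0 ≤ M := Real.log_nonneg hpow1
  have e1 : (mixedEmbedding.norm x) ^ (-s) = Real.exp (-s * Real.log (mixedEmbedding.norm x)) := by
    rw [Real.rpow_def_of_pos hNx0, mul_comm]
  have e2 : (mixedEmbedding.norm y) ^ (-s) = Real.exp (-s * Real.log (mixedEmbedding.norm y)) := by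
    rw [Real.rpow_def_of_pos hNy0, mul_comm]
  have hlx : M ≤ Real.log (mixedEmbedding.norm x) := Real.log_le_log hpowpos hNx
  have hly : M ≤ Real.log (mixedEmbedding.norm y) := Real.log_le_log hpowpos hNy
  have hs1 := hs.1
  have hs2 := hs.2
  have bx : -s * Real.log (mixedEmbedding.norm x) ≤ -M := by nlinarith
  have by' : -s * Real.log (mixedEmbedding.norm y) ≤ -M := by nlinarith
  have hexpM : Real.exp (-M) = m ^ (-(finrank ℚ K : ℝ)) := by
    rw [hM, Real.log_pow, Real.rpow_def_of_pos hm]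
    congr 1; ring
  have hexp : |(mixedEmbedding.norm x) ^ (-s) - (mixedEmbedding.norm y) ^ (-s)| ≤
      2 * (finrank ℚ K * (‖x - y‖ / m)) * Real.exp (-M) := by
    rw [e1, e2]
    refine (abs_exp_sub_exp_le bx by').trans ?_
    gcongr
    rw [← mul_sub, abs_mul, abs_neg, abs_of_nonneg (by linarith : (0:ℝ) ≤ s)]
    have h3 := abs_log_norm_sub_le hm hx hy
    have h4 := abs_nonneg (Real.log (mixedEmbedding.norm x) - Real.log (mixedEmbedding.norm y))
    nlinarith
  have hle : (mixedEmbedding.norm x) ^ (-s) ≤ Real.exp (-M) := by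
    rw [e1]; exact Real.exp_le_exp.mpr bx
  have hpos : 0 ≤ (mixedEmbedding.norm x) ^ (-s) := Real.rpow_nonneg hNx0.le _
  have hfin : m ^ (-(finrank ℚ K + 1 : ℝ)) = Real.exp (-M) / m := by
    rw [hexpM, neg_add, Real.rpow_add hm, Real.rpow_neg_one, div_eq_mul_inv]
  calc |weight x * (mixedEmbedding.norm x) ^ (-s) - weight y * (mixedEmbedding.norm y) ^ (-s)|
      = |(weight x - weight y) * (mixedEmbedding.norm x) ^ (-s) +
        weight y * ((mixedEmbedding.norm x) ^ (-s) - (mixedEmbedding.norm y) ^ (-s))| := by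
        congr 1; ring
    _ ≤ |(weight x - weight y) * (mixedEmbedding.norm x) ^ (-s)| +
        |weight y * ((mixedEmbedding.norm x) ^ (-s) - (mixedEmbedding.norm y) ^ (-s))| :=
        abs_add_le _ _
    _ = |weight x - weight y| * (mixedEmbedding.norm x) ^ (-s) +
        weight y * |(mixedEmbedding.norm x) ^ (-s) - (mixedEmbedding.norm y) ^ (-s)| := by
        rw [abs_mul, abs_mul, abs_of_nonneg hpos, abs_of_nonneg (weight_nonneg y)]
    _ ≤ (C * (‖x - y‖ / m)) * Real.exp (-M) +
        1 * (2 * (finrank ℚ K * (‖x - y‖ / m)) * Real.exp (-M)) := by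
        gcongr
        · exact hC x y m hm hx hy
        · exact weight_le_one y
    _ = (C + 2 * finrank ℚ K) * ‖x - y‖ * m ^ (-(finrank ℚ K + 1 : ℝ)) := by
        rw [hfin]; ring

theorem hfun_lip (D : ℝ) (hD : 0 < D) : ∃ R C : ℝ, ∀ s ∈ Set.Icc (1 : ℝ) 2,
    ∀ (x y : mixedSpace K), R ≤ ‖x‖ → ‖x - y‖ ≤ D →
    |hfun s x - hfun s y| ≤ C * ‖x‖ ^ (-(finrank ℚ K + 1 : ℝ)) := by
  obtain ⟨c, hc0, hc⟩ := weight_support (K := K)
  obtain ⟨C, hC0, hC⟩ := hfun_lip_aux (K := K)
  refine ⟨max (max (4 * D / c) (2 * D)) (4 / c), C * D * (c / 4) ^ (-(finrank ℚ K + 1 : ℝ)),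
    fun s hs x y hR hxy => ?_⟩
  have hR1 : 4 * D / c ≤ ‖x‖ := (le_max_left _ _).trans ((le_max_left _ _).trans hR)
  have hR2 : 2 * D ≤ ‖x‖ := (le_max_right _ _).trans ((le_max_left _ _).trans hR)
  have hR3 : 4 / c ≤ ‖x‖ := (le_max_right _ _).trans hR
  have hx0 : 0 < ‖x‖ := lt_of_lt_of_le (by positivity) hR3
  rw [div_le_iff₀ hc0] at hR1 hR3
  have hyn : ‖x‖ ≤ 2 * ‖y‖ := by
    have : ‖x‖ ≤ ‖x - y‖ + ‖y‖ := by simpa using norm_add_le (x - y) y
    linarith
  have hm1 : 1 ≤ c / 4 * ‖x‖ := by linarith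
  have main : (∀ w, c / 4 * ‖x‖ ≤ normAtPlace w x) → (∀ w, c / 4 * ‖x‖ ≤ normAtPlace w y) →
      |hfun s x - hfun s y| ≤ C * D * (c / 4) ^ (-(finrank ℚ K + 1 : ℝ)) *
        ‖x‖ ^ (-(finrank ℚ K + 1 : ℝ)) := by
    intro hx hy
    refine (hC s hs x y _ hm1 hx hy).trans ?_
    rw [Real.mul_rpow (by positivity) hx0.le, ← mul_assoc]
    gcongr
  by_cases hWx : weight x = 0
  · by_cases hWy : weight y = 0
    · simp only [hfun, hWx, hWy, zero_mul, sub_self, abs_zero]
      positivity
    · have h1 := hc y hWy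
      refine main (fun w => ?_) (fun w => ?_)
      · have h2 := (abs_le.mp (abs_normAtPlace_sub_le x y w)).1
        have h3 := h1 w
        nlinarith
      · have h3 := h1 w
        nlinarith
  · have h1 := hc x hWx
    refine main (fun w => ?_) (fun w => ?_)
    · have h3 := h1 w
      nlinarith
    · have h2 := (abs_le.mp (abs_normAtPlace_sub_le x y w)).2
      have h3 := h1 w
      nlinarith

end Fermat.Agent.IdealL
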