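import Mathlib
import Fermat.Agent.IdealL.Weight

open MeasureTheory Module NumberField NumberField.Units
  NumberField.Units.dirichletUnitTheorem NumberField.mixedEmbedding NumberField.InfinitePlace

open scoped Classical

namespace Fermat.Agent.IdealL

theorem tent_eq_zero {y : ℝ} {n : ℤ} (h : n ∉ ({-⌊y⌋, -⌊y⌋ - 1} : Finset ℤ)) :
    tent (n + y) = 0 := by
  simp only [Finset.mem_insert, Finset.mem_singleton, not_or] at h
  have h1 : (n : ℝ) + y = ((n + ⌊y⌋ : ℤ) : ℝ) + Int.fract y := by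
    rw [Int.fract]; push_cast; ring
  have h0 := Int.fract_nonneg y
  have h2 := Int.fract_lt_one y
  unfold tent
  rw [h1]
  refine max_eq_right ?_
  rcases lt_or_ge (n + ⌊y⌋) 1 with h3 | h3
  · have h4 : n + ⌊y⌋ ≤ -2 := by omega
    have h5 : ((n + ⌊y⌋ : ℤ) : ℝ) ≤ -2 := by exact_mod_cast h4
    have := neg_le_abs (((n + ⌊y⌋ : ℤ) : ℝ) + Int.fract y)
    linarith
  · have h5 : (1 : ℝ) ≤ ((n + ⌊y⌋ : ℤ) : ℝ) := by exact_mod_cast h3
    have := le_abs_self (((n + ⌊y⌋ : ℤ) : ℝ) + Int.fract y)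
    linarith

theorem sum_tent (y : ℝ) : ∑ n ∈ ({-⌊y⌋, -⌊y⌋ - 1} : Finset ℤ), tent (n + y) = 1 := by
  rw [Finset.sum_pair (by omega)]
  have h0 := Int.fract_nonneg y
  have h2 := Int.fract_lt_one y
  have h1 : ((-⌊y⌋ : ℤ) : ℝ) + y = Int.fract y := by
    rw [Int.fract]; push_cast; ring
  have h3 : ((-⌊y⌋ - 1 : ℤ) : ℝ) + y = Int.fract y - 1 := by
    rw [Int.fract]; push_cast; ring
  rw [h1, h3]
  unfold tent
  rw [abs_of_nonneg h0, abs_of_nonpos (by linarith), max_eq_left (by linarith),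
    max_eq_left (by linarith)]
  ring

variable {K : Type*} [Field K] [NumberField K]

/-- Units as torsion times a free part. -/
noncomputable def unitEquiv : torsion K × (Fin (rank K) → ℤ) ≃ (𝓞 K)ˣ :=
  Equiv.ofBijective (fun p => (p.1 : (𝓞 K)ˣ) * ∏ i, fundSystem K i ^ p.2 i) <| by
    constructor
    · intro p q hpq
      exact (exist_unique_eq_mul_prod K (p.1 * ∏ i, fundSystem K i ^ p.2 i)).unique rfl hpq
    · intro x
      obtain ⟨p, hp, -⟩ := exist_unique_eq_mul_prod K x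
      exact ⟨p, hp.symm⟩

theorem unitEquiv_apply (p : torsion K × (Fin (rank K) → ℤ)) :
    unitEquiv p = (p.1 : (𝓞 K)ˣ) * ∏ i, fundSystem K i ^ p.2 i := rfl

theorem repr_logMap_unitEquiv (p : torsion K × (Fin (rank K) → ℤ)) {x : mixedSpace K}
    (hx : mixedEmbedding.norm x ≠ 0) (i : Fin (rank K)) :
    (logB K).repr (logMap (unitEquiv p • x)) i = p.2 i + (logB K).repr (logMap x) i := by
  rw [logMap_unit_smul _ hx, map_add, Finsupp.add_apply]
  congr 1
  have h1 : logEmbedding K (Additive.ofMul (unitEquiv p)) = ∑ j, (p.2 j : ℝ) • logB K j := by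
    rw [unitEquiv_apply, ofMul_mul, map_add, ofMul_prod, map_sum]
    have h2 : logEmbedding K (Additive.ofMul (p.1 : (𝓞 K)ˣ)) = 0 :=
      logEmbedding_eq_zero_iff.mpr p.1.2
    rw [h2, zero_add]
    refine Finset.sum_congr rfl fun j _ => ?_
    rw [ofMul_zpow, map_zsmul, logEmbedding_fundSystem, logB, Basis.ofZLatticeBasis_apply,
      Int.cast_smul_eq_zsmul]
  rw [h1, map_sum, Finsupp.coe_finsetSum, Finset.sum_apply]
  simp [Finsupp.single_apply]

theorem hasSum_weight {x : mixedSpace K} (hx : mixedEmbedding.norm x ≠ 0) :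
    HasSum (fun u : (𝓞 K)ˣ => weight (u • x)) (torsionOrder K) := by
  have : Fintype (torsion K) := Fintype.ofFinite _
  rw [← unitEquiv.hasSum_iff]
  set y : Fin (rank K) → ℝ := fun i => (logB K).repr (logMap x) i with hy
  have h1 : ∀ p : torsion K × (Fin (rank K) → ℤ),
      weight (unitEquiv p • x) = ∏ i, tent (p.2 i + y i) := by
    intro p
    unfold weight
    rw [norm_unit_smul, if_neg hx]
    exact Finset.prod_congr rfl fun i _ => by rw [repr_logMap_unitEquiv p hx]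
  have h2 : (fun u : (𝓞 K)ˣ => weight (u • x)) ∘ unitEquiv =
      fun p : torsion K × (Fin (rank K) → ℤ) => ∏ i, tent (p.2 i + y i) := funext h1
  rw [h2]
  set T : Finset (torsion K × (Fin (rank K) → ℤ)) := Finset.univ ×ˢ
    Fintype.piFinset fun i => ({-⌊y i⌋, -⌊y i⌋ - 1} : Finset ℤ) with hT
  have h3 : ∑ p ∈ T, ∏ i, tent (p.2 i + y i) = torsionOrder K := by
    rw [hT, Finset.sum_product]
    simp only
    rw [← Finset.prod_univ_sum (fun i => ({-⌊y i⌋, -⌊y i⌋ - 1} : Finset ℤ))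
      (fun i n => tent (n + y i))]
    simp only [sum_tent, Finset.prod_const_one, Finset.sum_const, Finset.card_univ, nsmul_eq_mul,
      mul_one]
    rw [torsionOrder, Nat.card_eq_fintype_card]
  rw [← h3]
  refine hasSum_sum_of_ne_finset_zero fun p hp => ?_
  have h4 : ∃ i, p.2 i ∉ ({-⌊y i⌋, -⌊y i⌋ - 1} : Finset ℤ) := by
    by_contra h5
    push Not at h5
    exact hp (by rw [hT, Finset.mem_product]; exact ⟨Finset.mem_univ _, Fintype.mem_piFinset.mpr h5⟩)
  obtain ⟨i, hi⟩ := h4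
  exact Finset.prod_eq_zero (Finset.mem_univ i) (tent_eq_zero hi)

end Fermat.Agent.IdealL
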