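import Mathlib
import Fermat.Agent.IdealL.UnitSum
import Fermat.Agent.IdealL.LatticeSum
import Fermat.Agent.Cheb.Analytic

open MeasureTheory Module NumberField NumberField.Units Ideal
  NumberField.Units.dirichletUnitTheorem NumberField.mixedEmbedding NumberField.InfinitePlace

open scoped Classical nonZeroDivisors

namespace Fermat.Agent.IdealL

variable (K : Type*) [Field K] [NumberField K]

/-- The term `N(I)^{-s}`. -/
noncomputable def iterm (s : ℝ) (I : (Ideal (𝓞 K))⁰) : ℝ := (absNorm (I : Ideal (𝓞 K)) : ℝ) ^ (-s)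

variable {K}

theorem one_le_absNorm (I : (Ideal (𝓞 K))⁰) : 1 ≤ absNorm (I : Ideal (𝓞 K)) :=
  Nat.one_le_iff_ne_zero.mpr (absNorm_ne_zero_of_nonZeroDivisors I)

theorem iterm_pos (s : ℝ) (I : (Ideal (𝓞 K))⁰) : 0 < iterm K s I :=
  Real.rpow_pos_of_pos (by exact_mod_cast one_le_absNorm I) _

theorem iterm_le_one {s : ℝ} (hs : 0 ≤ s) (I : (Ideal (𝓞 K))⁰) : iterm K s I ≤ 1 :=
  Real.rpow_le_one_of_one_le_of_nonpos (by exact_mod_cast one_le_absNorm I) (by linarith)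

theorem iterm_mul (s : ℝ) (I J : (Ideal (𝓞 K))⁰) : iterm K s (I * J) = iterm K s I * iterm K s J := by
  unfold iterm
  rw [Submonoid.coe_mul, map_mul, Nat.cast_mul, Real.mul_rpow (by positivity) (by positivity)]

theorem hasSum_allIdeals {s : ℝ} (hs : 1 < s) :
    HasSum (fun I : Ideal (𝓞 K) => (absNorm I : ℝ) ^ (-s)) (Cheb.zetaR K s) := by
  let e := Equiv.sigmaFiberEquiv (absNorm : Ideal (𝓞 K) → ℕ)
  rw [← e.hasSum_iff]
  have hfin : ∀ n : ℕ, Finite {I : Ideal (𝓞 K) // absNorm I = n} := fun n =>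
    (finite_setOfPred_absNorm_eq n).to_subtype
  have hterm : ∀ n : ℕ, ∑' I : {I : Ideal (𝓞 K) // absNorm I = n},
      (absNorm (I : Ideal (𝓞 K)) : ℝ) ^ (-s) = Cheb.zterm K s n := by
    intro n
    have := hfin n
    have := Fintype.ofFinite {I : Ideal (𝓞 K) // absNorm I = n}
    rw [tsum_fintype, Finset.sum_congr rfl (fun I _ => by rw [I.2]), Finset.sum_const,
      Finset.card_univ, nsmul_eq_mul, Cheb.zterm, Cheb.idealCount, Nat.card_eq_fintype_card]
  have hsum : Summable ((fun I : Ideal (𝓞 K) => (absNorm I : ℝ) ^ (-s)) ∘ e) := by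
    refine (summable_sigma_of_nonneg
      (fun x => Real.rpow_nonneg (Nat.cast_nonneg _) _)).mpr ⟨fun n => ?_, ?_⟩
    · have := hfin n
      exact Summable.of_finite
    · exact (Cheb.summable_zterm hs).congr fun n => (hterm n).symm
  rw [hsum.hasSum_iff, hsum.tsum_sigma' (fun n => by have := hfin n; exact Summable.of_finite),
    Cheb.zetaR]
  exact tsum_congr fun n => hterm n

theorem hasSum_iterm {s : ℝ} (hs : 1 < s) :
    HasSum (iterm K s) (Cheb.zetaR K s) := by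
  have h1 := hasSum_allIdeals (K := K) hs
  have h2 : Function.Injective ((↑) : (Ideal (𝓞 K))⁰ → Ideal (𝓞 K)) := Subtype.val_injective
  refine (h2.hasSum_iff ?_).mpr h1
  intro I hI
  have h3 : I ∉ (Ideal (𝓞 K))⁰ := fun h => hI ⟨⟨I, h⟩, rfl⟩
  have h4 : absNorm I = 0 := by
    by_contra h5
    exact h3 (absNorm_ne_zero_iff_mem_nonZeroDivisors.mp h5)
  rw [h4, Nat.cast_zero, Real.zero_rpow (by linarith)]

theorem summable_iterm {s : ℝ} (hs : 1 < s) : Summable (iterm K s) := (hasSum_iterm hs).summable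

variable (K) in
/-- partial zeta function of an ideal class -/
noncomputable def pzeta (s : ℝ) (c : ClassGroup (𝓞 K)) : ℝ :=
  ∑' I : {I : (Ideal (𝓞 K))⁰ // ClassGroup.mk0 I = c}, iterm K s I

theorem summable_class {s : ℝ} (hs : 1 < s) (c : ClassGroup (𝓞 K)) :
    Summable (fun I : {I : (Ideal (𝓞 K))⁰ // ClassGroup.mk0 I = c} => iterm K s I) :=
  (summable_iterm hs).comp_injective Subtype.val_injective

theorem pzeta_nonneg (s : ℝ) (c : ClassGroup (𝓞 K)) : 0 ≤ pzeta K s c :=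
  tsum_nonneg fun I => (iterm_pos s _).le

theorem pzeta_le {s : ℝ} (hs : 1 < s) (c : ClassGroup (𝓞 K)) : pzeta K s c ≤ Cheb.zetaR K s := by
  rw [← (hasSum_iterm hs).tsum_eq]
  exact Summable.tsum_subtype_le (iterm K s) {I | ClassGroup.mk0 I = c}
    (fun J => (iterm_pos s J).le) (summable_iterm hs)

theorem mk0_eq_one (I : (Ideal (𝓞 K))⁰) :
    ClassGroup.mk0 I = 1 ↔ (I : Ideal (𝓞 K)).IsPrincipal := ClassGroup.mk0_eq_one_iff I.2

/-- chosen generator -/
theorem exists_gen (b : (Ideal (𝓞 K))⁰)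
    (J : {J : (Ideal (𝓞 K))⁰ // ClassGroup.mk0 J = (ClassGroup.mk0 b)⁻¹}) :
    ∃ a : 𝓞 K, span {a} = (b : Ideal (𝓞 K)) * (J.1 : Ideal (𝓞 K)) := by
  have h1 : ClassGroup.mk0 (b * J.1) = 1 := by
    rw [map_mul, J.2, mul_inv_cancel]
  have h2 := (mk0_eq_one (b * J.1)).mp h1
  obtain ⟨a, ha⟩ := h2.principal
  exact ⟨a, by rw [Ideal.span, ← ha]; rfl⟩

noncomputable def gen (b : (Ideal (𝓞 K))⁰)
    (J : {J : (Ideal (𝓞 K))⁰ // ClassGroup.mk0 J = (ClassGroup.mk0 b)⁻¹}) : 𝓞 K :=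
  (exists_gen b J).choose

theorem span_gen (b : (Ideal (𝓞 K))⁰)
    (J : {J : (Ideal (𝓞 K))⁰ // ClassGroup.mk0 J = (ClassGroup.mk0 b)⁻¹}) :
    span {gen b J} = (b : Ideal (𝓞 K)) * (J.1 : Ideal (𝓞 K)) :=
  (exists_gen b J).choose_spec

theorem gen_ne_zero (b : (Ideal (𝓞 K))⁰)
    (J : {J : (Ideal (𝓞 K))⁰ // ClassGroup.mk0 J = (ClassGroup.mk0 b)⁻¹}) : gen b J ≠ 0 := by
  intro h
  have h1 := span_gen b J
  rw [h, span_singleton_eq_bot.mpr rfl] at h1
  have h2 : (b : Ideal (𝓞 K)) ≠ 0 := nonZeroDivisors.coe_ne_zero b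
  have h3 : (J.1 : Ideal (𝓞 K)) ≠ 0 := nonZeroDivisors.coe_ne_zero J.1
  exact mul_ne_zero h2 h3 h1.symm

theorem mixedNorm_eq (a : 𝓞 K) :
    mixedEmbedding.norm (mixedEmbedding K (a : K)) = absNorm (span {a}) := by
  rw [norm_eq_norm, absNorm_span_singleton, ← Algebra.coe_norm_int, Nat.cast_natAbs, Int.cast_abs,
    Rat.cast_abs, Rat.cast_intCast]

theorem mem_mk0 (b : (Ideal (𝓞 K))⁰) (x : K) :
    x ∈ ((FractionalIdeal.mk0 K b : (FractionalIdeal (𝓞 K)⁰ K)ˣ) :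
      FractionalIdeal (𝓞 K)⁰ K) ↔ ∃ a ∈ (b : Ideal (𝓞 K)), ((a : 𝓞 K) : K) = x := by
  rw [FractionalIdeal.coe_mk0]
  exact FractionalIdeal.mem_coeIdeal _

theorem mul_gen_mem (b : (Ideal (𝓞 K))⁰)
    (J : {J : (Ideal (𝓞 K))⁰ // ClassGroup.mk0 J = (ClassGroup.mk0 b)⁻¹}) (u : 𝓞 K) :
    u * gen b J ∈ (b : Ideal (𝓞 K)) := by
  refine Ideal.mul_mem_left _ _ ?_
  have h2 : gen b J ∈ (b : Ideal (𝓞 K)) * (J.1 : Ideal (𝓞 K)) := by
    rw [← span_gen]; exact mem_span_singleton_self _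
  have h3 : (b : Ideal (𝓞 K)) * (J.1 : Ideal (𝓞 K)) ≤ b := Ideal.mul_le_left
  exact h3 h2

/-- The map from classes times units to the lattice. -/
noncomputable def latMap (b : (Ideal (𝓞 K))⁰)
    (p : {J : (Ideal (𝓞 K))⁰ // ClassGroup.mk0 J = (ClassGroup.mk0 b)⁻¹} × (𝓞 K)ˣ) :
    mixedEmbedding.idealLattice K (FractionalIdeal.mk0 K b) :=
  ⟨mixedEmbedding K (((p.2 : 𝓞 K) * gen b p.1 : 𝓞 K) : K), by
    rw [mem_idealLattice]
    exact ⟨_, (mem_mk0 b _).mpr ⟨_, mul_gen_mem b p.1 p.2, rfl⟩, rfl⟩⟩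

theorem latMap_coe (b : (Ideal (𝓞 K))⁰)
    (p : {J : (Ideal (𝓞 K))⁰ // ClassGroup.mk0 J = (ClassGroup.mk0 b)⁻¹} × (𝓞 K)ˣ) :
    (latMap b p : mixedSpace K) = p.2 • mixedEmbedding K ((gen b p.1 : 𝓞 K) : K) := by
  simp [latMap, unitSMul_smul]

theorem latMap_injective (b : (Ideal (𝓞 K))⁰) : Function.Injective (latMap b) := by
  rintro ⟨J, u⟩ ⟨J', u'⟩ h
  have h1 : (u : 𝓞 K) * gen b J = u' * gen b J' := by
    have h2 := congrArg Subtype.val h
    exact RingOfIntegers.coe_injective (mixedEmbedding_injective K h2)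
  have h3 : span {gen b J} = span {gen b J'} := by
    rw [span_singleton_eq_span_singleton]
    refine ⟨u * u'⁻¹, ?_⟩
    rw [Units.val_mul, ← mul_assoc, mul_comm (gen b J), h1]
    rw [mul_comm (u' : 𝓞 K), mul_assoc, Units.mul_inv, mul_one]
  rw [span_gen, span_gen] at h3
  have h4 : J = J' := by
    apply Subtype.ext
    apply Subtype.ext
    exact mul_left_cancel₀ (nonZeroDivisors.coe_ne_zero b) h3
  subst h4
  have h5 : (u : 𝓞 K) = u' := mul_right_cancel₀ (gen_ne_zero b J) h1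
  rw [Units.ext h5]

theorem mem_range_latMap (b : (Ideal (𝓞 K))⁰)
    (v : mixedEmbedding.idealLattice K (FractionalIdeal.mk0 K b)) (hv : v ∉ Set.range (latMap b)) :
    (v : mixedSpace K) = 0 := by
  by_contra hne
  apply hv
  obtain ⟨y, hy, hyv⟩ := (mem_idealLattice K _).mp v.2
  obtain ⟨a, ha, hay⟩ := (mem_mk0 b y).mp hy
  have ha0 : a ≠ 0 := by
    rintro rfl
    apply hne
    rw [← hyv, ← hay]
    simp
  have hdvd : (b : Ideal (𝓞 K)) ∣ span {a} := by
    rw [Ideal.dvd_span_singleton]; exact ha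
  obtain ⟨J, hJ⟩ := hdvd
  have hJ0 : J ≠ 0 := by
    rintro rfl
    rw [mul_zero] at hJ
    exact ha0 (span_singleton_eq_bot.mp hJ)
  obtain ⟨J', rfl⟩ : ∃ J' : (Ideal (𝓞 K))⁰, (J' : Ideal (𝓞 K)) = J :=
    ⟨⟨J, mem_nonZeroDivisors_of_ne_zero hJ0⟩, rfl⟩
  have hcl : ClassGroup.mk0 J' = (ClassGroup.mk0 b)⁻¹ := by
    rw [eq_inv_iff_mul_eq_one, mul_comm, ← map_mul, mk0_eq_one, Submonoid.coe_mul, ← hJ]
    infer_instance
  have h5 : span {gen b ⟨J', hcl⟩} = span {a} := by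
    rw [span_gen, hJ]
  rw [span_singleton_eq_span_singleton] at h5
  obtain ⟨u, hu⟩ := h5
  refine ⟨(⟨J', hcl⟩, u), Subtype.ext ?_⟩
  change mixedEmbedding K _ = _
  rw [← hyv, ← hay, mul_comm, hu]

theorem hasSum_lattice {s : ℝ} (hs : 1 < s) (b : (Ideal (𝓞 K))⁰) :
    HasSum (fun v : mixedEmbedding.idealLattice K (FractionalIdeal.mk0 K b) => hfun s (v : mixedSpace K))
      (torsionOrder K * (iterm K s b * pzeta K s (ClassGroup.mk0 b)⁻¹)) := by
  have hzero : ∀ v ∉ Set.range (latMap b), hfun s (v : mixedSpace K) = 0 := by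
    intro v hv
    rw [mem_range_latMap b v hv]
    simp [hfun, weight]
  rw [← (latMap_injective b).hasSum_iff hzero]
  set f : {J : (Ideal (𝓞 K))⁰ // ClassGroup.mk0 J = (ClassGroup.mk0 b)⁻¹} × (𝓞 K)ˣ → ℝ :=
    fun p => iterm K s (b * p.1.1) * weight (p.2 • mixedEmbedding K ((gen b p.1 : 𝓞 K) : K)) with hf
  have hnorm : ∀ J : {J : (Ideal (𝓞 K))⁰ // ClassGroup.mk0 J = (ClassGroup.mk0 b)⁻¹},
      mixedEmbedding.norm (mixedEmbedding K ((gen b J : 𝓞 K) : K)) =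
        absNorm ((b * J.1 : (Ideal (𝓞 K))⁰) : Ideal (𝓞 K)) := by
    intro J
    rw [mixedNorm_eq, span_gen, Submonoid.coe_mul]
  have h1 : (fun v : mixedEmbedding.idealLattice K (FractionalIdeal.mk0 K b) =>
      hfun s (v : mixedSpace K)) ∘ latMap b = f := by
    funext p
    simp only [Function.comp_apply, hf]
    rw [latMap_coe, hfun, norm_unit_smul, hnorm, max_eq_left
      (by exact_mod_cast one_le_absNorm (b * p.1.1)), mul_comm]
    rfl
  rw [h1]
  have hf0 : 0 ≤ f := fun p => mul_nonneg (iterm_pos s _).le (weight_nonneg _)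
  have hfib : ∀ J, HasSum (fun u => f (J, u)) (iterm K s (b * J.1) * torsionOrder K) := by
    intro J
    have h8 := one_le_absNorm (b * J.1)
    have h9 : mixedEmbedding.norm (mixedEmbedding K ((gen b J : 𝓞 K) : K)) ≠ 0 := by
      rw [hnorm, Nat.cast_ne_zero]
      omega
    have h10 := (hasSum_weight h9).mul_left (iterm K s (b * J.1))
    exact h10
  have hsumJ : HasSum (fun J : {J : (Ideal (𝓞 K))⁰ // ClassGroup.mk0 J = (ClassGroup.mk0 b)⁻¹} =>
      iterm K s (b * J.1) * torsionOrder K)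
      (torsionOrder K * (iterm K s b * pzeta K s (ClassGroup.mk0 b)⁻¹)) := by
    have h2 := ((summable_class hs (ClassGroup.mk0 b)⁻¹).hasSum.mul_left
      ((torsionOrder K : ℝ) * iterm K s b))
    rw [← mul_assoc]
    refine h2.congr_fun fun J => ?_
    rw [iterm_mul]; ring
  have hfs : Summable f := by
    rw [summable_prod_of_nonneg hf0]
    exact ⟨fun J => (hfib J).summable, hsumJ.summable.congr fun J => (hfib J).tsum_eq.symm⟩
  have h3 := hfs.hasSum.prod_fiberwise hfib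
  rw [hsumJ.unique h3]
  exact hfs.hasSum

end Fermat.Agent.IdealL
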