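import Mathlib
import Fermat.Agent.IdealL.Partial

open MeasureTheory Module NumberField NumberField.Units Ideal Filter Topology
  NumberField.Units.dirichletUnitTheorem NumberField.mixedEmbedding NumberField.InfinitePlace

open scoped Classical nonZeroDivisors

namespace Fermat.Agent.IdealL

variable {K : Type*} [Field K] [NumberField K]

theorem iterm_antitone {s t : ℝ} (h : s ≤ t) (I : (Ideal (𝓞 K))⁰) : iterm K t I ≤ iterm K s I :=
  Real.rpow_le_rpow_of_exponent_le (by exact_mod_cast one_le_absNorm I) (by linarith)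

theorem zetaR_antitone {s t : ℝ} (hs : 1 < s) (h : s ≤ t) :
    Cheb.zetaR K t ≤ Cheb.zetaR K s :=
  hasSum_le (iterm_antitone h) (hasSum_iterm (hs.trans_le h)) (hasSum_iterm hs)

theorem zetaR_nonneg {s : ℝ} (hs : 1 < s) : 0 ≤ Cheb.zetaR K s :=
  zero_le_one.trans (Cheb.zetaR_pos hs)

variable (K) in
theorem exists_sub_one_mul_zetaR_le : ∃ C : ℝ, 0 ≤ C ∧ ∀ s ∈ Set.Ioc (1 : ℝ) 2,
    (s - 1) * Cheb.zetaR K s ≤ C := by
  have h1 := Cheb.tendsto_zetaR (K := K)
  have h2 : ∀ᶠ s in 𝓝[>] (1 : ℝ), (s - 1) * Cheb.zetaR K s < dedekindZeta_residue K + 1 :=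
    h1.eventually_lt_const (by linarith)
  rw [eventually_nhdsWithin_iff, Metric.eventually_nhds_iff] at h2
  obtain ⟨δ, hδ, h3⟩ := h2
  refine ⟨max (dedekindZeta_residue K + 1) (Cheb.zetaR K (1 + δ / 2)),
    le_max_of_le_left (by have := dedekindZeta_residue_pos K; linarith), fun s hs => ?_⟩
  rcases lt_or_ge s (1 + δ / 2) with h | h
  · refine le_max_of_le_left (h3 ?_ hs.1).le
    rw [Real.dist_eq, abs_of_pos (by linarith [hs.1])]
    linarith
  · refine le_max_of_le_right ?_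
    have h4 : Cheb.zetaR K s ≤ Cheb.zetaR K (1 + δ / 2) := zetaR_antitone (by linarith) h
    have h5 := zetaR_nonneg (K := K) hs.1
    have := hs.2
    nlinarith

/-- The main estimate for one ideal. -/
theorem exists_bound_one (b : (Ideal (𝓞 K))⁰) : ∃ C : ℝ, ∀ s ∈ Set.Ioc (1 : ℝ) 2,
    |((2⁻¹ : ℝ) ^ nrComplexPlaces K * √|discr K|) * torsionOrder K *
      pzeta K s (ClassGroup.mk0 b)⁻¹ - ∫ x : mixedSpace K, hfun s x| ≤ C := by
  obtain ⟨D, hD, hmain⟩ := sum_sub_integral_le (volume : Measure (mixedSpace K))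
    (mixedEmbedding.idealLattice K (FractionalIdeal.mk0 K b))
  obtain ⟨R, C, hRC⟩ := hfun_lip (K := K) D hD
  obtain ⟨C', hC'⟩ := hmain R C
  obtain ⟨C0, hC00, hC0⟩ := exists_sub_one_mul_zetaR_le K
  set κ : ℝ := (2⁻¹ : ℝ) ^ nrComplexPlaces K * √|discr K| with hκ
  have hκ0 : 0 ≤ κ := by positivity
  have hrank : finrank ℝ (mixedSpace K) = finrank ℚ K := mixedEmbedding.finrank K
  have hcov : ZLattice.covolume (mixedEmbedding.idealLattice K (FractionalIdeal.mk0 K b)) =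
      (absNorm (b : Ideal (𝓞 K)) : ℝ) * κ := by
    rw [covolume_idealLattice, FractionalIdeal.coe_mk0, FractionalIdeal.coeIdeal_absNorm, hκ,
      mul_assoc]
    push_cast
    rfl
  set N : ℝ := (absNorm (b : Ideal (𝓞 K)) : ℝ) with hN
  have hN1 : 1 ≤ N := by
    rw [hN]
    exact_mod_cast one_le_absNorm b
  have hlogN : 0 ≤ Real.log N := Real.log_nonneg hN1
  refine ⟨C' + κ * torsionOrder K * (C0 * Real.log N), fun s hs => ?_⟩
  have hs1 : 1 < s := hs.1
  have hsum := hasSum_lattice hs1 b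
  have h1 := (hC' (hfun s) (measurable_hfun s) (hfun_nonneg s) (hfun_le_one (by linarith))
    (fun x y hx hxy => by
      rw [hrank]
      exact hRC s ⟨hs.1.le, hs.2⟩ x y hx hxy) hsum.summable).2
  rw [hsum.tsum_eq, hcov] at h1
  set P := pzeta K s (ClassGroup.mk0 b)⁻¹ with hP
  have hP0 : 0 ≤ P := pzeta_nonneg _ _
  have hit : iterm K s b = N ^ (-s) := rfl
  rw [hit] at h1
  have hNs : N * N ^ (-s) = Real.exp (-((s - 1) * Real.log N)) := by
    have hN0 : 0 < N := by linarith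
    calc N * N ^ (-s) = N ^ (1 : ℝ) * N ^ (-s) := by rw [Real.rpow_one]
      _ = N ^ (1 - s) := by rw [← Real.rpow_add hN0]; rfl
      _ = _ := by rw [Real.rpow_def_of_pos hN0]; congr 1; ring
  have h2 : 1 - N * N ^ (-s) ≤ (s - 1) * Real.log N := by
    rw [hNs]
    have := Real.add_one_le_exp (-((s - 1) * Real.log N))
    linarith
  have h3 : 0 ≤ 1 - N * N ^ (-s) := by
    rw [hNs, sub_nonneg]
    refine Real.exp_le_one_iff.mpr ?_
    have : 0 ≤ (s - 1) * Real.log N := mul_nonneg (by linarith) hlogN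
    linarith
  have h4 : P * (1 - N * N ^ (-s)) ≤ C0 * Real.log N := by
    calc P * (1 - N * N ^ (-s)) ≤ P * ((s - 1) * Real.log N) := by gcongr
      _ = ((s - 1) * P) * Real.log N := by ring
      _ ≤ ((s - 1) * Cheb.zetaR K s) * Real.log N := by
        have := pzeta_le (K := K) hs1 (ClassGroup.mk0 b)⁻¹
        have h6 : 0 ≤ s - 1 := by linarith
        gcongr
      _ ≤ C0 * Real.log N := by
        gcongr
        exact hC0 s hs
  have h5 : 0 ≤ P * (1 - N * N ^ (-s)) := mul_nonneg hP0 h3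
  have h6 : κ * torsionOrder K * P - ∫ x : mixedSpace K, hfun s x =
      (N * κ * (torsionOrder K * (N ^ (-s) * P)) - ∫ x : mixedSpace K, hfun s x) +
      κ * torsionOrder K * (P * (1 - N * N ^ (-s))) := by ring
  rw [h6]
  refine (abs_add_le _ _).trans (add_le_add h1 ?_)
  rw [abs_mul, abs_of_nonneg h5, abs_of_nonneg (by positivity)]
  gcongr

theorem exists_bound_pzeta (K : Type*) [Field K] [NumberField K] :
    ∃ C : ℝ, ∀ s ∈ Set.Ioc (1 : ℝ) 2, ∀ c c' : ClassGroup (𝓞 K),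
      |pzeta K s c - pzeta K s c'| ≤ C := by
  have h1 : ∀ c : ClassGroup (𝓞 K), ∃ C : ℝ, ∀ s ∈ Set.Ioc (1 : ℝ) 2,
      |((2⁻¹ : ℝ) ^ nrComplexPlaces K * √|discr K|) * torsionOrder K *
        pzeta K s c - ∫ x : mixedSpace K, hfun s x| ≤ C := by
    intro c
    obtain ⟨b, hb⟩ := ClassGroup.mk0_surjective c⁻¹
    obtain ⟨C, hC⟩ := exists_bound_one b
    refine ⟨C, fun s hs => ?_⟩
    have := hC s hs
    rwa [hb, inv_inv] at this
  choose C hC using h1
  have hκ0 : 0 < ((2⁻¹ : ℝ) ^ nrComplexPlaces K * √|discr K|) * torsionOrder K := by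
    have h2 : (0 : ℝ) < |discr K| := by
      exact_mod_cast abs_pos.mpr (discr_ne_zero K)
    have h3 : (0 : ℝ) < torsionOrder K := by exact_mod_cast torsionOrder_pos K
    have h4 : 0 < √(|discr K| : ℝ) := Real.sqrt_pos.mpr (by exact_mod_cast h2)
    have h5 : 0 < (2⁻¹ : ℝ) ^ nrComplexPlaces K := by positivity
    exact mul_pos (mul_pos h5 (by exact_mod_cast h4)) h3
  set κ : ℝ := ((2⁻¹ : ℝ) ^ nrComplexPlaces K * √|discr K|) * torsionOrder K with hκ
  have hC0 : ∀ c, 0 ≤ C c := fun c => (abs_nonneg _).trans (hC c 2 ⟨by norm_num, le_rfl⟩)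
  refine ⟨(∑ c, C c + ∑ c, C c) / κ, fun s hs c c' => ?_⟩
  rw [le_div_iff₀ hκ0]
  have h2 := hC c s hs
  have h3 := hC c' s hs
  have h4 : C c ≤ ∑ c, C c := Finset.single_le_sum (fun i _ => hC0 i) (Finset.mem_univ c)
  have h5 : C c' ≤ ∑ c, C c := Finset.single_le_sum (fun i _ => hC0 i) (Finset.mem_univ c')
  calc |pzeta K s c - pzeta K s c'| * κ = |(κ * pzeta K s c - ∫ x : mixedSpace K, hfun s x) -
      (κ * pzeta K s c' - ∫ x : mixedSpace K, hfun s x)| := by
        rw [← abs_of_pos hκ0, ← abs_mul, abs_of_pos hκ0]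
        congr 1; ring
    _ ≤ _ := (abs_sub _ _).trans (by linarith)

end Fermat.Agent.IdealL
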