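import Mathlib

open NumberField Ideal Filter Topology

open scoped Classical nonZeroDivisors

namespace Fermat.Agent.IdealL

variable (K : Type*) [Field K] [NumberField K]

/-- nonzero prime ideals -/
abbrev PI := {P : (Ideal (𝓞 K))⁰ // (P : Ideal (𝓞 K)).IsPrime}

variable {K}

/-- sieve term -/
noncomputable def sieve (F : (Ideal (𝓞 K))⁰ → ℂ) (Q : Finset (PI K)) (I : (Ideal (𝓞 K))⁰) : ℂ :=
  if ∀ q ∈ Q, ¬ ((q.1 : Ideal (𝓞 K)) ∣ (I : Ideal (𝓞 K))) then F I else 0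

theorem norm_sieve_le (F : (Ideal (𝓞 K))⁰ → ℂ) (Q : Finset (PI K)) (I : (Ideal (𝓞 K))⁰) :
    ‖sieve F Q I‖ ≤ ‖F I‖ := by
  unfold sieve
  split_ifs
  · exact le_rfl
  · simp

theorem summable_sieve {F : (Ideal (𝓞 K))⁰ → ℂ} (hF : Summable F) (Q : Finset (PI K)) :
    Summable (sieve F Q) :=
  Summable.of_norm_bounded hF.norm (norm_sieve_le F Q)

theorem prime_coe (q : PI K) : Prime ((q.1 : (Ideal (𝓞 K))⁰) : Ideal (𝓞 K)) :=
  Ideal.prime_of_isPrime (nonZeroDivisors.coe_ne_zero q.1) q.2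

theorem not_dvd_of_ne {q q' : PI K} (h : q' ≠ q) :
    ¬ ((q'.1 : Ideal (𝓞 K)) ∣ (q.1 : Ideal (𝓞 K))) := by
  intro h1
  rw [Ideal.dvd_iff_le] at h1
  have h2 : (q.1 : Ideal (𝓞 K)).IsMaximal := q.2.isMaximal (nonZeroDivisors.coe_ne_zero q.1)
  have h3 := h2.eq_of_le q'.2.ne_top h1
  exact h (Subtype.ext (Subtype.ext h3.symm))

theorem sieve_mul {F : (Ideal (𝓞 K))⁰ → ℂ} (hmul : ∀ I J, F (I * J) = F I * F J)
    {q : PI K} {Q : Finset (PI K)} (hq : q ∉ Q) (J : (Ideal (𝓞 K))⁰) :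
    sieve F Q (q.1 * J) = F q.1 * sieve F Q J := by
  unfold sieve
  have h1 : (∀ q' ∈ Q, ¬ ((q'.1 : Ideal (𝓞 K)) ∣ ((q.1 * J : (Ideal (𝓞 K))⁰) : Ideal (𝓞 K)))) ↔
      ∀ q' ∈ Q, ¬ ((q'.1 : Ideal (𝓞 K)) ∣ (J : Ideal (𝓞 K))) := by
    refine forall₂_congr fun q' hq' => not_congr ?_
    rw [Submonoid.coe_mul, (prime_coe q').dvd_mul]
    have h2 : q' ≠ q := fun h => hq (h ▸ hq')
    simp [not_dvd_of_ne h2]
  rw [hmul]
  by_cases h : ∀ q' ∈ Q, ¬ ((q'.1 : Ideal (𝓞 K)) ∣ (J : Ideal (𝓞 K)))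
  · rw [if_pos (h1.mpr h), if_pos h]
  · rw [if_neg (fun h2 => h (h1.mp h2)), if_neg h, mul_zero]

theorem tsum_sieve_insert {F : (Ideal (𝓞 K))⁰ → ℂ} (hmul : ∀ I J, F (I * J) = F I * F J)
    (hF : Summable F) {q : PI K} {Q : Finset (PI K)} (hq : q ∉ Q) :
    ∑' I, sieve F (insert q Q) I = (1 - F q.1) * ∑' I, sieve F Q I := by
  set g : (Ideal (𝓞 K))⁰ → ℂ := fun I =>
    if (q.1 : Ideal (𝓞 K)) ∣ (I : Ideal (𝓞 K)) then sieve F Q I else 0 with hg
  have hgs : Summable g := by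
    refine Summable.of_norm_bounded hF.norm fun I => ?_
    simp only [hg]
    split_ifs
    · exact norm_sieve_le F Q I
    · simp
  have h1 : ∀ I, sieve F Q I = sieve F (insert q Q) I + g I := by
    intro I
    simp only [hg, sieve, Finset.mem_insert, forall_eq_or_imp]
    by_cases h2 : (q.1 : Ideal (𝓞 K)) ∣ (I : Ideal (𝓞 K))
    · simp [h2]
    · simp [h2]
  have h2 : ∑' I, g I = F q.1 * ∑' I, sieve F Q I := by
    have hinj : Function.Injective (fun J : (Ideal (𝓞 K))⁰ => q.1 * J) := by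
      intro J J' h
      have h3 := congrArg (fun x : (Ideal (𝓞 K))⁰ => (x : Ideal (𝓞 K))) h
      simp only [Submonoid.coe_mul] at h3
      exact Subtype.ext (mul_left_cancel₀ (nonZeroDivisors.coe_ne_zero q.1) h3)
    have hsupp : Function.support g ⊆ Set.range (fun J : (Ideal (𝓞 K))⁰ => q.1 * J) := by
      intro I hI
      have h4 : (q.1 : Ideal (𝓞 K)) ∣ (I : Ideal (𝓞 K)) := by
        by_contra h5
        exact hI (by simp only [hg]; rw [if_neg h5])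
      obtain ⟨J, hJ⟩ := h4
      have hJ0 : J ≠ 0 := by
        rintro rfl
        rw [mul_zero] at hJ
        exact nonZeroDivisors.coe_ne_zero I hJ
      exact ⟨⟨J, mem_nonZeroDivisors_of_ne_zero hJ0⟩, Subtype.ext hJ.symm⟩
    rw [← hinj.tsum_eq hsupp, ← tsum_mul_left]
    refine tsum_congr fun J => ?_
    simp only [hg]
    rw [if_pos ⟨(J : Ideal (𝓞 K)), by rw [Submonoid.coe_mul]⟩, sieve_mul hmul hq]
  have h3 : ∑' I, sieve F Q I = ∑' I, sieve F (insert q Q) I + ∑' I, g I := by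
    rw [← (summable_sieve hF _).tsum_add hgs]
    exact tsum_congr h1
  rw [h2] at h3
  linear_combination -h3

theorem tsum_sieve {F : (Ideal (𝓞 K))⁰ → ℂ} (hmul : ∀ I J, F (I * J) = F I * F J)
    (hF : Summable F) (Q : Finset (PI K)) :
    ∑' I, sieve F Q I = (∏ q ∈ Q, (1 - F q.1)) * ∑' I, F I := by
  induction Q using Finset.induction_on with
  | empty => simp [sieve]
  | insert q Q hq ih =>
    rw [tsum_sieve_insert hmul hF hq, ih, Finset.prod_insert hq]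
    ring

theorem exists_prime_dvd {I : (Ideal (𝓞 K))⁰} (hI : I ≠ 1) :
    ∃ q : PI K, (q.1 : Ideal (𝓞 K)) ∣ (I : Ideal (𝓞 K)) := by
  have h1 : (I : Ideal (𝓞 K)) ≠ ⊤ := fun h => hI (Subtype.ext (by
    rw [h, OneMemClass.coe_one, Ideal.one_eq_top]))
  obtain ⟨M, hM, hle⟩ := Ideal.exists_le_maximal _ h1
  have hM0 : M ≠ 0 := by
    rintro rfl
    exact nonZeroDivisors.coe_ne_zero I (le_bot_iff.mp hle)
  exact ⟨⟨⟨M, mem_nonZeroDivisors_of_ne_zero hM0⟩, hM.isPrime⟩, Ideal.dvd_iff_le.mpr hle⟩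

theorem not_prime_dvd_one (q : PI K) :
    ¬ ((q.1 : Ideal (𝓞 K)) ∣ ((1 : (Ideal (𝓞 K))⁰) : Ideal (𝓞 K))) := by
  intro h
  exact (prime_coe q).not_isUnit (isUnit_of_dvd_one (by simpa using h))

/-- The Euler product. -/
theorem tendsto_euler {F : (Ideal (𝓞 K))⁰ → ℂ} (h1 : F 1 = 1)
    (hmul : ∀ I J, F (I * J) = F I * F J) (hF : Summable F) :
    Tendsto (fun Q : Finset (PI K) => (∏ q ∈ Q, (1 - F q.1)) * ∑' I, F I) atTop (𝓝 1) := by
  have h2 : Tendsto (fun Q : Finset (PI K) => ∑' I, sieve F Q I) atTop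
      (𝓝 (∑' I : (Ideal (𝓞 K))⁰, (if I = 1 then (1 : ℂ) else 0))) := by
    refine tendsto_tsum_of_dominated_convergence hF.norm (fun I => ?_)
      (Eventually.of_forall fun Q I => norm_sieve_le F Q I)
    by_cases hI : I = 1
    · subst hI
      rw [if_pos rfl]
      refine tendsto_const_nhds.congr fun Q => ?_
      unfold sieve
      rw [if_pos fun q _ => not_prime_dvd_one q, h1]
    · rw [if_neg hI]
      obtain ⟨q, hq⟩ := exists_prime_dvd hI
      refine tendsto_const_nhds.congr' ?_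
      filter_upwards [eventually_ge_atTop ({q} : Finset (PI K))] with Q hQ
      unfold sieve
      rw [if_neg fun h => h q (hQ (Finset.mem_singleton_self q)) hq]
  rw [tsum_ite_eq] at h2
  refine h2.congr fun Q => ?_
  rw [tsum_sieve hmul hF]

end Fermat.Agent.IdealL
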