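import Mathlib
import Fermat.Agent.IdealL.Bound
import Fermat.Agent.IdealL.Euler

open NumberField Ideal Filter Topology

open scoped Classical nonZeroDivisors

namespace Fermat.Agent.IdealL

section Char

variable {G : Type*} [AddCommGroup G] [Fintype G]

theorem norm_mul_lt {g : G} (ψ : AddChar G ℂ) {x : ℝ} (hx0 : 0 ≤ x) (hx1 : x < 1) :
    ‖ψ g * x‖ < 1 := by
  rw [norm_mul, AddChar.norm_apply, one_mul, Complex.norm_real, Real.norm_eq_abs,
    abs_of_nonneg hx0]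
  exact hx1

theorem one_sub_ne_zero {z : ℂ} (h : ‖z‖ < 1) : 1 - z ≠ 0 := by
  intro h1
  rw [sub_eq_zero] at h1
  rw [← h1, norm_one] at h
  exact lt_irrefl _ h

theorem sum_neg_log_nonneg (g : G) {x : ℝ} (hx0 : 0 ≤ x) (hx1 : x < 1) :
    0 ≤ ∑ ψ : AddChar G ℂ, -Real.log ‖1 - ψ g * x‖ := by
  have h1 : HasSum (fun n : ℕ => ∑ ψ : AddChar G ℂ, ((ψ g * x) ^ n / (n : ℂ)).re)
      (∑ ψ : AddChar G ℂ, -Real.log ‖1 - ψ g * x‖) := by
    refine hasSum_sum fun ψ _ => ?_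
    have h2 := Complex.hasSum_re (Complex.hasSum_taylorSeries_neg_log (norm_mul_lt ψ (g := g) hx0 hx1))
    rwa [Complex.neg_re, Complex.log_re] at h2
  refine h1.nonneg fun n => ?_
  rw [← Complex.re_sum]
  have h3 : ∑ ψ : AddChar G ℂ, (ψ g * x) ^ n / (n : ℂ) =
      (∑ ψ : AddChar G ℂ, ψ (n • g)) * ((x ^ n / n : ℝ) : ℂ) := by
    rw [Finset.sum_mul]
    refine Finset.sum_congr rfl fun ψ _ => ?_
    rw [AddChar.map_nsmul_eq_pow, mul_pow]
    push_cast
    ring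
  rw [h3, AddChar.sum_apply_eq_ite, Complex.re_mul_ofReal]
  split_ifs
  · rw [Complex.natCast_re]; positivity
  · simp

theorem prod_norm_le_one (g : G) {x : ℝ} (hx0 : 0 ≤ x) (hx1 : x < 1) :
    ∏ ψ : AddChar G ℂ, ‖1 - ψ g * x‖ ≤ 1 := by
  have h1 : ∀ ψ : AddChar G ℂ, 0 < ‖1 - ψ g * x‖ := fun ψ =>
    norm_pos_iff.mpr (one_sub_ne_zero (norm_mul_lt ψ hx0 hx1))
  have h2 := sum_neg_log_nonneg g hx0 hx1
  rw [Finset.sum_neg_distrib, ← Real.log_prod (fun ψ _ => (h1 ψ).ne')] at h2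
  have h3 : 0 < ∏ ψ : AddChar G ℂ, ‖1 - ψ g * x‖ := Finset.prod_pos fun ψ _ => h1 ψ
  by_contra h4
  have := Real.log_pos (not_le.mp h4)
  linarith

theorem prod_norm_zero {x : ℝ} (hx1 : x < 1) :
    ∏ ψ : AddChar G ℂ, ‖1 - ψ 0 * x‖ ≤ Real.exp (-(Fintype.card G * x)) := by
  have h1 : ∀ ψ : AddChar G ℂ, ‖1 - ψ 0 * x‖ = 1 - x := by
    intro ψ
    rw [AddChar.map_zero_eq_one, one_mul]
    have : (1 : ℂ) - x = ((1 - x : ℝ) : ℂ) := by push_cast; ring
    rw [this, Complex.norm_real, Real.norm_eq_abs, abs_of_nonneg (by linarith)]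
  rw [Finset.prod_congr rfl fun ψ _ => h1 ψ, Finset.prod_const, Finset.card_univ, AddChar.card_eq]
  have h2 : 1 - x ≤ Real.exp (-x) := by
    have := Real.add_one_le_exp (-x)
    linarith
  calc (1 - x) ^ Fintype.card G ≤ (Real.exp (-x)) ^ Fintype.card G :=
        pow_le_pow_left₀ (by linarith) h2 _
    _ = Real.exp (-(Fintype.card G * x)) := by
      rw [← Real.exp_nat_mul]; congr 1; ring

end Char

variable {K : Type*} [Field K] [NumberField K]

section General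

variable {G : Type*} [AddCommGroup G] [Fintype G] (cl : (Ideal (𝓞 K))⁰ → G)

/-- The twisted term. -/
noncomputable def cterm (ψ : AddChar G ℂ) (s : ℝ) (I : (Ideal (𝓞 K))⁰) : ℂ :=
  ψ (cl I) * (iterm K s I : ℝ)

theorem norm_cterm (ψ : AddChar G ℂ) (s : ℝ) (I : (Ideal (𝓞 K))⁰) :
    ‖cterm cl ψ s I‖ = iterm K s I := by
  unfold cterm
  rw [norm_mul, AddChar.norm_apply, one_mul, Complex.norm_real, Real.norm_eq_abs,
    abs_of_pos (iterm_pos s I)]

theorem summable_cterm (ψ : AddChar G ℂ) {s : ℝ} (hs : 1 < s) :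
    Summable (cterm cl ψ s) := by
  refine Summable.of_norm ?_
  simp_rw [norm_cterm]
  exact summable_iterm hs

theorem iterm_one (s : ℝ) : iterm K s 1 = 1 := by
  simp [iterm]

theorem iterm_prime_lt {s : ℝ} (hs : 0 < s) (q : PI K) : iterm K s q.1 < 1 := by
  unfold iterm
  have h1 : 1 < absNorm (q.1 : Ideal (𝓞 K)) := by
    have h2 := one_le_absNorm q.1
    refine lt_of_le_of_ne h2 fun h => ?_
    exact q.2.ne_top (absNorm_eq_one_iff.mp h.symm)
  exact Real.rpow_lt_one_of_one_lt_of_neg (by exact_mod_cast h1) (by linarith)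

/-- The key inequality. -/
theorem exp_le_prod (h1 : cl 1 = 0) (hmul : ∀ I J, cl (I * J) = cl I + cl J) {s : ℝ} (hs : 1 < s)
    (Q₀ : Finset (PI K)) (hQ₀ : ∀ q ∈ Q₀, cl q.1 = 0) :
    Real.exp (Fintype.card G * ∑ q ∈ Q₀, iterm K s q.1) ≤
      ∏ ψ : AddChar G ℂ, ‖∑' I, cterm cl ψ s I‖ := by
  have hs0 : 0 < s := by linarith
  have ht : Tendsto (fun Q : Finset (PI K) => ∏ ψ : AddChar G ℂ,
      ‖(∏ q ∈ Q, (1 - cterm cl ψ s q.1)) * ∑' I, cterm cl ψ s I‖) atTop (𝓝 1) := by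
    have h2 : Tendsto (fun Q : Finset (PI K) => ∏ ψ : AddChar G ℂ,
      ‖(∏ q ∈ Q, (1 - cterm cl ψ s q.1)) * ∑' I, cterm cl ψ s I‖) atTop
        (𝓝 (∏ _ψ : AddChar G ℂ, (1 : ℝ))) := by
      refine tendsto_finsetProd _ fun ψ _ => ?_
      have h3 := (tendsto_euler (F := cterm cl ψ s) (by
        simp [cterm, h1, iterm_one]) (fun I J => by
        unfold cterm
        rw [hmul, AddChar.map_add_eq_mul, iterm_mul]
        push_cast
        ring) (summable_cterm cl ψ hs)).norm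
      simpa using h3
    simpa using h2
  have hle : ∀ Q : Finset (PI K), Q₀ ⊆ Q → ∏ ψ : AddChar G ℂ,
      ‖(∏ q ∈ Q, (1 - cterm cl ψ s q.1)) * ∑' I, cterm cl ψ s I‖ ≤
      Real.exp (-(Fintype.card G * ∑ q ∈ Q₀, iterm K s q.1)) *
        ∏ ψ : AddChar G ℂ, ‖∑' I, cterm cl ψ s I‖ := by
    intro Q hQ
    simp_rw [norm_mul, norm_prod]
    rw [Finset.prod_mul_distrib, Finset.prod_comm]
    refine mul_le_mul_of_nonneg_right ?_ (Finset.prod_nonneg fun ψ _ => norm_nonneg _)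
    rw [← Finset.prod_sdiff hQ]
    have h4 : ∏ q ∈ Q \ Q₀, ∏ ψ : AddChar G ℂ, ‖1 - cterm cl ψ s q.1‖ ≤ 1 := by
      refine Finset.prod_le_one (fun q _ => Finset.prod_nonneg fun ψ _ => norm_nonneg _)
        fun q _ => ?_
      exact prod_norm_le_one (cl q.1) (iterm_pos s q.1).le (iterm_prime_lt hs0 q)
    have h5 : ∏ q ∈ Q₀, ∏ ψ : AddChar G ℂ, ‖1 - cterm cl ψ s q.1‖ ≤
        Real.exp (-(Fintype.card G * ∑ q ∈ Q₀, iterm K s q.1)) := by
      rw [Finset.mul_sum, ← Finset.sum_neg_distrib, Real.exp_sum]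
      refine Finset.prod_le_prod (fun q _ => Finset.prod_nonneg fun ψ _ => norm_nonneg _)
        fun q hq => ?_
      unfold cterm
      rw [hQ₀ q hq]
      exact prod_norm_zero (iterm_prime_lt hs0 q)
    calc _ ≤ 1 * Real.exp (-(Fintype.card G * ∑ q ∈ Q₀, iterm K s q.1)) := by
          refine mul_le_mul h4 h5 (Finset.prod_nonneg fun q _ =>
            Finset.prod_nonneg fun ψ _ => norm_nonneg _) zero_le_one
      _ = _ := one_mul _
  have h6 : 1 ≤ Real.exp (-(Fintype.card G * ∑ q ∈ Q₀, iterm K s q.1)) *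
        ∏ ψ : AddChar G ℂ, ‖∑' I, cterm cl ψ s I‖ := by
    refine le_of_tendsto ht ?_
    filter_upwards [eventually_ge_atTop Q₀] with Q hQ using hle Q hQ
  rw [Real.exp_neg, inv_mul_eq_div, one_le_div (Real.exp_pos _)] at h6
  exact h6

end General

/-- The class of an ideal modulo a subgroup of the class group. -/
noncomputable def clH (H : Subgroup (ClassGroup (𝓞 K))) (I : (Ideal (𝓞 K))⁰) :
    Additive (ClassGroup (𝓞 K) ⧸ H) :=
  Additive.ofMul ((ClassGroup.mk0 I : ClassGroup (𝓞 K)) : ClassGroup (𝓞 K) ⧸ H)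

noncomputable instance instFintypeQuotAdd (H : Subgroup (ClassGroup (𝓞 K))) :
    Fintype (Additive (ClassGroup (𝓞 K) ⧸ H)) :=
  Fintype.ofEquiv (ClassGroup (𝓞 K) ⧸ H) Additive.ofMul

theorem tsum_fiber {α β : Type*} [Fintype β] (p : α → β) {f : α → ℂ} (hf : Summable f) :
    ∑' a, f a = ∑ b, ∑' a : {a // p a = b}, f a := by
  have h1 := hf.hasSum.tsum_fiberwise p
  rw [← h1.tsum_eq, tsum_fintype]
  rfl

theorem tsum_cterm (H : Subgroup (ClassGroup (𝓞 K)))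
    (ψ : AddChar (Additive (ClassGroup (𝓞 K) ⧸ H)) ℂ) {s : ℝ} (hs : 1 < s) :
    ∑' I, cterm (clH H) ψ s I = ∑ c : ClassGroup (𝓞 K),
      ψ (Additive.ofMul (c : ClassGroup (𝓞 K) ⧸ H)) * (pzeta K s c : ℝ) := by
  rw [tsum_fiber (ClassGroup.mk0 : (Ideal (𝓞 K))⁰ → ClassGroup (𝓞 K))
    (summable_cterm (clH H) ψ hs)]
  refine Finset.sum_congr rfl fun c _ => ?_
  rw [pzeta, Complex.ofReal_tsum, ← tsum_mul_left]
  refine tsum_congr fun I => ?_
  rw [cterm, clH, I.2]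

theorem sum_char_eq_zero (H : Subgroup (ClassGroup (𝓞 K)))
    {ψ : AddChar (Additive (ClassGroup (𝓞 K) ⧸ H)) ℂ} (hψ : ψ ≠ 1) :
    ∑ c : ClassGroup (𝓞 K), ψ (Additive.ofMul (c : ClassGroup (𝓞 K) ⧸ H)) = 0 := by
  let f : Additive (ClassGroup (𝓞 K)) →+ Additive (ClassGroup (𝓞 K) ⧸ H) :=
    MonoidHom.toAdditive (QuotientGroup.mk' H)
  let χ : AddChar (Additive (ClassGroup (𝓞 K))) ℂ := ψ.compAddMonoidHom f
  have hχ : χ ≠ 1 := by
    intro h
    apply hψ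
    ext x
    obtain ⟨c, hc⟩ := QuotientGroup.mk_surjective x.toMul
    have h1 : ψ (f (Additive.ofMul c)) = 1 := by
      have := congrArg (fun χ : AddChar (Additive (ClassGroup (𝓞 K))) ℂ => χ (Additive.ofMul c)) h
      simpa [χ] using this
    have h2 : f (Additive.ofMul c) = x := by
      apply Additive.toMul.injective
      rw [← hc]; rfl
    rw [← h2, h1]; rfl
  have h3 := AddChar.sum_eq_zero_of_ne_one hχ
  rw [← h3]
  exact Fintype.sum_equiv Additive.ofMul _ _ fun c => rfl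

theorem norm_tsum_cterm_le (H : Subgroup (ClassGroup (𝓞 K))) {C s : ℝ} (hs : 1 < s)
    (hC : ∀ c c' : ClassGroup (𝓞 K), |pzeta K s c - pzeta K s c'| ≤ C)
    {ψ : AddChar (Additive (ClassGroup (𝓞 K) ⧸ H)) ℂ} (hψ : ψ ≠ 1) :
    ‖∑' I, cterm (clH H) ψ s I‖ ≤ Fintype.card (ClassGroup (𝓞 K)) * C := by
  have h1 : ∑' I, cterm (clH H) ψ s I = ∑ c : ClassGroup (𝓞 K),
      ψ (Additive.ofMul (c : ClassGroup (𝓞 K) ⧸ H)) * ((pzeta K s c - pzeta K s 1 : ℝ) : ℂ) := by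
    rw [tsum_cterm H ψ hs]
    have h2 : ∑ c : ClassGroup (𝓞 K), ψ (Additive.ofMul (c : ClassGroup (𝓞 K) ⧸ H)) *
        (pzeta K s 1 : ℂ) = 0 := by
      rw [← Finset.sum_mul, sum_char_eq_zero H hψ, zero_mul]
    rw [← sub_zero (∑ c : ClassGroup (𝓞 K), _), ← h2, ← Finset.sum_sub_distrib]
    refine Finset.sum_congr rfl fun c _ => ?_
    push_cast
    ring
  rw [h1]
  refine (norm_sum_le _ _).trans ?_
  have h3 : ∀ c ∈ (Finset.univ : Finset (ClassGroup (𝓞 K))),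
      ‖ψ (Additive.ofMul (c : ClassGroup (𝓞 K) ⧸ H)) * ((pzeta K s c - pzeta K s 1 : ℝ) : ℂ)‖ ≤
        C := by
    intro c _
    rw [norm_mul, AddChar.norm_apply, one_mul, Complex.norm_real, Real.norm_eq_abs]
    exact hC c 1
  refine (Finset.sum_le_card_nsmul _ _ _ h3).trans ?_
  rw [nsmul_eq_mul, Finset.card_univ]

theorem tsum_cterm_one (H : Subgroup (ClassGroup (𝓞 K))) {s : ℝ} (hs : 1 < s) :
    ‖∑' I, cterm (clH H) 1 s I‖ = Cheb.zetaR K s := by
  have h1 : ∀ I, cterm (clH H) 1 s I = ((iterm K s I : ℝ) : ℂ) := by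
    intro I; simp [cterm]
  rw [tsum_congr h1, ← Complex.ofReal_tsum, (hasSum_iterm hs).tsum_eq, Complex.norm_real,
    Real.norm_eq_abs, abs_of_nonneg (zetaR_nonneg hs)]

theorem card_quot (H : Subgroup (ClassGroup (𝓞 K))) :
    Fintype.card (Additive (ClassGroup (𝓞 K) ⧸ H)) = H.index := by
  rw [Subgroup.index_eq_card, ← Nat.card_eq_fintype_card]
  exact Nat.card_congr Additive.toMul

theorem clH_eq_zero (H : Subgroup (ClassGroup (𝓞 K))) (I : (Ideal (𝓞 K))⁰) :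
    clH H I = 0 ↔ ClassGroup.mk0 I ∈ H := by
  rw [← QuotientGroup.eq_one_iff]
  exact Iff.rfl

theorem exists_bound_finset (K : Type*) [Field K] [NumberField K]
    (H : Subgroup (ClassGroup (𝓞 K))) :
    ∃ C : ℝ, ∀ s ∈ Set.Ioc (1 : ℝ) 2, ∀ Q : Finset (PI K),
      (∀ q ∈ Q, ClassGroup.mk0 q.1 ∈ H) →
      (H.index : ℝ) * ∑ q ∈ Q, iterm K s q.1 ≤ Real.log (1 / (s - 1)) + C := by
  obtain ⟨C, hC⟩ := exists_bound_pzeta K
  obtain ⟨C0, hC00, hC0⟩ := exists_sub_one_mul_zetaR_le K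
  set D : ℝ := max 1 (Fintype.card (ClassGroup (𝓞 K)) * C) with hD
  have hD1 : 1 ≤ D := le_max_left _ _
  set m : ℕ := Fintype.card (AddChar (Additive (ClassGroup (𝓞 K) ⧸ H)) ℂ) with hm
  refine ⟨Real.log ((C0 + 1) * D ^ m), fun s hs Q hQ => ?_⟩
  have hs1 := hs.1
  have hs0 : 0 < s - 1 := by linarith
  have h1 := exp_le_prod (clH H) (by rw [clH_eq_zero, map_one]; exact H.one_mem)
    (fun I J => by
      unfold clH
      rw [map_mul]; rfl) hs1 Q (fun q hq => (clH_eq_zero H _).mpr (hQ q hq))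
  rw [card_quot] at h1
  have h2 : ∏ ψ : AddChar (Additive (ClassGroup (𝓞 K) ⧸ H)) ℂ, ‖∑' I, cterm (clH H) ψ s I‖ ≤
      Cheb.zetaR K s * D ^ m := by
    rw [← Finset.mul_prod_erase _ _ (Finset.mem_univ 1), tsum_cterm_one H hs1]
    refine mul_le_mul_of_nonneg_left ?_ (zetaR_nonneg hs1)
    have h3 : ∀ ψ ∈ Finset.univ.erase (1 : AddChar (Additive (ClassGroup (𝓞 K) ⧸ H)) ℂ),
        ‖∑' I, cterm (clH H) ψ s I‖ ≤ D := fun ψ hψ =>
      (norm_tsum_cterm_le H hs1 (hC s hs) (Finset.ne_of_mem_erase hψ)).trans (le_max_right _ _)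
    refine (Finset.prod_le_prod (fun ψ _ => norm_nonneg _) h3).trans ?_
    rw [Finset.prod_const]
    refine pow_le_pow_right₀ hD1 ?_
    rw [hm]
    exact Finset.card_le_univ _
  have h4 : Real.exp (H.index * ∑ q ∈ Q, iterm K s q.1) ≤
      1 / (s - 1) * ((C0 + 1) * D ^ m) := by
    refine (h1.trans h2).trans ?_
    rw [div_mul_eq_mul_div, one_mul, le_div_iff₀ hs0]
    have h5 := hC0 s hs
    have h6 : 0 ≤ D ^ m := by positivity
    calc Cheb.zetaR K s * D ^ m * (s - 1) = ((s - 1) * Cheb.zetaR K s) * D ^ m := by ring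
      _ ≤ (C0 + 1) * D ^ m := by gcongr; linarith
  have h7 := Real.log_le_log (Real.exp_pos _) h4
  rwa [Real.log_exp, Real.log_mul (by positivity) (by positivity)] at h7

/-- **Main theorem**: upper bound for the Dirichlet density of primes whose class lies in
a subgroup of the class group. -/
theorem exists_bound_prime_in_subgroup (K : Type*) [Field K] [NumberField K]
    (H : Subgroup (ClassGroup (𝓞 K))) :
    ∃ C : ℝ, ∀ s ∈ Set.Ioc (1 : ℝ) 2,
      (H.index : ℝ) * ∑' P : {P : (Ideal (𝓞 K))⁰ // (P : Ideal (𝓞 K)).IsPrime ∧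
        ClassGroup.mk0 P ∈ H}, ((absNorm (P : Ideal (𝓞 K)) : ℝ)) ^ (-s) ≤
      Real.log (1 / (s - 1)) + C := by
  obtain ⟨C, hC⟩ := exists_bound_finset K H
  refine ⟨C, fun s hs => ?_⟩
  have hs1 := hs.1
  rw [← tsum_mul_left]
  have hsum : Summable fun P : {P : (Ideal (𝓞 K))⁰ // (P : Ideal (𝓞 K)).IsPrime ∧
        ClassGroup.mk0 P ∈ H} => (H.index : ℝ) * ((absNorm (P : Ideal (𝓞 K)) : ℝ)) ^ (-s) :=
    ((summable_iterm hs1).comp_injective Subtype.val_injective).mul_left _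
  refine hsum.tsum_le_of_sum_le fun T => ?_
  have h1 := hC s hs (T.image fun P => (⟨P.1, P.2.1⟩ : PI K)) (by
    intro q hq
    obtain ⟨P, hP, rfl⟩ := Finset.mem_image.mp hq
    exact P.2.2)
  rw [Finset.sum_image (by
    intro P _ P' _ h
    exact Subtype.ext (congrArg (fun x : PI K => x.1) h)), Finset.mul_sum] at h1
  exact h1

theorem summable_prime_in_subgroup (H : Subgroup (ClassGroup (𝓞 K))) {s : ℝ} (hs : 1 < s) :
    Summable fun P : {P : (Ideal (𝓞 K))⁰ // (P : Ideal (𝓞 K)).IsPrime ∧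
        ClassGroup.mk0 P ∈ H} => ((absNorm (P : Ideal (𝓞 K)) : ℝ)) ^ (-s) :=
  (summable_iterm hs).comp_injective Subtype.val_injective

end Fermat.Agent.IdealL
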