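import Mathlib
import Fermat.Agent.IdealL.UnitSum

open MeasureTheory Module NumberField NumberField.Units Filter Topology
  NumberField.Units.dirichletUnitTheorem NumberField.mixedEmbedding NumberField.InfinitePlace

open scoped Classical

namespace Fermat.Agent.IdealL

theorem measurable_realSign : Measurable Real.sign := by
  unfold Real.sign
  exact Measurable.ite measurableSet_Iio measurable_const
    (Measurable.ite measurableSet_Ioi measurable_const measurable_const)

theorem abs_realSign_le (t : ℝ) : |Real.sign t| ≤ 1 := by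
  rcases Real.sign_apply_eq t with h | h | h <;> rw [h] <;> simp

variable {K : Type*} [Field K] [NumberField K]

/-- product of signs at a set of real places -/
noncomputable def sg (S : Finset {w : InfinitePlace K // IsReal w}) (x : mixedSpace K) : ℝ :=
  ∏ w ∈ S, Real.sign (x.1 w)

theorem measurable_sg (S : Finset {w : InfinitePlace K // IsReal w}) : Measurable (sg S) := by
  unfold sg
  exact Finset.measurable_prod _ fun w _ =>
    measurable_realSign.comp ((measurable_pi_apply w).comp measurable_fst)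

theorem abs_sg_le (S : Finset {w : InfinitePlace K // IsReal w}) (x : mixedSpace K) :
    |sg S x| ≤ 1 := by
  unfold sg
  rw [Finset.abs_prod]
  exact Finset.prod_le_one (fun w _ => abs_nonneg _) fun w _ => abs_realSign_le _

/-- signed weight function -/
noncomputable def hS (S : Finset {w : InfinitePlace K // IsReal w}) (s : ℝ) (x : mixedSpace K) : ℝ :=
  sg S x * hfun s x

theorem measurable_hS (S : Finset {w : InfinitePlace K // IsReal w}) (s : ℝ) :
    Measurable (hS S s) := (measurable_sg S).mul (measurable_hfun s)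

theorem abs_hS_le_hfun (S : Finset {w : InfinitePlace K // IsReal w}) (s : ℝ)
    (x : mixedSpace K) : |hS S s x| ≤ hfun s x := by
  unfold hS
  rw [abs_mul, abs_of_nonneg (hfun_nonneg s x)]
  have := abs_sg_le S x
  have := hfun_nonneg s x
  nlinarith

theorem abs_hS_le_one (S : Finset {w : InfinitePlace K // IsReal w}) {s : ℝ} (hs : 0 ≤ s)
    (x : mixedSpace K) : |hS S s x| ≤ 1 :=
  (abs_hS_le_hfun S s x).trans (hfun_le_one hs x)

theorem tendsto_hfun (x : mixedSpace K) :
    Tendsto (fun s => hfun s x) (𝓝[>] 1) (𝓝 (hfun 1 x)) := by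
  have h0 : (0 : ℝ) < max (mixedEmbedding.norm x) 1 := lt_max_of_lt_right one_pos
  have h1 : Continuous fun s : ℝ => hfun s x := by
    unfold hfun
    exact continuous_const.mul ((Real.continuous_const_rpow h0.ne').comp continuous_neg)
  exact (h1.tendsto 1).mono_left nhdsWithin_le_nhds

theorem tendsto_hS (S : Finset {w : InfinitePlace K // IsReal w}) (x : mixedSpace K) :
    Tendsto (fun s => hS S s x) (𝓝[>] 1) (𝓝 (hS S 1 x)) :=
  (tendsto_hfun x).const_mul _

theorem abs_normAtPlace_real (x : mixedSpace K) (w : {w : InfinitePlace K // IsReal w}) :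
    normAtPlace w.1 x = |x.1 w| := by
  rw [normAtPlace_apply_of_isReal w.2]
  rfl

theorem sign_eq_of_close {a b m D : ℝ} (ha : m ≤ |a|) (hb : m ≤ |b|) (hab : |a - b| ≤ D)
    (hD : D < 2 * m) : Real.sign a = Real.sign b := by
  rcases lt_trichotomy a 0 with h1 | h1 | h1
  · rcases lt_trichotomy b 0 with h2 | h2 | h2
    · rw [Real.sign_of_neg h1, Real.sign_of_neg h2]
    · subst h2
      have := abs_nonneg (a - 0)
      simp only [abs_zero] at hb
      linarith
    · rw [abs_of_neg h1] at ha
      rw [abs_of_pos h2] at hb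
      have := neg_le_abs (a - b)
      linarith
  · subst h1
    have := abs_nonneg (0 - b)
    simp only [abs_zero] at ha
    linarith
  · rcases lt_trichotomy b 0 with h2 | h2 | h2
    · rw [abs_of_pos h1] at ha
      rw [abs_of_neg h2] at hb
      have := le_abs_self (a - b)
      linarith
    · subst h2
      have := abs_nonneg (a - 0)
      simp only [abs_zero] at hb
      linarith
    · rw [Real.sign_of_pos h1, Real.sign_of_pos h2]

theorem weight_dichotomy (D : ℝ) (hD : 0 < D) : ∃ R c : ℝ, 0 < c ∧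
    ∀ (x y : mixedSpace K), R ≤ ‖x‖ → ‖x - y‖ ≤ D →
    1 ≤ c * ‖x‖ ∧ D < 2 * (c * ‖x‖) ∧
    ((weight x = 0 ∧ weight y = 0) ∨
      ((∀ w, c * ‖x‖ ≤ normAtPlace w x) ∧ (∀ w, c * ‖x‖ ≤ normAtPlace w y))) := by
  obtain ⟨c, hc0, hc⟩ := weight_support (K := K)
  refine ⟨max (max (4 * D / c) (2 * D)) (4 / c), c / 4, by positivity, fun x y hR hxy => ?_⟩
  have hR1 : 4 * D / c ≤ ‖x‖ := (le_max_left _ _).trans ((le_max_left _ _).trans hR)
  have hR2 : 2 * D ≤ ‖x‖ := (le_max_right _ _).trans ((le_max_left _ _).trans hR)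
  have hR3 : 4 / c ≤ ‖x‖ := (le_max_right _ _).trans hR
  have hx0 : 0 < ‖x‖ := lt_of_lt_of_le (by positivity) hR3
  rw [div_le_iff₀ hc0] at hR1 hR3
  have hyn : ‖x‖ ≤ 2 * ‖y‖ := by
    have : ‖x‖ ≤ ‖x - y‖ + ‖y‖ := by simpa using norm_add_le (x - y) y
    linarith
  refine ⟨by linarith, by nlinarith, ?_⟩
  by_cases hWx : weight x = 0
  · by_cases hWy : weight y = 0
    · exact Or.inl ⟨hWx, hWy⟩
    · have h1 := hc y hWy
      refine Or.inr ⟨fun w => ?_, fun w => ?_⟩
      · have h2 := (abs_le.mp (abs_normAtPlace_sub_le x y w)).1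
        have h3 := h1 w
        nlinarith
      · have h3 := h1 w
        nlinarith
  · have h1 := hc x hWx
    refine Or.inr ⟨fun w => ?_, fun w => ?_⟩
    · have h3 := h1 w
      nlinarith
    · have h2 := (abs_le.mp (abs_normAtPlace_sub_le x y w)).2
      have h3 := h1 w
      nlinarith

theorem hS_lip (S : Finset {w : InfinitePlace K // IsReal w}) (D : ℝ) (hD : 0 < D) :
    ∃ R C : ℝ, ∀ s ∈ Set.Icc (1 : ℝ) 2, ∀ (x y : mixedSpace K), R ≤ ‖x‖ → ‖x - y‖ ≤ D →
      |hS S s x - hS S s y| ≤ C * ‖x‖ ^ (-(finrank ℚ K + 1 : ℝ)) := by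
  obtain ⟨R, c, hc0, hRc⟩ := weight_dichotomy (K := K) D hD
  obtain ⟨R', C', hRC'⟩ := hfun_lip (K := K) D hD
  refine ⟨max R R', C', fun s hs x y hx hxy => ?_⟩
  obtain ⟨-, h2, h3⟩ := hRc x y ((le_max_left _ _).trans hx) hxy
  have h4 := hRC' s hs x y ((le_max_right _ _).trans hx) hxy
  rcases h3 with ⟨h5, h6⟩ | ⟨h5, h6⟩
  · refine le_trans ?_ h4
    simp [hS, hfun, h5, h6]
  · have h7 : sg S x = sg S y := by
      unfold sg
      refine Finset.prod_congr rfl fun w _ => ?_
      refine sign_eq_of_close (m := c * ‖x‖) (D := D) ?_ ?_ ?_ h2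
      · rw [← abs_normAtPlace_real]; exact h5 w
      · rw [← abs_normAtPlace_real]; exact h6 w
      · have h8 : |x.1 w - y.1 w| = normAtPlace w.1 (x - y) := by
          rw [abs_normAtPlace_real]; rfl
        rw [h8]
        exact (normAtPlace_le_norm _ _).trans hxy
    have h8 : hS S s x - hS S s y = sg S x * (hfun s x - hfun s y) := by
      unfold hS
      rw [← h7]; ring
    rw [h8, abs_mul]
    have h9 := abs_sg_le S x
    have h10 := abs_nonneg (hfun s x - hfun s y)
    nlinarith

end Fermat.Agent.IdealL
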