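import Mathlib
import Fermat.Agent.IdealL.LatticeSum

/-!
# Lattice sums and integrals: signed functions, families and cosets
-/

open MeasureTheory Module Filter Topology

namespace Fermat.Agent.IdealL

variable {E : Type*} [NormedAddCommGroup E] [NormedSpace ℝ E] [FiniteDimensional ℝ E]
  [MeasurableSpace E] [BorelSpace E]

/-- Comparison of a lattice sum and an integral, tile by tile. -/
theorem tile_sum (μ : Measure E) [μ.IsAddHaarMeasure] (L : Submodule ℤ E)
    [DiscreteTopology L] [IsZLattice ℝ L] :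
    ∃ (D : ℝ) (F : Set E), 0 < D ∧ MeasurableSet F ∧ μ F < ⊤ ∧ ∀ R C : ℝ, ∃ e : L → ℝ, Summable e ∧
      ∀ h : E → ℝ, Measurable h → (∀ x, |h x| ≤ 1) →
      (∀ x y, R ≤ ‖x‖ → ‖x - y‖ ≤ D →
        |h x - h y| ≤ C * ‖x‖ ^ (-(finrank ℝ E + 1 : ℝ))) →
      Summable (fun v : L => h v) →
        Integrable h μ ∧ ZLattice.covolume L μ * ∑' v : L, h v - ∫ x, h x ∂μ =
          ∑' v : L, ∫ x in F, (h v - h (v + x)) ∂μ ∧
        ∀ v : L, |∫ x in F, (h v - h (v + x)) ∂μ| ≤ e v := by
  classical
  let b := Free.chooseBasis ℤ L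
  let F := ZSpan.fundamentalDomain (b.ofZLatticeBasis ℝ L)
  have hF : IsAddFundamentalDomain L F μ := ZLattice.isAddFundamentalDomain b μ
  have hFm : MeasurableSet F := ZSpan.fundamentalDomain_measurableSet _
  have hFb : Bornology.IsBounded F := ZSpan.fundamentalDomain_isBounded _
  have hFfin : μ F < ⊤ := hFb.measure_lt_top
  obtain ⟨D, hD0, hD⟩ := hFb.exists_pos_norm_le
  refine ⟨D, F, hD0, hFm, hFfin, fun R C => ?_⟩
  let e : L → ℝ := fun v => |C| * ‖(v : E)‖ ^ (-(finrank ℝ E + 1 : ℝ)) +
    (if ‖(v : E)‖ < R then 2 else 0)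
  have he0 : ∀ v, 0 ≤ e v := fun v => by
    simp only [e]; split_ifs <;> positivity
  have hrank : finrank ℤ L = finrank ℝ E := ZLattice.rank ℝ L
  have hesum : Summable e := by
    refine Summable.add (Summable.mul_left _ ?_) ?_
    · have := ZLattice.summable_norm_rpow L (-(finrank ℝ E + 1 : ℝ)) (by rw [hrank]; linarith)
      simpa using this
    · refine summable_of_hasFiniteSupport ((finite_norm_lt L R).subset ?_)
      intro v hv
      simp only [Function.mem_support, ne_eq, ite_eq_right_iff, OfNat.ofNat_ne_zero, imp_false,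
        not_not] at hv
      exact hv
  have : MeasurableVAdd L E := (inferInstance : MeasurableVAdd L.toAddSubgroup E)
  have : VAddInvariantMeasure L E μ := (inferInstance : VAddInvariantMeasure L.toAddSubgroup E μ)
  have hcov : ZLattice.covolume L μ = (μ F).toReal :=
    ZLattice.covolume_eq_measure_fundamentalDomain L μ hF
  refine ⟨fun v => (μ F).toReal * e v, hesum.mul_left _, fun h hm h1 hlip hs => ?_⟩
  have key : ∀ v : L, ∀ x ∈ F, |h (v + x) - h v| ≤ e v := by
    intro v x hx
    by_cases hv : ‖(v : E)‖ < R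
    · have : |h (v + x) - h v| ≤ 2 := by
        refine (abs_sub _ _).trans ?_
        linarith [h1 (v + x), h1 v]
      refine this.trans ?_
      simp only [e, hv, if_true]
      have : 0 ≤ |C| * ‖(v : E)‖ ^ (-(finrank ℝ E + 1 : ℝ)) := by positivity
      linarith
    · have h2 := hlip v (v + x) (not_lt.mp hv) (by simpa using hD x hx)
      rw [abs_sub_comm]
      refine h2.trans ?_
      simp only [e, hv, if_false, add_zero]
      exact mul_le_mul_of_nonneg_right (le_abs_self C) (by positivity)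
  have hint : ∀ v : L, IntegrableOn (fun x => h (v + x)) F μ := by
    intro v
    refine Measure.integrableOn_of_bounded (M := 1) hFfin.ne
      ((hm.comp (measurable_const_add _)).aestronglyMeasurable) ?_
    exact Filter.Eventually.of_forall fun x => h1 _
  have hconst : ∀ v : L, IntegrableOn (fun _ : E => h v) F μ :=
    fun v => integrableOn_const hFfin.ne
  have htile : ∀ v : L, |∫ x in F, (h v - h (v + x)) ∂μ| ≤ (μ F).toReal * e v := by
    intro v
    rw [← Real.norm_eq_abs, mul_comm]
    refine norm_setIntegral_le_of_norm_le_const hFfin ?_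
    intro x hx
    rw [Real.norm_eq_abs, abs_sub_comm]
    exact key v x hx
  have htile' : ∀ v : L, ∫ x in F, (h v - h (v + x)) ∂μ =
      (μ F).toReal * h v - ∫ x in F, h (v + x) ∂μ := by
    intro v
    rw [integral_sub (hconst v) (hint v)]
    simp [Measure.real]
  have hle : ∀ v : L, ∀ x ∈ F, |h (v + x)| ≤ |h v| + e v := fun v x hx => by
    have h3 := key v x hx
    have h4 : h (v + x) = h v + (h (v + x) - h v) := by ring
    rw [h4]
    exact (abs_add_le _ _).trans (by linarith)
  have hsum2 : Summable fun v : L => |h v| + e v := hs.abs.add hesum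
  have hInt : Integrable h μ := by
    refine ⟨hm.aestronglyMeasurable, ?_⟩
    rw [HasFiniteIntegral, hF.lintegral_eq_tsum'']
    have : ∀ v : L, ∫⁻ x in F, ‖h (v +ᵥ x)‖ₑ ∂μ ≤ μ F * ENNReal.ofReal (|h v| + e v) := by
      intro v
      calc ∫⁻ x in F, ‖h (v +ᵥ x)‖ₑ ∂μ ≤ ∫⁻ x in F, ENNReal.ofReal (|h v| + e v) ∂μ := by
            refine setLIntegral_mono' hFm fun x hx => ?_
            rw [Real.enorm_eq_ofReal_abs]
            exact ENNReal.ofReal_le_ofReal (hle v x hx)
        _ = μ F * ENNReal.ofReal (|h v| + e v) := by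
            rw [setLIntegral_const, mul_comm]
    refine lt_of_le_of_lt (ENNReal.tsum_le_tsum this) ?_
    rw [ENNReal.tsum_mul_left, ← ENNReal.ofReal_tsum_of_nonneg
      (fun v => add_nonneg (abs_nonneg _) (he0 v)) hsum2]
    exact ENNReal.mul_lt_top hFfin ENNReal.ofReal_lt_top
  refine ⟨hInt, ?_, htile⟩
  rw [hF.integral_eq_tsum'' _ hInt, hcov, ← tsum_mul_left]
  have hA : Summable fun v : L => (μ F).toReal * h v := hs.mul_left _
  have hB : Summable fun v : L => ∫ x in F, h (v +ᵥ x) ∂μ := by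
    have h5 : Summable fun v : L => ∫ x in F, (h v - h (v + x)) ∂μ :=
      Summable.of_norm_bounded (hesum.mul_left (μ F).toReal) htile
    refine (hA.sub h5).congr fun v => ?_
    rw [htile']
    change _ = ∫ x in F, h (v + x) ∂μ
    ring
  rw [← hA.tsum_sub hB]
  refine tsum_congr fun v => ?_
  rw [htile']
  rfl

/-- The difference of the sum over a coset and the integral converges for convergent families. -/
theorem exists_tendsto_coset (μ : Measure E) [μ.IsAddHaarMeasure] (L : Submodule ℤ E)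
    [DiscreteTopology L] [IsZLattice ℝ L] :
    ∃ D : ℝ, 0 < D ∧ ∀ (x₀ : E) (R C : ℝ) (l : Filter ℝ) [l.IsCountablyGenerated] (h : ℝ → E → ℝ)
      (h1 : E → ℝ), (∀ᶠ s in l, Measurable (h s) ∧ (∀ x, |h s x| ≤ 1) ∧
        (∀ x y, R ≤ ‖x‖ → ‖x - y‖ ≤ D →
          |h s x - h s y| ≤ C * ‖x‖ ^ (-(finrank ℝ E + 1 : ℝ))) ∧
        Summable (fun v : L => h s (x₀ + v))) →
      (∀ x, Tendsto (fun s => h s x) l (𝓝 (h1 x))) →
      ∃ ℓ : ℝ, Tendsto (fun s => ZLattice.covolume L μ * ∑' v : L, h s (x₀ + v) -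
        ∫ x, h s x ∂μ) l (𝓝 ℓ) := by
  obtain ⟨D, F, hD, hFm, hFfin, hmain⟩ := tile_sum μ L
  refine ⟨D, hD, fun x₀ R C l _ h h1 hev hlim => ?_⟩
  -- reduce to the lattice itself
  obtain ⟨e, he, hmain⟩ := hmain (max (2 * |R|) (2 * ‖x₀‖))
    (|C| * (1 / 2) ^ (-(finrank ℝ E + 1 : ℝ)))
  have hev2 : ∀ᶠ s in l, (ZLattice.covolume L μ * ∑' v : L, h s (x₀ + v) - ∫ x, h s x ∂μ =
          ∑' v : L, ∫ x in F, (h s (x₀ + v) - h s (x₀ + (v + x))) ∂μ) ∧
        (∀ v : L, |∫ x in F, (h s (x₀ + v) - h s (x₀ + (v + x))) ∂μ| ≤ e v) := by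
    filter_upwards [hev] with s hs
    obtain ⟨hm, hb, hlip, hsum⟩ := hs
    have h3 := hmain (fun x => h s (x₀ + x)) (hm.comp (measurable_const_add _)) (fun x => hb _)
      (fun x y hx hxy => by
        have hx1 : 2 * |R| ≤ ‖x‖ := (le_max_left _ _).trans hx
        have hx2 : 2 * ‖x₀‖ ≤ ‖x‖ := (le_max_right _ _).trans hx
        have hx3 : ‖x‖ / 2 ≤ ‖x₀ + x‖ := by
          have h4 : ‖x‖ ≤ ‖x₀ + x‖ + ‖x₀‖ := by
            calc ‖x‖ = ‖(x₀ + x) - x₀‖ := by congr 1; abel
              _ ≤ _ := norm_sub_le _ _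
          linarith
        have h5 := hlip (x₀ + x) (x₀ + y) (by
          have := le_abs_self R
          linarith) (by simpa using hxy)
        refine h5.trans ?_
        have hd : (0 : ℝ) < finrank ℝ E + 1 := by positivity
        rcases eq_or_lt_of_le (norm_nonneg x) with h6 | h6
        · -- then `R = 0` and `x₀ = 0`, `x = 0`
          have hx0 : x = 0 := norm_eq_zero.mp h6.symm
          have hx00 : x₀ = 0 := by
            rw [← h6] at hx2
            exact norm_eq_zero.mp (le_antisymm (by linarith [norm_nonneg x₀]) (norm_nonneg _))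
          rw [hx0, hx00]
          simp only [add_zero, norm_zero]
          rw [Real.zero_rpow (by linarith)]
          simp
        · calc C * ‖x₀ + x‖ ^ (-(finrank ℝ E + 1 : ℝ))
              ≤ |C| * ‖x₀ + x‖ ^ (-(finrank ℝ E + 1 : ℝ)) := by
                gcongr; exact le_abs_self C
            _ ≤ |C| * (‖x‖ / 2) ^ (-(finrank ℝ E + 1 : ℝ)) := by
                gcongr |C| * ?_
                exact Real.rpow_le_rpow_of_nonpos (by linarith) hx3 (by linarith)
            _ = |C| * (1 / 2) ^ (-(finrank ℝ E + 1 : ℝ)) * ‖x‖ ^ (-(finrank ℝ E + 1 : ℝ)) := by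
                rw [mul_assoc, ← Real.mul_rpow (by norm_num) h6.le]
                congr 2; ring)
      hsum
    obtain ⟨-, h7, h8⟩ := h3
    refine ⟨?_, h8⟩
    rw [← h7]
    congr 1
    exact (integral_add_left_eq_self (fun x => h s x) x₀).symm
  refine ⟨∑' v : L, ∫ x in F, (h1 (x₀ + v) - h1 (x₀ + (v + x))) ∂μ, ?_⟩
  have h9 : Tendsto (fun s => ∑' v : L, ∫ x in F, (h s (x₀ + v) - h s (x₀ + (v + x))) ∂μ) l
      (𝓝 (∑' v : L, ∫ x in F, (h1 (x₀ + v) - h1 (x₀ + (v + x))) ∂μ)) := by
    refine tendsto_tsum_of_dominated_convergence he (fun v => ?_) ?_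
    · refine tendsto_integral_filter_of_dominated_convergence (fun _ => 2) ?_ ?_ ?_ ?_
      · filter_upwards [hev] with s hs
        exact (measurable_const.sub (hs.1.comp ((measurable_const_add _).comp
          (measurable_const_add _)))).aestronglyMeasurable
      · filter_upwards [hev] with s hs
        refine Eventually.of_forall fun x => ?_
        rw [Real.norm_eq_abs]
        refine (abs_sub _ _).trans ?_
        linarith [hs.2.1 (x₀ + v), hs.2.1 (x₀ + (v + x))]
      · exact integrableOn_const hFfin.ne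
      · exact Eventually.of_forall fun x => (hlim _).sub (hlim _)
    · filter_upwards [hev2] with s hs
      exact hs.2
  exact h9.congr' (hev2.mono fun s hs => hs.1.symm)

end Fermat.Agent.IdealL
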