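import Mathlib
import Fermat.Agent.IdealL.SignWeight
import Fermat.Agent.IdealL.TileSum
import Fermat.Agent.IdealL.Partial

/-!
# Convergence of `L(s, ψ)` at `s = 1` for nontrivial ray class characters
-/

open MeasureTheory Module NumberField NumberField.Units Ideal Filter Topology
  NumberField.Units.dirichletUnitTheorem NumberField.mixedEmbedding NumberField.InfinitePlace

open scoped Classical nonZeroDivisors

namespace Fermat.Agent.IdealL

variable {K : Type*} [Field K] [NumberField K]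

/-- The nonzero principal ideal generated by a nonzero element. -/
noncomputable def pI (a : 𝓞 K) (ha : a ≠ 0) : (Ideal (𝓞 K))⁰ :=
  ⟨span {a}, mem_nonZeroDivisors_of_ne_zero (by
    rw [Ne, Ideal.zero_eq_bot, span_singleton_eq_bot]; exact ha)⟩

/-- ray class characters (of modulus `𝔪` times real places) as functions on nonzero ideals -/
structure IsRayChar (𝔪 : (Ideal (𝓞 K))⁰) (ψ : (Ideal (𝓞 K))⁰ → ℂ)
    (S : Finset {w : InfinitePlace K // IsReal w}) (g : 𝓞 K → ℂ) : Prop where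
  map_one : ψ 1 = 1
  map_mul : ∀ I J, ψ (I * J) = ψ I * ψ J
  zero : ∀ I : (Ideal (𝓞 K))⁰, ¬ IsCoprime (I : Ideal (𝓞 K)) (𝔪 : Ideal (𝓞 K)) → ψ I = 0
  norm_one : ∀ I : (Ideal (𝓞 K))⁰, IsCoprime (I : Ideal (𝓞 K)) (𝔪 : Ideal (𝓞 K)) → ‖ψ I‖ = 1
  periodic : ∀ a b : 𝓞 K, a - b ∈ (𝔪 : Ideal (𝓞 K)) → g a = g b
  principal : ∀ (a : 𝓞 K) (ha : a ≠ 0), ψ (pI a ha) = sg S (mixedEmbedding K (a : K)) * g a

theorem IsRayChar.norm_le {𝔪 : (Ideal (𝓞 K))⁰} {ψ : (Ideal (𝓞 K))⁰ → ℂ}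
    {S : Finset {w : InfinitePlace K // IsReal w}} {g : 𝓞 K → ℂ}
    (h : IsRayChar 𝔪 ψ S g) (I : (Ideal (𝓞 K))⁰) : ‖ψ I‖ ≤ 1 := by
  by_cases hI : IsCoprime (I : Ideal (𝓞 K)) (𝔪 : Ideal (𝓞 K))
  · exact (h.norm_one I hI).le
  · rw [h.zero I hI]; simp

/-- map from classes times units to the ideal `b` -/
noncomputable def ideMap (b : (Ideal (𝓞 K))⁰)
    (p : {J : (Ideal (𝓞 K))⁰ // ClassGroup.mk0 J = (ClassGroup.mk0 b)⁻¹} × (𝓞 K)ˣ) :
    (b : Ideal (𝓞 K)) := ⟨(p.2 : 𝓞 K) * gen b p.1, mul_gen_mem b p.1 p.2⟩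

theorem ideMap_injective (b : (Ideal (𝓞 K))⁰) : Function.Injective (ideMap b) := by
  intro p q h
  have h1 := congrArg (fun x : (b : Ideal (𝓞 K)) => (x : 𝓞 K)) h
  apply latMap_injective b
  exact Subtype.ext (congrArg (fun x : 𝓞 K => mixedEmbedding K (x : K)) h1)

theorem mem_range_ideMap (b : (Ideal (𝓞 K))⁰) (a : (b : Ideal (𝓞 K)))
    (ha : a ∉ Set.range (ideMap b)) : (a : 𝓞 K) = 0 := by
  by_contra hne
  apply ha
  have hmem : mixedEmbedding K ((a : 𝓞 K) : K) ∈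
      mixedEmbedding.idealLattice K (FractionalIdeal.mk0 K b) := by
    rw [mem_idealLattice]
    exact ⟨_, (mem_mk0 b _).mpr ⟨_, a.2, rfl⟩, rfl⟩
  have h1 : (⟨_, hmem⟩ : mixedEmbedding.idealLattice K (FractionalIdeal.mk0 K b)) ∈
      Set.range (latMap b) := by
    by_contra h2
    have h3 := mem_range_latMap b _ h2
    have h4 : mixedEmbedding K ((a : 𝓞 K) : K) = 0 := h3
    rw [map_eq_zero, RingOfIntegers.coe_eq_zero_iff] at h4
    exact hne h4
  obtain ⟨p, hp⟩ := h1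
  refine ⟨p, Subtype.ext ?_⟩
  have h2 := congrArg Subtype.val hp
  exact RingOfIntegers.coe_injective (mixedEmbedding_injective K h2)

theorem span_ideMap (b : (Ideal (𝓞 K))⁰)
    (p : {J : (Ideal (𝓞 K))⁰ // ClassGroup.mk0 J = (ClassGroup.mk0 b)⁻¹} × (𝓞 K)ˣ) :
    span {(ideMap b p : 𝓞 K)} = (b : Ideal (𝓞 K)) * (p.1.1 : Ideal (𝓞 K)) := by
  rw [← span_gen b p.1, span_singleton_eq_span_singleton]
  exact (associated_unit_mul_left _ _ p.2.isUnit)

/-- The sum over the elements of an ideal in terms of ideals in the inverse class. -/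
theorem hasSum_ideMap (ψ : (Ideal (𝓞 K))⁰ → ℂ) (hψ : ∀ I, ‖ψ I‖ ≤ 1) {s : ℝ} (hs : 1 < s)
    (b : (Ideal (𝓞 K))⁰) :
    HasSum (fun a : (b : Ideal (𝓞 K)) => if h : (a : 𝓞 K) = 0 then (0 : ℂ) else
        ψ (pI (a : 𝓞 K) h) * (hfun s (mixedEmbedding K ((a : 𝓞 K) : K)) : ℝ))
      (∑' J : {J : (Ideal (𝓞 K))⁰ // ClassGroup.mk0 J = (ClassGroup.mk0 b)⁻¹},
        ψ (b * J.1) * (iterm K s (b * J.1) : ℝ) * torsionOrder K) := by
  have hzero : ∀ a ∉ Set.range (ideMap b), (if h : (a : 𝓞 K) = 0 then (0 : ℂ) else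
        ψ (pI (a : 𝓞 K) h) * (hfun s (mixedEmbedding K ((a : 𝓞 K) : K)) : ℝ)) = 0 := by
    intro a ha
    rw [dif_pos (mem_range_ideMap b a ha)]
  rw [← (ideMap_injective b).hasSum_iff hzero]
  set f : {J : (Ideal (𝓞 K))⁰ // ClassGroup.mk0 J = (ClassGroup.mk0 b)⁻¹} × (𝓞 K)ˣ → ℂ :=
    fun p => ψ (b * p.1.1) * (iterm K s (b * p.1.1) : ℝ) *
      (weight (p.2 • mixedEmbedding K ((gen b p.1 : 𝓞 K) : K)) : ℝ) with hf
  have hnorm : ∀ J : {J : (Ideal (𝓞 K))⁰ // ClassGroup.mk0 J = (ClassGroup.mk0 b)⁻¹},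
      mixedEmbedding.norm (mixedEmbedding K ((gen b J : 𝓞 K) : K)) =
        absNorm ((b * J.1 : (Ideal (𝓞 K))⁰) : Ideal (𝓞 K)) := by
    intro J
    rw [mixedNorm_eq, span_gen, Submonoid.coe_mul]
  have h1 : (fun a : (b : Ideal (𝓞 K)) => if h : (a : 𝓞 K) = 0 then (0 : ℂ) else
        ψ (pI (a : 𝓞 K) h) * (hfun s (mixedEmbedding K ((a : 𝓞 K) : K)) : ℝ)) ∘ ideMap b = f := by
    funext p
    simp only [Function.comp_apply, hf]
    have hne : (ideMap b p : 𝓞 K) ≠ 0 :=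
      mul_ne_zero (Units.ne_zero p.2) (gen_ne_zero b p.1)
    rw [dif_neg hne]
    have h2 : pI (ideMap b p : 𝓞 K) hne = b * p.1.1 := by
      apply Subtype.ext
      rw [Submonoid.coe_mul, ← span_ideMap]; rfl
    have h3 : mixedEmbedding K ((ideMap b p : 𝓞 K) : K) =
        p.2 • mixedEmbedding K ((gen b p.1 : 𝓞 K) : K) := latMap_coe b p
    rw [h2, h3, hfun, norm_unit_smul, hnorm, max_eq_left
      (by exact_mod_cast one_le_absNorm (b * p.1.1)), mul_assoc]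
    congr 1
    rw [← Complex.ofReal_mul, mul_comm]
    rfl
  rw [h1]
  have hnf : ∀ p, ‖f p‖ ≤ iterm K s (b * p.1.1) *
      weight (p.2 • mixedEmbedding K ((gen b p.1 : 𝓞 K) : K)) := by
    intro p
    simp only [hf]
    rw [norm_mul, norm_mul, Complex.norm_real, Complex.norm_real, Real.norm_eq_abs,
      Real.norm_eq_abs, abs_of_nonneg (weight_nonneg _), abs_of_pos (iterm_pos _ _)]
    have h4 := hψ (b * p.1.1)
    have h5 := iterm_pos s (b * p.1.1)
    have h6 : ‖ψ (b * p.1.1)‖ * iterm K s (b * p.1.1) ≤ iterm K s (b * p.1.1) :=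
      mul_le_of_le_one_left h5.le h4
    exact mul_le_mul_of_nonneg_right h6 (weight_nonneg _)
  have hhn : ∀ J : {J : (Ideal (𝓞 K))⁰ // ClassGroup.mk0 J = (ClassGroup.mk0 b)⁻¹},
      mixedEmbedding.norm (mixedEmbedding K ((gen b J : 𝓞 K) : K)) ≠ 0 := by
    intro J
    have h8 := one_le_absNorm (b * J.1)
    rw [hnorm, Nat.cast_ne_zero]
    omega
  have hsumR : Summable fun p : {J : (Ideal (𝓞 K))⁰ //
      ClassGroup.mk0 J = (ClassGroup.mk0 b)⁻¹} × (𝓞 K)ˣ => iterm K s (b * p.1.1) *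
      weight (p.2 • mixedEmbedding K ((gen b p.1 : 𝓞 K) : K)) := by
    rw [summable_prod_of_nonneg (fun p => mul_nonneg (iterm_pos s _).le (weight_nonneg _))]
    refine ⟨fun J => ((hasSum_weight (hhn J)).mul_left (iterm K s (b * J.1))).summable, ?_⟩
    have h9 : Summable fun J : {J : (Ideal (𝓞 K))⁰ // ClassGroup.mk0 J = (ClassGroup.mk0 b)⁻¹} =>
        iterm K s b * torsionOrder K * iterm K s J.1 :=
      (summable_class hs (ClassGroup.mk0 b)⁻¹).mul_left _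
    refine h9.congr fun J => ?_
    rw [((hasSum_weight (hhn J)).mul_left (iterm K s (b * J.1))).tsum_eq, iterm_mul]
    ring
  have hfs : Summable f := Summable.of_norm_bounded hsumR hnf
  have hfib : ∀ J, HasSum (fun u => f (J, u))
      (ψ (b * J.1) * (iterm K s (b * J.1) : ℝ) * torsionOrder K) := by
    intro J
    have h10 := (Complex.hasSum_ofReal.mpr (hasSum_weight (hhn J))).mul_left
      (ψ (b * J.1) * (iterm K s (b * J.1) : ℝ))
    push_cast at h10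
    exact h10
  have h3 := hfs.hasSum.prod_fiberwise hfib
  rw [h3.tsum_eq]
  exact hfs.hasSum

end Fermat.Agent.IdealL
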