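import Mathlib
import Fermat.Agent.IdealL.RayClass
import Fermat.Agent.IdealL.Main

open MeasureTheory Module NumberField NumberField.Units Ideal Filter Topology
  NumberField.Units.dirichletUnitTheorem NumberField.mixedEmbedding NumberField.InfinitePlace

open scoped Classical nonZeroDivisors

namespace Fermat.Agent.IdealL

variable {K : Type*} [Field K] [NumberField K]

theorem exists_rep {𝔪 b : (Ideal (𝓞 K))⁰} (hb : IsCoprime (b : Ideal (𝓞 K)) (𝔪 : Ideal (𝓞 K)))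
    (x : 𝓞 K ⧸ (𝔪 : Ideal (𝓞 K))) :
    ∃ a : 𝓞 K, a ∈ (b : Ideal (𝓞 K)) ∧ Ideal.Quotient.mk (𝔪 : Ideal (𝓞 K)) a = x := by
  obtain ⟨y, rfl⟩ := Ideal.Quotient.mk_surjective x
  obtain ⟨u, hu, v, hv, huv⟩ := Ideal.isCoprime_iff_exists.mp hb
  refine ⟨y * u, Ideal.mul_mem_left _ _ hu, ?_⟩
  rw [Ideal.Quotient.eq]
  have : y * u - y = -(y * v) := by
    have h : y = y * (u + v) := by rw [huv, mul_one]
    calc y * u - y = y * u - y * (u + v) := by rw [← h]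
      _ = _ := by ring
  rw [this]
  exact neg_mem (Ideal.mul_mem_left _ _ hv)

/-- representative in `b` of a class modulo `𝔪` -/
noncomputable def rep {𝔪 b : (Ideal (𝓞 K))⁰}
    (hb : IsCoprime (b : Ideal (𝓞 K)) (𝔪 : Ideal (𝓞 K)))
    (x : 𝓞 K ⧸ (𝔪 : Ideal (𝓞 K))) : 𝓞 K := (exists_rep hb x).choose

theorem rep_mem {𝔪 b : (Ideal (𝓞 K))⁰}
    (hb : IsCoprime (b : Ideal (𝓞 K)) (𝔪 : Ideal (𝓞 K)))
    (x : 𝓞 K ⧸ (𝔪 : Ideal (𝓞 K))) : rep hb x ∈ (b : Ideal (𝓞 K)) := (exists_rep hb x).choose_spec.1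

theorem mk_rep {𝔪 b : (Ideal (𝓞 K))⁰}
    (hb : IsCoprime (b : Ideal (𝓞 K)) (𝔪 : Ideal (𝓞 K)))
    (x : 𝓞 K ⧸ (𝔪 : Ideal (𝓞 K))) :
    Ideal.Quotient.mk (𝔪 : Ideal (𝓞 K)) (rep hb x) = x := (exists_rep hb x).choose_spec.2

theorem mem_left_of_mem_mul {𝔪 b : (Ideal (𝓞 K))⁰} {a : 𝓞 K}
    (h : a ∈ ((𝔪 * b : (Ideal (𝓞 K))⁰) : Ideal (𝓞 K))) : a ∈ (𝔪 : Ideal (𝓞 K)) := by
  rw [Submonoid.coe_mul] at h
  have h3 : (𝔪 : Ideal (𝓞 K)) * (b : Ideal (𝓞 K)) ≤ 𝔪 := Ideal.mul_le_left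
  exact h3 h

theorem mem_right_of_mem_mul {𝔪 b : (Ideal (𝓞 K))⁰} {a : 𝓞 K}
    (h : a ∈ ((𝔪 * b : (Ideal (𝓞 K))⁰) : Ideal (𝓞 K))) : a ∈ (b : Ideal (𝓞 K)) := by
  rw [Submonoid.coe_mul] at h
  have h3 : (𝔪 : Ideal (𝓞 K)) * (b : Ideal (𝓞 K)) ≤ b := Ideal.mul_le_right
  exact h3 h

/-- coset decomposition -/
noncomputable def cosetEquiv {𝔪 b : (Ideal (𝓞 K))⁰}
    (hb : IsCoprime (b : Ideal (𝓞 K)) (𝔪 : Ideal (𝓞 K))) :
    (𝓞 K ⧸ (𝔪 : Ideal (𝓞 K))) × ((𝔪 * b : (Ideal (𝓞 K))⁰) : Ideal (𝓞 K)) ≃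
      (b : Ideal (𝓞 K)) :=
  Equiv.ofBijective (fun p => ⟨rep hb p.1 + p.2, add_mem (rep_mem hb p.1)
    (mem_right_of_mem_mul p.2.2)⟩) <| by
    have hm : ∀ β : ((𝔪 * b : (Ideal (𝓞 K))⁰) : Ideal (𝓞 K)), (β : 𝓞 K) ∈ (𝔪 : Ideal (𝓞 K)) :=
      fun β => mem_left_of_mem_mul β.2
    constructor
    · rintro ⟨x, β⟩ ⟨y, γ⟩ h
      have h1 : rep hb x + (β : 𝓞 K) = rep hb y + (γ : 𝓞 K) := congrArg Subtype.val h
      have h2 : x = y := by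
        have h4 := congrArg (Ideal.Quotient.mk (𝔪 : Ideal (𝓞 K))) h1
        rw [map_add, map_add, mk_rep, mk_rep, Ideal.Quotient.eq_zero_iff_mem.mpr (hm β),
          Ideal.Quotient.eq_zero_iff_mem.mpr (hm γ), add_zero, add_zero] at h4
        exact h4
      subst h2
      have h5 : (β : 𝓞 K) = γ := add_left_cancel h1
      rw [Subtype.ext h5]
    · intro a
      have h6 : (a : 𝓞 K) - rep hb (Ideal.Quotient.mk (𝔪 : Ideal (𝓞 K)) a) ∈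
          ((𝔪 * b : (Ideal (𝓞 K))⁰) : Ideal (𝓞 K)) := by
        rw [Submonoid.coe_mul, Ideal.mul_eq_inf_of_isCoprime hb.symm]
        refine ⟨?_, sub_mem a.2 (rep_mem hb _)⟩
        rw [SetLike.mem_coe, ← Ideal.Quotient.eq, mk_rep]
      exact ⟨(Ideal.Quotient.mk (𝔪 : Ideal (𝓞 K)) a, ⟨_, h6⟩), Subtype.ext (by simp)⟩

theorem cosetEquiv_apply {𝔪 b : (Ideal (𝓞 K))⁰}
    (hb : IsCoprime (b : Ideal (𝓞 K)) (𝔪 : Ideal (𝓞 K)))
    (p : (𝓞 K ⧸ (𝔪 : Ideal (𝓞 K))) × ((𝔪 * b : (Ideal (𝓞 K))⁰) : Ideal (𝓞 K))) :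
    (cosetEquiv hb p : 𝓞 K) = rep hb p.1 + p.2 := rfl

/-- an ideal is in bijection with its lattice -/
noncomputable def latEquiv (c : (Ideal (𝓞 K))⁰) :
    (c : Ideal (𝓞 K)) ≃ mixedEmbedding.idealLattice K (FractionalIdeal.mk0 K c) :=
  Equiv.ofBijective (fun a => ⟨mixedEmbedding K ((a : 𝓞 K) : K), by
    rw [mem_idealLattice]
    exact ⟨_, (mem_mk0 c _).mpr ⟨_, a.2, rfl⟩, rfl⟩⟩) <| by
    constructor
    · intro a a' h
      exact Subtype.ext (RingOfIntegers.coe_injective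
        (mixedEmbedding_injective K (congrArg Subtype.val h)))
    · rintro ⟨v, hv⟩
      obtain ⟨y, hy, rfl⟩ := (mem_idealLattice K _).mp hv
      obtain ⟨a, ha, rfl⟩ := (mem_mk0 c y).mp hy
      exact ⟨⟨a, ha⟩, rfl⟩

theorem latEquiv_apply (c : (Ideal (𝓞 K))⁰) (a : (c : Ideal (𝓞 K))) :
    (latEquiv c a : mixedSpace K) = mixedEmbedding K ((a : 𝓞 K) : K) := rfl

theorem hfun_zero (s : ℝ) : hfun s (0 : mixedSpace K) = 0 := by
  simp [hfun, weight]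

theorem summable_hfun_ideal {s : ℝ} (hs : 1 < s) (b : (Ideal (𝓞 K))⁰) :
    Summable fun a : (b : Ideal (𝓞 K)) => hfun s (mixedEmbedding K ((a : 𝓞 K) : K)) := by
  have h := (latEquiv b).summable_iff.mpr (hasSum_lattice hs b).summable
  exact h

theorem summable_hS_coset (S : Finset {w : InfinitePlace K // IsReal w}) {s : ℝ} (hs : 1 < s)
    {𝔪 b : (Ideal (𝓞 K))⁰} (hb : IsCoprime (b : Ideal (𝓞 K)) (𝔪 : Ideal (𝓞 K)))
    (x : 𝓞 K ⧸ (𝔪 : Ideal (𝓞 K))) :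
    Summable fun v : mixedEmbedding.idealLattice K (FractionalIdeal.mk0 K (𝔪 * b)) =>
      hS S s (mixedEmbedding K ((rep hb x : 𝓞 K) : K) + v) := by
  rw [← (latEquiv (𝔪 * b)).summable_iff]
  have h1 : Summable fun β : ((𝔪 * b : (Ideal (𝓞 K))⁰) : Ideal (𝓞 K)) =>
      hfun s (mixedEmbedding K ((cosetEquiv hb (x, β) : 𝓞 K) : K)) :=
    (summable_hfun_ideal hs b).comp_injective
      ((cosetEquiv hb).injective.comp (Prod.mk_right_injective x))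
  refine Summable.of_norm_bounded h1 fun β => ?_
  rw [Function.comp_apply, latEquiv_apply, cosetEquiv_apply, Real.norm_eq_abs]
  push_cast
  rw [map_add]
  exact abs_hS_le_hfun S s _

variable {𝔪 : (Ideal (𝓞 K))⁰} {ψ : (Ideal (𝓞 K))⁰ → ℂ}
    {S : Finset {w : InfinitePlace K // IsReal w}} {g : 𝓞 K → ℂ}

/-- sum over an ideal as a finite sum of coset sums. -/
theorem tsum_coset (h : IsRayChar 𝔪 ψ S g) {s : ℝ} (hs : 1 < s) {b : (Ideal (𝓞 K))⁰}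
    (hb : IsCoprime (b : Ideal (𝓞 K)) (𝔪 : Ideal (𝓞 K)))
    [Fintype (𝓞 K ⧸ (𝔪 : Ideal (𝓞 K)))] :
    ∑' J : {J : (Ideal (𝓞 K))⁰ // ClassGroup.mk0 J = (ClassGroup.mk0 b)⁻¹},
        ψ (b * J.1) * (iterm K s (b * J.1) : ℝ) * torsionOrder K =
      ∑ x : 𝓞 K ⧸ (𝔪 : Ideal (𝓞 K)), g (rep hb x) *
        ((∑' v : mixedEmbedding.idealLattice K (FractionalIdeal.mk0 K (𝔪 * b)),
          hS S s (mixedEmbedding K ((rep hb x : 𝓞 K) : K) + v) : ℝ) : ℂ) := by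
  have h1 := hasSum_ideMap ψ h.norm_le hs b
  have h2 : ∀ a : (b : Ideal (𝓞 K)), (if h : (a : 𝓞 K) = 0 then (0 : ℂ) else
        ψ (pI (a : 𝓞 K) h) * (hfun s (mixedEmbedding K ((a : 𝓞 K) : K)) : ℝ)) =
      g (a : 𝓞 K) * (hS S s (mixedEmbedding K ((a : 𝓞 K) : K)) : ℝ) := by
    intro a
    split_ifs with ha
    · rw [ha]
      have : mixedEmbedding K ((0 : 𝓞 K) : K) = 0 := by simp
      rw [this, hS, hfun_zero]
      simp
    · rw [h.principal _ ha, hS]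
      push_cast
      ring
  simp_rw [h2] at h1
  rw [← (cosetEquiv hb).hasSum_iff] at h1
  have hfib : ∀ x : 𝓞 K ⧸ (𝔪 : Ideal (𝓞 K)), HasSum (fun β : ((𝔪 * b : (Ideal (𝓞 K))⁰) :
      Ideal (𝓞 K)) => ((fun a : (b : Ideal (𝓞 K)) => g (a : 𝓞 K) *
        (hS S s (mixedEmbedding K ((a : 𝓞 K) : K)) : ℝ)) ∘ (cosetEquiv hb)) (x, β))
      (g (rep hb x) *
        ((∑' v : mixedEmbedding.idealLattice K (FractionalIdeal.mk0 K (𝔪 * b)),
          hS S s (mixedEmbedding K ((rep hb x : 𝓞 K) : K) + v) : ℝ) : ℂ)) := by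
    intro x
    have h3 := ((summable_hS_coset S hs hb x).hasSum)
    rw [← (latEquiv (𝔪 * b)).hasSum_iff] at h3
    have h4 := (Complex.hasSum_ofReal.mpr h3).mul_left (g (rep hb x))
    refine h4.congr_fun fun β => ?_
    simp only [Function.comp_apply]
    rw [latEquiv_apply, cosetEquiv_apply]
    have h5 : g (rep hb x + (β : 𝓞 K)) = g (rep hb x) := by
      refine h.periodic _ _ ?_
      rw [add_sub_cancel_left]
      exact mem_left_of_mem_mul β.2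
    rw [h5]
    push_cast
    rw [map_add]
  have h6 := h1.prod_fiberwise hfib
  exact h6.unique (hasSum_fintype _)

/-- partial L-function of an ideal class -/
noncomputable def Lc (ψ : (Ideal (𝓞 K))⁰ → ℂ) (s : ℝ) (c : ClassGroup (𝓞 K)) : ℂ :=
  ∑' J : {J : (Ideal (𝓞 K))⁰ // ClassGroup.mk0 J = c}, ψ J.1 * (iterm K s J.1 : ℝ)

theorem g_rep (h : IsRayChar 𝔪 ψ S g) {b : (Ideal (𝓞 K))⁰}
    (hb : IsCoprime (b : Ideal (𝓞 K)) (𝔪 : Ideal (𝓞 K))) (x : 𝓞 K ⧸ (𝔪 : Ideal (𝓞 K))) :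
    g (rep hb x) = g (Quotient.out x) := by
  refine h.periodic _ _ ?_
  rw [← Ideal.Quotient.eq, mk_rep]
  exact (Ideal.Quotient.mk_out x).symm

theorem exists_tendsto_one (h : IsRayChar 𝔪 ψ S g)
    [Fintype (𝓞 K ⧸ (𝔪 : Ideal (𝓞 K)))] {b : (Ideal (𝓞 K))⁰}
    (hb : IsCoprime (b : Ideal (𝓞 K)) (𝔪 : Ideal (𝓞 K))) :
    ∃ ℓ : ℂ, Tendsto (fun s : ℝ =>
      ((((2⁻¹ : ℝ) ^ nrComplexPlaces K * √|discr K|) * absNorm (𝔪 : Ideal (𝓞 K)) *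
        torsionOrder K : ℝ) : ℂ) *
      ((((absNorm (b : Ideal (𝓞 K)) : ℝ) * iterm K s b : ℝ) : ℂ) * ψ b *
        Lc ψ s (ClassGroup.mk0 b)⁻¹) -
      (∑ x : 𝓞 K ⧸ (𝔪 : Ideal (𝓞 K)), g (Quotient.out x)) *
        ((∫ x : mixedSpace K, hS S s x : ℝ) : ℂ)) (𝓝[>] 1) (𝓝 ℓ) := by
  obtain ⟨D, hD, hmain⟩ := exists_tendsto_coset (volume : Measure (mixedSpace K))
    (mixedEmbedding.idealLattice K (FractionalIdeal.mk0 K (𝔪 * b)))
  obtain ⟨R, C, hRC⟩ := hS_lip S D hD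
  have hrank : finrank ℝ (mixedSpace K) = finrank ℚ K := mixedEmbedding.finrank K
  have hIoc : ∀ᶠ s in 𝓝[>] (1 : ℝ), s ∈ Set.Ioc (1 : ℝ) 2 := Ioc_mem_nhdsGT (by norm_num)
  have hx : ∀ x : 𝓞 K ⧸ (𝔪 : Ideal (𝓞 K)), ∃ ℓ : ℝ, Tendsto (fun s =>
      ZLattice.covolume (mixedEmbedding.idealLattice K (FractionalIdeal.mk0 K (𝔪 * b))) *
        ∑' v : mixedEmbedding.idealLattice K (FractionalIdeal.mk0 K (𝔪 * b)),
          hS S s (mixedEmbedding K ((rep hb x : 𝓞 K) : K) + v) -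
        ∫ x : mixedSpace K, hS S s x) (𝓝[>] 1) (𝓝 ℓ) := by
    intro x
    refine hmain _ R C (𝓝[>] 1) (fun s => hS S s) (hS S 1) ?_ (tendsto_hS S)
    filter_upwards [hIoc] with s hs
    refine ⟨measurable_hS S s, abs_hS_le_one S (by linarith [hs.1]), fun x y hx hxy => ?_,
      summable_hS_coset S hs.1 hb x⟩
    rw [hrank]
    exact hRC s ⟨hs.1.le, hs.2⟩ x y hx hxy
  choose ℓ hℓ using hx
  refine ⟨∑ x, g (Quotient.out x) * (ℓ x : ℂ), ?_⟩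
  have h1 : Tendsto (fun s : ℝ => ∑ x : 𝓞 K ⧸ (𝔪 : Ideal (𝓞 K)), g (Quotient.out x) *
      ((ZLattice.covolume (mixedEmbedding.idealLattice K (FractionalIdeal.mk0 K (𝔪 * b))) *
        ∑' v : mixedEmbedding.idealLattice K (FractionalIdeal.mk0 K (𝔪 * b)),
          hS S s (mixedEmbedding K ((rep hb x : 𝓞 K) : K) + v) -
        ∫ x : mixedSpace K, hS S s x : ℝ) : ℂ)) (𝓝[>] 1)
      (𝓝 (∑ x, g (Quotient.out x) * (ℓ x : ℂ))) :=
    tendsto_finsetSum _ fun x _ => ((Complex.continuous_ofReal.tendsto _).comp (hℓ x)).const_mul _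
  refine h1.congr' ?_
  filter_upwards [hIoc] with s hs
  have h2 := tsum_coset h hs.1 hb
  have hcov : ZLattice.covolume
      (mixedEmbedding.idealLattice K (FractionalIdeal.mk0 K (𝔪 * b))) =
      (absNorm (𝔪 : Ideal (𝓞 K)) : ℝ) * (absNorm (b : Ideal (𝓞 K)) : ℝ) *
        ((2⁻¹ : ℝ) ^ nrComplexPlaces K * √|discr K|) := by
    rw [covolume_idealLattice, FractionalIdeal.coe_mk0, FractionalIdeal.coeIdeal_absNorm,
      Submonoid.coe_mul, _root_.map_mul]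
    push_cast
    ring
  have h3 : ∑' J : {J : (Ideal (𝓞 K))⁰ // ClassGroup.mk0 J = (ClassGroup.mk0 b)⁻¹},
        ψ (b * J.1) * (iterm K s (b * J.1) : ℝ) * torsionOrder K =
      ψ b * (iterm K s b : ℝ) * torsionOrder K * Lc ψ s (ClassGroup.mk0 b)⁻¹ := by
    rw [Lc, ← tsum_mul_left]
    refine tsum_congr fun J => ?_
    rw [h.map_mul, iterm_mul]
    push_cast
    ring
  rw [h3] at h2
  set N : ℂ := ((absNorm (b : Ideal (𝓞 K)) : ℝ) : ℂ)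
  have h4 : ∀ x : 𝓞 K ⧸ (𝔪 : Ideal (𝓞 K)), g (Quotient.out x) *
      ((ZLattice.covolume (mixedEmbedding.idealLattice K (FractionalIdeal.mk0 K (𝔪 * b))) *
        ∑' v : mixedEmbedding.idealLattice K (FractionalIdeal.mk0 K (𝔪 * b)),
          hS S s (mixedEmbedding K ((rep hb x : 𝓞 K) : K) + v) -
        ∫ x : mixedSpace K, hS S s x : ℝ) : ℂ) =
      (((absNorm (𝔪 : Ideal (𝓞 K)) : ℝ) * (absNorm (b : Ideal (𝓞 K)) : ℝ) *
        ((2⁻¹ : ℝ) ^ nrComplexPlaces K * √|discr K|) : ℝ) : ℂ) * (g (rep hb x) *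
        ((∑' v : mixedEmbedding.idealLattice K (FractionalIdeal.mk0 K (𝔪 * b)),
          hS S s (mixedEmbedding K ((rep hb x : 𝓞 K) : K) + v) : ℝ) : ℂ)) -
      g (Quotient.out x) * ((∫ x : mixedSpace K, hS S s x : ℝ) : ℂ) := by
    intro x
    rw [hcov, g_rep h hb]
    push_cast
    ring
  rw [Finset.sum_congr rfl fun x _ => h4 x, Finset.sum_sub_distrib, ← Finset.mul_sum, ← h2,
    ← Finset.sum_mul]
  push_cast
  ring

theorem tendsto_nb (b : (Ideal (𝓞 K))⁰) :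
    Tendsto (fun s : ℝ => ((absNorm (b : Ideal (𝓞 K)) : ℝ) * iterm K s b : ℝ)) (𝓝[>] 1)
      (𝓝 1) := by
  have h0 : (0 : ℝ) < absNorm (b : Ideal (𝓞 K)) := by
    have := one_le_absNorm b
    exact_mod_cast this
  have h1 : Continuous fun s : ℝ => (absNorm (b : Ideal (𝓞 K)) : ℝ) * iterm K s b := by
    unfold iterm
    exact continuous_const.mul ((Real.continuous_const_rpow h0.ne').comp continuous_neg)
  have h2 := (h1.tendsto 1).mono_left (nhdsWithin_le_nhds (s := Set.Ioi 1))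
  have h3 : (absNorm (b : Ideal (𝓞 K)) : ℝ) * iterm K 1 b = 1 := by
    unfold iterm
    rw [Real.rpow_neg_one, mul_inv_cancel₀ h0.ne']
  rwa [h3] at h2

theorem exists_coprime_rep (𝔪 : (Ideal (𝓞 K))⁰) (c : ClassGroup (𝓞 K)) :
    ∃ b : (Ideal (𝓞 K))⁰, IsCoprime (b : Ideal (𝓞 K)) (𝔪 : Ideal (𝓞 K)) ∧
      ClassGroup.mk0 b = c := by
  obtain ⟨J, hJ⟩ := ClassGroup.mk0_surjective c⁻¹
  have hne : (𝔪 : Ideal (𝓞 K)) * (J : Ideal (𝓞 K)) ≠ 0 :=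
    mul_ne_zero (nonZeroDivisors.coe_ne_zero 𝔪) (nonZeroDivisors.coe_ne_zero J)
  obtain ⟨a, ha⟩ := IsDedekindDomain.exists_sup_span_eq
    (Ideal.mul_le_right : (𝔪 : Ideal (𝓞 K)) * (J : Ideal (𝓞 K)) ≤ J) hne
  have haJ : span {a} ≤ (J : Ideal (𝓞 K)) := by
    rw [← ha]; exact le_sup_right
  obtain ⟨b, hb⟩ := Ideal.dvd_iff_le.mpr haJ
  have h1 : (J : Ideal (𝓞 K)) * ((𝔪 : Ideal (𝓞 K)) ⊔ b) = (J : Ideal (𝓞 K)) * ⊤ := by
    rw [Ideal.mul_sup, mul_comm (J : Ideal (𝓞 K)) 𝔪, ← hb, ha, Ideal.mul_top]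
  have h2 : (𝔪 : Ideal (𝓞 K)) ⊔ b = ⊤ := mul_left_cancel₀ (nonZeroDivisors.coe_ne_zero J) h1
  by_cases ha0 : a = 0
  · -- then `𝔪 = ⊤`
    have hJ0 : b = 0 := by
      rw [ha0, span_singleton_eq_bot.mpr rfl] at hb
      have := hb.symm
      rw [← Ideal.zero_eq_bot, mul_eq_zero] at this
      exact this.resolve_left (nonZeroDivisors.coe_ne_zero J)
    have h3 : (𝔪 : Ideal (𝓞 K)) = ⊤ := by
      rw [hJ0] at h2
      simpa using h2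
    obtain ⟨b', hb'⟩ := ClassGroup.mk0_surjective c
    refine ⟨b', ?_, hb'⟩
    rw [h3, Ideal.isCoprime_iff_sup_eq]
    simp
  · have hb0 : b ≠ 0 := by
      rintro rfl
      rw [mul_zero] at hb
      exact ha0 (span_singleton_eq_bot.mp hb)
    obtain ⟨b', rfl⟩ : ∃ b' : (Ideal (𝓞 K))⁰, (b' : Ideal (𝓞 K)) = b :=
      ⟨⟨b, mem_nonZeroDivisors_of_ne_zero hb0⟩, rfl⟩
    refine ⟨b', ?_, ?_⟩
    · rw [Ideal.isCoprime_iff_sup_eq, sup_comm]; exact h2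
    · have h4 : ClassGroup.mk0 (J * b') = 1 := by
        rw [mk0_eq_one, Submonoid.coe_mul, ← hb]
        infer_instance
      rw [_root_.map_mul, hJ] at h4
      rw [← mul_right_inj c⁻¹, h4, inv_mul_cancel]

theorem summable_char (hψ : ∀ I, ‖ψ I‖ ≤ 1) {s : ℝ} (hs : 1 < s) :
    Summable fun I : (Ideal (𝓞 K))⁰ => ψ I * (iterm K s I : ℝ) := by
  refine Summable.of_norm_bounded (summable_iterm hs) fun I => ?_
  rw [norm_mul, Complex.norm_real, Real.norm_eq_abs, abs_of_pos (iterm_pos s I)]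
  exact mul_le_of_le_one_left (iterm_pos s I).le (hψ I)

/-- **Convergence at `1`** of `L(s, ψ)` for a nontrivial ray class character. -/
theorem exists_tendsto_L (h : IsRayChar 𝔪 ψ S g) {I₀ : (Ideal (𝓞 K))⁰}
    (hI₀ : IsCoprime (I₀ : Ideal (𝓞 K)) (𝔪 : Ideal (𝓞 K))) (hne : ψ I₀ ≠ 1) :
    ∃ ℓ : ℂ, Tendsto (fun s : ℝ => ∑' I : (Ideal (𝓞 K))⁰, ψ I * (iterm K s I : ℝ)) (𝓝[>] 1)
      (𝓝 ℓ) := by
  have : Finite (𝓞 K ⧸ (𝔪 : Ideal (𝓞 K))) :=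
    Ideal.finiteQuotientOfFreeOfNeBot _ (nonZeroDivisors.coe_ne_zero 𝔪)
  have := Fintype.ofFinite (𝓞 K ⧸ (𝔪 : Ideal (𝓞 K)))
  have hIoc : ∀ᶠ s in 𝓝[>] (1 : ℝ), s ∈ Set.Ioc (1 : ℝ) 2 := Ioc_mem_nhdsGT (by norm_num)
  set κ : ℂ := ((((2⁻¹ : ℝ) ^ nrComplexPlaces K * √|discr K|) * absNorm (𝔪 : Ideal (𝓞 K)) *
        torsionOrder K : ℝ) : ℂ) with hκ
  have hκ0 : κ ≠ 0 := by
    rw [hκ]
    norm_cast
    have h2 : (0 : ℝ) < |discr K| := by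
      exact_mod_cast abs_pos.mpr (discr_ne_zero K)
    have h3 : (0 : ℝ) < torsionOrder K := by exact_mod_cast torsionOrder_pos K
    have h4 : 0 < √(|discr K| : ℝ) := Real.sqrt_pos.mpr (by exact_mod_cast h2)
    have h5 : 0 < (2⁻¹ : ℝ) ^ nrComplexPlaces K := by positivity
    have h6 : (0 : ℝ) < absNorm (𝔪 : Ideal (𝓞 K)) := by
      have := one_le_absNorm 𝔪
      exact_mod_cast this
    have h7 := mul_pos (mul_pos (mul_pos h5 (by exact_mod_cast h4)) h6) h3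
    exact_mod_cast h7.ne'
  -- the twisted difference for each class
  have hc : ∀ c : ClassGroup (𝓞 K), ∃ ℓ : ℂ, Tendsto (fun s : ℝ => Lc ψ s c -
      ((((absNorm (I₀ : Ideal (𝓞 K)) : ℝ) * iterm K s I₀ : ℝ) : ℂ) * ψ I₀) *
        Lc ψ s (c * (ClassGroup.mk0 I₀)⁻¹)) (𝓝[>] 1) (𝓝 ℓ) := by
    intro c
    obtain ⟨b, hb, hbc⟩ := exists_coprime_rep 𝔪 c⁻¹
    have hb' : IsCoprime ((I₀ * b : (Ideal (𝓞 K))⁰) : Ideal (𝓞 K)) (𝔪 : Ideal (𝓞 K)) := by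
      rw [Submonoid.coe_mul]; exact hI₀.mul_left hb
    obtain ⟨ℓ₁, hℓ₁⟩ := exists_tendsto_one h hb
    obtain ⟨ℓ₂, hℓ₂⟩ := exists_tendsto_one h hb'
    rw [← hκ] at hℓ₁ hℓ₂
    have hψb : ψ b ≠ 0 := by
      intro h0
      have := h.norm_one b hb
      rw [h0, norm_zero] at this
      exact zero_ne_one this
    have hnb : Tendsto (fun s : ℝ => (((absNorm (b : Ideal (𝓞 K)) : ℝ) * iterm K s b : ℝ) : ℂ))
        (𝓝[>] 1) (𝓝 1) := by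
      have := (Complex.continuous_ofReal.tendsto _).comp (tendsto_nb b)
      rw [Complex.ofReal_one] at this
      exact this
    have hd : Tendsto (fun s : ℝ => κ *
        (((absNorm (b : Ideal (𝓞 K)) : ℝ) * iterm K s b : ℝ) : ℂ) * ψ b) (𝓝[>] 1)
        (𝓝 (κ * 1 * ψ b)) := (hnb.const_mul κ).mul_const _
    have hq := (hℓ₁.sub hℓ₂).div hd (by simp [hκ0, hψb])
    refine ⟨_, hq.congr' ?_⟩
    filter_upwards [hIoc] with s hs
    have hit : (((absNorm (b : Ideal (𝓞 K)) : ℝ) * iterm K s b : ℝ) : ℂ) ≠ 0 := by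
      have h1 := iterm_pos s b
      have h2 : (0 : ℝ) < absNorm (b : Ideal (𝓞 K)) := by
        have := one_le_absNorm b
        exact_mod_cast this
      exact_mod_cast (mul_pos h2 h1).ne'
    have e1 : (ClassGroup.mk0 b)⁻¹ = c := by rw [hbc, inv_inv]
    have e2 : (ClassGroup.mk0 (I₀ * b))⁻¹ = c * (ClassGroup.mk0 I₀)⁻¹ := by
      rw [_root_.map_mul, mul_inv, e1, mul_comm]
    have e3 : (absNorm ((I₀ * b : (Ideal (𝓞 K))⁰) : Ideal (𝓞 K)) : ℝ) =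
        absNorm (I₀ : Ideal (𝓞 K)) * absNorm (b : Ideal (𝓞 K)) := by
      rw [Submonoid.coe_mul, _root_.map_mul]; push_cast; rfl
    simp only [Pi.div_apply]
    rw [e1, e2, e3, h.map_mul, iterm_mul, div_eq_iff (by
      exact mul_ne_zero (mul_ne_zero hκ0 hit) hψb)]
    push_cast
    ring
  choose ℓ hℓ using hc
  have hsum : Tendsto (fun s : ℝ => ∑ c : ClassGroup (𝓞 K), (Lc ψ s c -
      ((((absNorm (I₀ : Ideal (𝓞 K)) : ℝ) * iterm K s I₀ : ℝ) : ℂ) * ψ I₀) *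
        Lc ψ s (c * (ClassGroup.mk0 I₀)⁻¹))) (𝓝[>] 1) (𝓝 (∑ c, ℓ c)) :=
    tendsto_finsetSum _ fun c _ => hℓ c
  have hfac : Tendsto (fun s : ℝ => 1 -
      ((((absNorm (I₀ : Ideal (𝓞 K)) : ℝ) * iterm K s I₀ : ℝ) : ℂ) * ψ I₀)) (𝓝[>] 1)
      (𝓝 (1 - 1 * ψ I₀)) := by
    have hnb : Tendsto (fun s : ℝ => (((absNorm (I₀ : Ideal (𝓞 K)) : ℝ) *
        iterm K s I₀ : ℝ) : ℂ)) (𝓝[>] 1) (𝓝 1) := by
      have := (Complex.continuous_ofReal.tendsto _).comp (tendsto_nb I₀)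
      rw [Complex.ofReal_one] at this
      exact this
    exact tendsto_const_nhds.sub (hnb.mul_const _)
  have hfac0 : 1 - 1 * ψ I₀ ≠ 0 := by
    rw [one_mul, sub_ne_zero]; exact hne.symm
  have hq := hsum.div hfac hfac0
  refine ⟨_, hq.congr' ?_⟩
  have hfacne : ∀ᶠ s in 𝓝[>] (1 : ℝ), 1 -
      ((((absNorm (I₀ : Ideal (𝓞 K)) : ℝ) * iterm K s I₀ : ℝ) : ℂ) * ψ I₀) ≠ 0 :=
    hfac.eventually_ne hfac0
  filter_upwards [hIoc, hfacne] with s hs hs'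
  have hL : ∑' I : (Ideal (𝓞 K))⁰, ψ I * (iterm K s I : ℝ) = ∑ c, Lc ψ s c := by
    rw [tsum_fiber (ClassGroup.mk0 : (Ideal (𝓞 K))⁰ → ClassGroup (𝓞 K))
      (summable_char h.norm_le hs.1)]
    rfl
  have hL' : ∑ c : ClassGroup (𝓞 K), Lc ψ s (c * (ClassGroup.mk0 I₀)⁻¹) = ∑ c, Lc ψ s c :=
    Fintype.sum_equiv (Equiv.mulRight (ClassGroup.mk0 I₀)⁻¹) _ _ fun c => rfl
  simp only [Pi.div_apply]
  rw [Finset.sum_sub_distrib, ← Finset.mul_sum, hL', hL, div_eq_iff hs']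
  ring

end Fermat.Agent.IdealL
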