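import Mathlib
import Fermat.Agent.IdealL.RayLimit

/-!
# Dirichlet characters composed with the norm are ray class characters
-/

open NumberField Ideal Filter Topology NumberField.mixedEmbedding NumberField.InfinitePlace

open scoped Classical nonZeroDivisors

namespace Fermat.Agent.IdealL

variable {K : Type*} [Field K] [NumberField K]

theorem prod_fiber (x : K) (w : InfinitePlace K) :
    ∏ φ : K →+* ℂ with InfinitePlace.mk φ = w, φ x =
      ((if hw : IsReal w then embedding_of_isReal hw x else (w x) ^ 2 : ℝ) : ℂ) := by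
  have h1 : (Finset.univ.filter fun φ : K →+* ℂ => InfinitePlace.mk φ = w) =
      {embedding w} ∪ {ComplexEmbedding.conjugate (embedding w)} := by
    ext φ
    simp only [Finset.mem_filter, Finset.mem_univ, true_and, Finset.mem_union,
      Finset.mem_singleton]
    conv_lhs => rw [← mk_embedding w, mk_eq_iff, ComplexEmbedding.conjugate,
      star_involutive.eq_iff]
  rw [h1]
  split_ifs with hw
  · rw [ComplexEmbedding.isReal_iff.mp (isReal_iff.mp hw), Finset.union_idempotent,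
      Finset.prod_singleton, embedding_of_isReal_apply]
  · have hne : embedding w ≠ ComplexEmbedding.conjugate (embedding w) := by
      rwa [Ne, eq_comm, ← ComplexEmbedding.isReal_iff, ← isReal_iff]
    rw [← Finset.insert_eq, Finset.prod_pair hne, ComplexEmbedding.conjugate_coe_eq,
      Complex.mul_conj, Complex.normSq_eq_norm_sq, norm_embedding_eq]

theorem norm_eq_prod_places (x : K) :
    ((Algebra.norm ℚ x : ℚ) : ℝ) =
      ∏ w : InfinitePlace K, (if hw : IsReal w then embedding_of_isReal hw x else (w x) ^ 2 : ℝ) := by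
  have h := Algebra.norm_eq_prod_embeddings ℚ ℂ x
  rw [← Fintype.prod_equiv (RingHom.equivRatAlgHom K ℂ) (fun f => f x)
      (fun φ => φ x) fun _ => by simp [RingHom.equivRatAlgHom_apply]] at h
  rw [← Finset.prod_fiberwise Finset.univ InfinitePlace.mk (fun φ : K →+* ℂ => φ x),
    Finset.prod_congr rfl fun w _ => prod_fiber x w, ← Complex.ofReal_prod] at h
  have h2 : (((Algebra.norm ℚ x : ℚ) : ℝ) : ℂ) =
      ((∏ w : InfinitePlace K,
        (if hw : IsReal w then embedding_of_isReal hw x else (w x) ^ 2 : ℝ) : ℝ) : ℂ) := by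
    rw [← h]; simp
  exact_mod_cast h2

theorem realSign_eq_div {t : ℝ} (ht : t ≠ 0) : Real.sign t = t / |t| := by
  rcases lt_or_gt_of_ne ht with h | h
  · rw [Real.sign_of_neg h, abs_of_neg h, div_neg, div_self ht]
  · rw [Real.sign_of_pos h, abs_of_pos h, div_self ht]

theorem sg_univ (x : K) (hx : x ≠ 0) :
    sg Finset.univ (mixedEmbedding K x) = ((Algebra.norm ℚ x : ℚ) : ℝ) /
      |((Algebra.norm ℚ x : ℚ) : ℝ)| := by
  rw [norm_eq_prod_places, Finset.abs_prod, ← Finset.prod_div_distrib]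
  have h1 : ∀ w : InfinitePlace K,
      (if hw : IsReal w then embedding_of_isReal hw x else (w x) ^ 2 : ℝ) /
      |(if hw : IsReal w then embedding_of_isReal hw x else (w x) ^ 2 : ℝ)| =
      if hw : IsReal w then Real.sign (embedding_of_isReal hw x) else 1 := by
    intro w
    split_ifs with hw
    · rw [realSign_eq_div]
      exact (map_ne_zero _).mpr hx
    · have : 0 < (w x) ^ 2 := pow_pos (pos_iff.mpr hx) 2
      rw [abs_of_pos this, div_self this.ne']
  rw [Finset.prod_congr rfl fun w _ => h1 w]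
  rw [← Finset.prod_subset (Finset.subset_univ (Finset.univ.filter fun w : InfinitePlace K => IsReal w))
    (fun w _ hw => by
      rw [dif_neg]
      intro h
      exact hw (Finset.mem_filter.mpr ⟨Finset.mem_univ _, h⟩))]
  unfold sg
  symm
  refine Finset.prod_bij' (fun w hw => ⟨w, (Finset.mem_filter.mp hw).2⟩) (fun w _ => w.1)
    (fun _ _ => Finset.mem_univ _) (fun w _ => Finset.mem_filter.mpr ⟨Finset.mem_univ _, w.2⟩)
    (fun _ _ => rfl) (fun _ _ => rfl) (fun w hw => ?_)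
  rw [dif_pos (Finset.mem_filter.mp hw).2, mixedEmbedding_apply_isReal]

theorem norm_mod (m : ℕ) {a b : 𝓞 K} (h : a - b ∈ span {(m : 𝓞 K)}) :
    ((Algebra.norm ℤ a : ℤ) : ZMod m) = ((Algebra.norm ℤ b : ℤ) : ZMod m) := by
  obtain ⟨c, hc⟩ := mem_span_singleton.mp h
  have ha : a = b + m * c := by rw [← hc]; ring
  let B := Module.Free.chooseBasis ℤ (𝓞 K)
  have key : ∀ x : 𝓞 K, ((Algebra.norm ℤ x : ℤ) : ZMod m) =
      ((Algebra.leftMulMatrix B x).map (Int.castRingHom (ZMod m))).det := by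
    intro x
    rw [Algebra.norm_eq_matrix_det B x]
    exact RingHom.map_det (Int.castRingHom (ZMod m)) _
  rw [key, key, ha]
  congr 1
  ext i j
  rw [map_add, _root_.map_mul, map_natCast]
  simp only [Matrix.map_apply, Matrix.add_apply, map_add]
  have : (((m : ℕ) : Matrix (Module.Free.ChooseBasisIndex ℤ (𝓞 K))
      (Module.Free.ChooseBasisIndex ℤ (𝓞 K)) ℤ) * (Algebra.leftMulMatrix B c)) i j =
      (m : ℤ) * (Algebra.leftMulMatrix B c) i j := by
    rw [← Matrix.diagonal_natCast, Matrix.diagonal_mul]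
  rw [this, _root_.map_mul]
  simp

theorem absNorm_isUnit_iff (m : ℕ) [NeZero m] (I : (Ideal (𝓞 K))⁰) :
    IsUnit ((absNorm (I : Ideal (𝓞 K)) : ℕ) : ZMod m) ↔
      IsCoprime (I : Ideal (𝓞 K)) (span {(m : 𝓞 K)}) := by
  rw [ZMod.isUnit_iff_coprime]
  constructor
  · intro h
    have h1 : IsCoprime ((absNorm (I : Ideal (𝓞 K)) : ℕ) : ℤ) (m : ℤ) :=
      Nat.isCoprime_iff_coprime.mpr h
    obtain ⟨u, v, huv⟩ := h1
    rw [Ideal.isCoprime_iff_exists]
    refine ⟨(u : 𝓞 K) * (absNorm (I : Ideal (𝓞 K)) : 𝓞 K), ?_, (v : 𝓞 K) * (m : 𝓞 K), ?_, ?_⟩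
    · exact Ideal.mul_mem_left _ _ (absNorm_mem _)
    · exact Ideal.mul_mem_left _ _ (mem_span_singleton_self _)
    · exact_mod_cast congrArg (fun z : ℤ => (z : 𝓞 K)) huv
  · intro h
    by_contra hcop
    obtain ⟨p, hp, hpd⟩ := Nat.exists_prime_and_dvd hcop
    have := Fact.mk hp
    have hpN : p ∣ absNorm (I : Ideal (𝓞 K)) := hpd.trans (Nat.gcd_dvd_left _ _)
    have hpm : p ∣ m := hpd.trans (Nat.gcd_dvd_right _ _)
    have hfin : Finite (𝓞 K ⧸ (I : Ideal (𝓞 K))) :=
      Ideal.finiteQuotientOfFreeOfNeBot _ (nonZeroDivisors.coe_ne_zero I)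
    have := Fintype.ofFinite (𝓞 K ⧸ (I : Ideal (𝓞 K)))
    rw [absNorm_apply, Submodule.cardQuot_apply, Nat.card_eq_fintype_card] at hpN
    obtain ⟨x, hx⟩ := exists_prime_addOrderOf_dvd_card p hpN
    obtain ⟨i, hi, j, hj, hij⟩ := Ideal.isCoprime_iff_exists.mp h
    obtain ⟨c, rfl⟩ := mem_span_singleton.mp hj
    obtain ⟨k, rfl⟩ := hpm
    have h2 : (p : 𝓞 K ⧸ (I : Ideal (𝓞 K))) * x = 0 := by
      rw [← nsmul_eq_mul, ← hx, addOrderOf_nsmul_eq_zero]
    have h3 : x = 0 := by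
      obtain ⟨y, rfl⟩ := Ideal.Quotient.mk_surjective x
      have h4 : Ideal.Quotient.mk (I : Ideal (𝓞 K)) y =
          Ideal.Quotient.mk (I : Ideal (𝓞 K)) (((p * k : ℕ) : 𝓞 K) * c * y) := by
        rw [Ideal.Quotient.eq]
        have : y - ((p * k : ℕ) : 𝓞 K) * c * y = i * y := by
          calc y - ((p * k : ℕ) : 𝓞 K) * c * y = (i + ((p * k : ℕ) : 𝓞 K) * c) * y -
              ((p * k : ℕ) : 𝓞 K) * c * y := by rw [hij, one_mul]
            _ = _ := by ring
        rw [this]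
        exact Ideal.mul_mem_right _ _ hi
      rw [h4]
      have h5 : Ideal.Quotient.mk (I : Ideal (𝓞 K)) (((p * k : ℕ) : 𝓞 K) * c * y) =
          Ideal.Quotient.mk (I : Ideal (𝓞 K)) ((k : 𝓞 K) * c) *
          ((p : 𝓞 K ⧸ (I : Ideal (𝓞 K))) * Ideal.Quotient.mk (I : Ideal (𝓞 K)) y) := by
        rw [← map_natCast (Ideal.Quotient.mk (I : Ideal (𝓞 K))), ← _root_.map_mul,
          ← _root_.map_mul]
        congr 1
        push_cast
        ring
      rw [h5, h2, mul_zero]
    rw [h3, addOrderOf_zero] at hx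
    exact hp.one_lt.ne hx

/-- modulus ideal -/
noncomputable def modI (K : Type*) [Field K] [NumberField K] (m : ℕ) [NeZero m] :
    (Ideal (𝓞 K))⁰ := pI (m : 𝓞 K) (by exact_mod_cast NeZero.ne m)

theorem coe_modI (m : ℕ) [NeZero m] : (modI K m : Ideal (𝓞 K)) = span {(m : 𝓞 K)} := rfl

/-- the character `χ ∘ N` -/
noncomputable def dchar (K : Type*) [Field K] [NumberField K] {m : ℕ}
    (χ : DirichletCharacter ℂ m) (I : (Ideal (𝓞 K))⁰) : ℂ :=
  χ ((absNorm (I : Ideal (𝓞 K)) : ℕ) : ZMod m)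

theorem isRayChar_dchar {m : ℕ} [NeZero m] (χ : DirichletCharacter ℂ m) :
    ∃ S : Finset {w : InfinitePlace K // IsReal w},
      IsRayChar (modI K m) (dchar K χ) S fun a => χ ((Algebra.norm ℤ a : ℤ) : ZMod m) := by
  have hbase : ∀ S : Finset {w : InfinitePlace K // IsReal w},
      (∀ (a : 𝓞 K) (ha : a ≠ 0), dchar K χ (pI a ha) =
        sg S (mixedEmbedding K (a : K)) * χ ((Algebra.norm ℤ a : ℤ) : ZMod m)) →
      IsRayChar (modI K m) (dchar K χ) S fun a => χ ((Algebra.norm ℤ a : ℤ) : ZMod m) := by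
    intro S hS
    refine ⟨?_, ?_, ?_, ?_, ?_, hS⟩
    · simp [dchar]
    · intro I J
      simp [dchar]
    · intro I hI
      rw [coe_modI, ← absNorm_isUnit_iff] at hI
      exact MulChar.map_nonunit χ hI
    · intro I hI
      rw [coe_modI, ← absNorm_isUnit_iff] at hI
      obtain ⟨u, hu⟩ := hI
      rw [dchar, ← hu]
      exact DirichletCharacter.unit_norm_eq_one χ u
    · intro a b hab
      rw [coe_modI] at hab
      rw [norm_mod m hab]
  rcases χ.even_or_odd with hχ | hχ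
  · refine ⟨∅, hbase ∅ fun a ha => ?_⟩
    simp only [sg, Finset.prod_empty, Complex.ofReal_one, one_mul]
    change χ ((absNorm (span {a}) : ℕ) : ZMod m) = _
    rw [absNorm_span_singleton]
    rcases Int.natAbs_eq (Algebra.norm ℤ a) with h | h
    · conv_rhs => rw [h]
      simp
    · conv_rhs => rw [h]
      rw [Int.cast_neg, hχ.eval_neg, Int.cast_natCast]
  · refine ⟨Finset.univ, hbase Finset.univ fun a ha => ?_⟩
    change χ ((absNorm (span {a}) : ℕ) : ZMod m) = _
    have ha' : (a : K) ≠ 0 := by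
      rwa [Ne, RingOfIntegers.coe_eq_zero_iff]
    have hn : Algebra.norm ℤ a ≠ 0 := Algebra.norm_ne_zero_iff.mpr ha
    rw [absNorm_span_singleton, sg_univ _ ha', ← Algebra.coe_norm_int]
    rcases Int.natAbs_eq (Algebra.norm ℤ a) with h | h
    · have hpos : 0 < Algebra.norm ℤ a := by
        rw [h]; exact_mod_cast Int.natAbs_pos.mpr hn
      have h1 : (((Algebra.norm ℤ a : ℤ) : ℚ) : ℝ) / |(((Algebra.norm ℤ a : ℤ) : ℚ) : ℝ)| = 1 := by
        have h2 : (0 : ℝ) < (((Algebra.norm ℤ a : ℤ) : ℚ) : ℝ) := by exact_mod_cast hpos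
        rw [abs_of_pos h2, div_self h2.ne']
      rw [h1]
      conv_rhs => rw [h]
      simp
    · have hneg : Algebra.norm ℤ a < 0 := by
        rw [h]
        have := Int.natAbs_pos.mpr hn
        omega
      have h1 : (((Algebra.norm ℤ a : ℤ) : ℚ) : ℝ) / |(((Algebra.norm ℤ a : ℤ) : ℚ) : ℝ)| = -1 := by
        have h2 : (((Algebra.norm ℤ a : ℤ) : ℚ) : ℝ) < 0 := by exact_mod_cast hneg
        rw [abs_of_neg h2, div_neg, div_self h2.ne]
      rw [h1]
      conv_rhs => rw [h]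
      rw [Int.cast_neg, hχ.eval_neg, Int.cast_natCast]
      simp

/-- **Convergence at `1`** of `L(s, χ ∘ N)`. -/
theorem exists_tendsto_dchar {m : ℕ} [NeZero m] (χ : DirichletCharacter ℂ m)
    {I₀ : (Ideal (𝓞 K))⁰} (h0 : dchar K χ I₀ ≠ 0) (h1 : dchar K χ I₀ ≠ 1) :
    ∃ ℓ : ℂ, Tendsto (fun s : ℝ => ∑' I : (Ideal (𝓞 K))⁰, dchar K χ I * (iterm K s I : ℝ))
      (𝓝[>] 1) (𝓝 ℓ) := by
  obtain ⟨S, hS⟩ := isRayChar_dchar (K := K) χ
  refine exists_tendsto_L hS (I₀ := I₀) ?_ h1
  by_contra h2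
  exact h0 (hS.zero I₀ h2)

end Fermat.Agent.IdealL
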