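import Mathlib
import Fermat.Agent.IdealL.RayLimit

/-!
# The logarithm of `L(s, ψ)` and sums over primes
-/

open NumberField Ideal Filter Topology

open scoped Classical nonZeroDivisors

namespace Fermat.Agent.IdealL

/-- A continuous logarithm of a function with nonzero limit is bounded. -/
theorem exists_bound_log {G : ℝ → ℂ} {L : ℝ → ℂ} {ℓ : ℂ} (hG : ContinuousOn G (Set.Ioi 1))
    (hexp : ∀ s, 1 < s → Complex.exp (G s) = L s) (hL : Tendsto L (𝓝[>] 1) (𝓝 ℓ)) (hℓ : ℓ ≠ 0) :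
    ∃ C : ℝ, ∀ᶠ s in 𝓝[>] (1 : ℝ), ‖G s‖ ≤ C := by
  have h1 : Tendsto (fun s => L s / ℓ) (𝓝[>] 1) (𝓝 1) := by
    have := hL.div_const ℓ
    rwa [div_self hℓ] at this
  have h2 : ∀ᶠ s in 𝓝[>] (1 : ℝ), ‖L s / ℓ - 1‖ < 1 / 2 := by
    have := (Metric.tendsto_nhds.mp h1) (1 / 2) (by norm_num)
    filter_upwards [this] with s hs
    rwa [dist_eq_norm] at hs
  rw [eventually_nhdsWithin_iff, Metric.eventually_nhds_iff] at h2
  obtain ⟨δ, hδ, h3⟩ := h2
  set T : Set ℝ := Set.Ioo 1 (1 + δ) with hT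
  have hTsub : T ⊆ Set.Ioi 1 := fun s hs => hs.1
  have h4 : ∀ s ∈ T, ‖L s / ℓ - 1‖ < 1 / 2 := fun s hs => h3 (by
    rw [Real.dist_eq, abs_of_pos (by linarith [hs.1])]
    linarith [hs.2]) hs.1
  have hLc : ContinuousOn L T := by
    have : ContinuousOn (fun s => Complex.exp (G s)) T :=
      Complex.continuous_exp.comp_continuousOn (hG.mono hTsub)
    exact this.congr fun s hs => (hexp s hs.1).symm
  have hslit : ∀ s ∈ T, L s / ℓ ∈ Complex.slitPlane := by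
    intro s hs
    rw [Complex.mem_slitPlane_iff]
    left
    have h5 := (Complex.abs_re_le_norm (L s / ℓ - 1)).trans_lt (h4 s hs)
    rw [Complex.sub_re, Complex.one_re] at h5
    have := (abs_lt.mp h5).1
    linarith
  set D : ℝ → ℂ := fun s => G s - Complex.log (L s / ℓ) with hD
  have hDc : ContinuousOn D T :=
    (hG.mono hTsub).sub ((hLc.div_const ℓ).clog hslit)
  have hDexp : ∀ s ∈ T, Complex.exp (D s) = ℓ := by
    intro s hs
    have hne : L s / ℓ ≠ 0 := Complex.slitPlane_ne_zero (hslit s hs)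
    simp only [hD]
    rw [Complex.exp_sub, Complex.exp_log hne, hexp s hs.1, div_div_eq_mul_div,
      mul_div_assoc, mul_comm]
    have hL0 : L s ≠ 0 := fun h => hne (by rw [h, zero_div])
    field_simp
  set s₀ : ℝ := 1 + δ / 2 with hs₀
  have hs₀T : s₀ ∈ T := ⟨by rw [hs₀]; linarith, by rw [hs₀]; linarith⟩
  have h6 : ∀ s : T, ∃ n : ℤ, D s - D s₀ = n * (2 * Real.pi * Complex.I) := by
    intro s
    rw [← Complex.exp_eq_one_iff, Complex.exp_sub, hDexp s s.2, hDexp s₀ hs₀T, div_self hℓ]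
  choose n hn using h6
  have hpi : (2 * (Real.pi : ℂ) * Complex.I) ≠ 0 := by
    simp [Real.pi_ne_zero]
  have hnc : Continuous n := by
    rw [Int.isClosedEmbedding_coe_real.isInducing.continuous_iff]
    have h7 : Continuous fun s : T => ((D s - D s₀) / (2 * Real.pi * Complex.I)).re :=
      Complex.continuous_re.comp
        (((continuousOn_iff_continuous_domRestrict.mp hDc).sub continuous_const).div_const _)
    refine h7.congr fun s => ?_
    rw [hn s, mul_div_assoc, div_self hpi, mul_one, Complex.intCast_re]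
    rfl
  have hconn : PreconnectedSpace T := Subtype.preconnectedSpace isPreconnected_Ioo
  have h8 : ∀ s ∈ T, D s = D s₀ := by
    intro s hs
    have h9 : n ⟨s, hs⟩ = n ⟨s₀, hs₀T⟩ := by
      exact PreconnectedSpace.constant hconn hnc
    have h10 : n ⟨s₀, hs₀T⟩ = 0 := by
      have h11 := hn ⟨s₀, hs₀T⟩
      rw [sub_self] at h11
      have h12 := (mul_eq_zero.mp h11.symm).resolve_right hpi
      exact_mod_cast h12
    have h13 := hn ⟨s, hs⟩
    rw [h9, h10, Int.cast_zero, zero_mul] at h13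
    exact sub_eq_zero.mp h13
  refine ⟨‖D s₀‖ + 3 / 4, ?_⟩
  have h14 : T ∈ 𝓝[>] (1 : ℝ) := Ioo_mem_nhdsGT (by linarith)
  filter_upwards [h14] with s hs
  have h15 : G s = D s₀ + Complex.log (L s / ℓ) := by
    rw [← h8 s hs]; simp only [hD]; ring
  rw [h15]
  refine (norm_add_le _ _).trans ?_
  have h16 := Complex.norm_log_one_add_half_le_self (z := L s / ℓ - 1) (h4 s hs).le
  rw [add_sub_cancel] at h16
  have h17 := h4 s hs
  linarith

variable {K : Type*} [Field K] [NumberField K]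

theorem two_le_absNorm (q : PI K) : 2 ≤ absNorm (q.1 : Ideal (𝓞 K)) := by
  have h2 := one_le_absNorm q.1
  have h3 : absNorm (q.1 : Ideal (𝓞 K)) ≠ 1 := fun h => q.2.ne_top (absNorm_eq_one_iff.mp h)
  omega

theorem iterm_prime_le_half {s : ℝ} (hs : 1 ≤ s) (q : PI K) : iterm K s q.1 ≤ 1 / 2 := by
  have h1 : (2 : ℝ) ≤ absNorm (q.1 : Ideal (𝓞 K)) := by exact_mod_cast two_le_absNorm q
  calc iterm K s q.1 ≤ iterm K 1 q.1 := iterm_antitone hs q.1
    _ = (absNorm (q.1 : Ideal (𝓞 K)) : ℝ)⁻¹ := by unfold iterm; rw [Real.rpow_neg_one]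
    _ ≤ 1 / 2 := by
      rw [one_div]
      exact inv_anti₀ (by norm_num) h1

variable {ψ : (Ideal (𝓞 K))⁰ → ℂ}

/-- the sum over primes -/
noncomputable def Psum (ψ : (Ideal (𝓞 K))⁰ → ℂ) (s : ℝ) : ℂ :=
  ∑' q : PI K, ψ q.1 * (iterm K s q.1 : ℝ)

/-- the logarithm of `L` -/
noncomputable def Gsum (ψ : (Ideal (𝓞 K))⁰ → ℂ) (s : ℝ) : ℂ :=
  ∑' q : PI K, -Complex.log (1 - ψ q.1 * (iterm K s q.1 : ℝ))

theorem norm_term_le (hψ : ∀ I, ‖ψ I‖ ≤ 1) (s : ℝ) (I : (Ideal (𝓞 K))⁰) :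
    ‖ψ I * (iterm K s I : ℝ)‖ ≤ iterm K s I := by
  rw [norm_mul, Complex.norm_real, Real.norm_eq_abs, abs_of_pos (iterm_pos s I)]
  exact mul_le_of_le_one_left (iterm_pos s I).le (hψ I)

theorem summable_primes {s : ℝ} (hs : 1 < s) : Summable fun q : PI K => iterm K s q.1 :=
  (summable_iterm hs).comp_injective Subtype.val_injective

theorem summable_Psum (hψ : ∀ I, ‖ψ I‖ ≤ 1) {s : ℝ} (hs : 1 < s) :
    Summable fun q : PI K => ψ q.1 * (iterm K s q.1 : ℝ) :=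
  Summable.of_norm_bounded (summable_primes hs) fun q => norm_term_le hψ s q.1

theorem norm_log_term_le (hψ : ∀ I, ‖ψ I‖ ≤ 1) {s : ℝ} (hs : 1 ≤ s) (q : PI K) :
    ‖-Complex.log (1 - ψ q.1 * (iterm K s q.1 : ℝ))‖ ≤ 2 * iterm K s q.1 := by
  have h1 := norm_term_le hψ s q.1
  have h2 := iterm_prime_le_half hs q
  have h3 : ‖-(ψ q.1 * (iterm K s q.1 : ℝ))‖ ≤ 1 / 2 := by
    rw [norm_neg]; exact h1.trans h2
  have h4 := Complex.norm_log_one_add_half_le_self h3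
  rw [norm_neg, sub_eq_add_neg]
  refine h4.trans ?_
  rw [norm_neg]
  have := (norm_nonneg (ψ q.1 * (iterm K s q.1 : ℝ)))
  linarith [iterm_pos s q.1]

theorem summable_Gsum (hψ : ∀ I, ‖ψ I‖ ≤ 1) {s : ℝ} (hs : 1 < s) :
    Summable fun q : PI K => -Complex.log (1 - ψ q.1 * (iterm K s q.1 : ℝ)) :=
  Summable.of_norm_bounded ((summable_primes hs).mul_left 2) fun q => norm_log_term_le hψ hs.le q

/-- `exp G = L` -/
theorem exp_Gsum (h1 : ψ 1 = 1) (hmul : ∀ I J, ψ (I * J) = ψ I * ψ J) (hψ : ∀ I, ‖ψ I‖ ≤ 1)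
    {s : ℝ} (hs : 1 < s) :
    Complex.exp (Gsum ψ s) = ∑' I : (Ideal (𝓞 K))⁰, ψ I * (iterm K s I : ℝ) := by
  have ht := tendsto_euler (F := fun I => ψ I * (iterm K s I : ℝ)) (by simp [h1, iterm_one])
    (fun I J => by rw [hmul, iterm_mul]; push_cast; ring) (summable_char hψ hs)
  have hs2 := (summable_Gsum hψ hs).hasSum
  rw [HasSum, SummationFilter.unconditional_filter] at hs2
  have h3 : Tendsto (fun Q : Finset (PI K) => Complex.exp (-(∑ q ∈ Q,
      -Complex.log (1 - ψ q.1 * (iterm K s q.1 : ℝ)))) *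
      ∑' I : (Ideal (𝓞 K))⁰, ψ I * (iterm K s I : ℝ)) atTop
      (𝓝 (Complex.exp (-Gsum ψ s) * ∑' I : (Ideal (𝓞 K))⁰, ψ I * (iterm K s I : ℝ))) :=
    ((Complex.continuous_exp.tendsto _).comp hs2.neg).mul_const _
  have h4 : ∀ Q : Finset (PI K), Complex.exp (-(∑ q ∈ Q,
      -Complex.log (1 - ψ q.1 * (iterm K s q.1 : ℝ)))) =
      ∏ q ∈ Q, (1 - ψ q.1 * (iterm K s q.1 : ℝ)) := by
    intro Q
    rw [Finset.sum_neg_distrib, neg_neg, Complex.exp_sum]
    refine Finset.prod_congr rfl fun q _ => Complex.exp_log ?_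
    refine one_sub_ne_zero ?_
    have := norm_term_le hψ s q.1
    have := iterm_prime_le_half hs.le q
    linarith
  simp_rw [h4] at h3
  have h5 := tendsto_nhds_unique h3 ht
  rw [Complex.exp_neg] at h5
  rw [inv_mul_eq_div, div_eq_one_iff_eq (Complex.exp_ne_zero _)] at h5
  exact h5.symm

theorem summable_sq : Summable fun q : PI K => iterm K 2 q.1 := summable_primes (by norm_num)

theorem norm_Gsum_sub_Psum_le (hψ : ∀ I, ‖ψ I‖ ≤ 1) {s : ℝ} (hs : 1 < s) :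
    ‖Gsum ψ s - Psum ψ s‖ ≤ ∑' q : PI K, iterm K 2 q.1 := by
  unfold Gsum Psum
  rw [← (summable_Gsum hψ hs).tsum_sub (summable_Psum hψ hs)]
  refine tsum_of_norm_bounded summable_sq.hasSum fun q => ?_
  set z : ℂ := -(ψ q.1 * (iterm K s q.1 : ℝ)) with hz
  have h1 : ‖z‖ ≤ iterm K s q.1 := by
    rw [hz, norm_neg]; exact norm_term_le hψ s q.1
  have h2 := iterm_prime_le_half hs.le q
  have h3 : ‖z‖ < 1 := by linarith
  have h4 := Complex.norm_log_one_add_sub_self_le h3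
  have h5 : -Complex.log (1 - ψ q.1 * (iterm K s q.1 : ℝ)) - ψ q.1 * (iterm K s q.1 : ℝ) =
      -(Complex.log (1 + z) - z) := by
    rw [hz]; ring_nf
  rw [h5, norm_neg]
  refine h4.trans ?_
  have h6 : (1 - ‖z‖)⁻¹ ≤ 2 := by
    rw [inv_le_comm₀ (by linarith) (by norm_num)]
    linarith
  have h7 : ‖z‖ ^ 2 ≤ iterm K 2 q.1 := by
    calc ‖z‖ ^ 2 ≤ (iterm K s q.1) ^ 2 := pow_le_pow_left₀ (norm_nonneg _) h1 2
      _ ≤ (iterm K 1 q.1) ^ 2 := pow_le_pow_left₀ (iterm_pos _ _).le (iterm_antitone hs.le q.1) 2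
      _ = iterm K 2 q.1 := by
        unfold iterm
        rw [← Real.rpow_natCast, ← Real.rpow_mul (Nat.cast_nonneg _)]
        norm_num
  have h8 : 0 ≤ ‖z‖ ^ 2 := by positivity
  nlinarith

theorem continuousOn_Gsum (hψ : ∀ I, ‖ψ I‖ ≤ 1) : ContinuousOn (Gsum ψ) (Set.Ioi 1) := by
  intro s hs
  have hs1 : (1 : ℝ) < s := hs
  set t : ℝ := (1 + s) / 2 with ht
  have ht1 : 1 < t := by rw [ht]; linarith
  have hts : t < s := by rw [ht]; linarith
  have h1 : ContinuousOn (Gsum ψ) (Set.Ioi t) := by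
    unfold Gsum
    refine continuousOn_tsum (u := fun q : PI K => 2 * iterm K t q.1) (fun q => ?_)
      ((summable_primes ht1).mul_left 2) fun q x hx => ?_
    · have h0 : (0 : ℝ) < absNorm (q.1 : Ideal (𝓞 K)) := by
        have := one_le_absNorm q.1
        exact_mod_cast this
      have hc : Continuous fun x : ℝ => (1 : ℂ) - ψ q.1 * (iterm K x q.1 : ℝ) := by
        unfold iterm
        exact continuous_const.sub (continuous_const.mul (Complex.continuous_ofReal.comp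
          ((Real.continuous_const_rpow h0.ne').comp continuous_neg)))
      refine (hc.continuousOn.clog fun x hx => ?_).neg
      have hx1 : (1 : ℝ) ≤ x := ht1.le.trans (le_of_lt hx)
      rw [Complex.mem_slitPlane_iff]
      left
      have h2 := norm_term_le hψ x q.1
      have h3 := iterm_prime_le_half hx1 q
      have h4 := Complex.re_le_norm (ψ q.1 * (iterm K x q.1 : ℝ))
      rw [Complex.sub_re, Complex.one_re]
      linarith
    · have hx1 : (1 : ℝ) ≤ x := ht1.le.trans (le_of_lt hx)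
      refine (norm_log_term_le hψ hx1 q).trans ?_
      have := iterm_antitone (K := K) (le_of_lt hx) q.1
      linarith
  exact (h1.continuousAt (Ioi_mem_nhds hts)).continuousWithinAt

theorem norm_Psum_le (hψ : ∀ I, ‖ψ I‖ ≤ 1) {s t : ℝ} (ht : 1 < t) (hts : t ≤ s) :
    ‖Psum ψ s‖ ≤ ∑' q : PI K, iterm K t q.1 := by
  unfold Psum
  refine tsum_of_norm_bounded (summable_primes ht).hasSum fun q => ?_
  exact (norm_term_le hψ s q.1).trans (iterm_antitone hts q.1)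

/-- eventually bounded near `1` implies bounded on `(1,2]`. -/
theorem bound_of_eventually (hψ : ∀ I, ‖ψ I‖ ≤ 1) {f : ℂ → ℝ} (hf : ∀ z, f z ≤ ‖z‖) {C : ℝ}
    (h : ∀ᶠ s in 𝓝[>] (1 : ℝ), f (Psum ψ s) ≤ C) :
    ∃ C' : ℝ, ∀ s ∈ Set.Ioc (1 : ℝ) 2, f (Psum ψ s) ≤ C' := by
  rw [eventually_nhdsWithin_iff, Metric.eventually_nhds_iff] at h
  obtain ⟨δ, hδ, h3⟩ := h
  refine ⟨max C (∑' q : PI K, iterm K (1 + δ / 2) q.1), fun s hs => ?_⟩
  rcases lt_or_ge s (1 + δ / 2) with h | h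
  · refine le_max_of_le_left (h3 ?_ hs.1)
    rw [Real.dist_eq, abs_of_pos (by linarith [hs.1])]
    linarith
  · refine le_max_of_le_right ((hf _).trans (norm_Psum_le hψ (by linarith) h))

/-- If `L` converges, then the real part of the prime sum is bounded above. -/
theorem exists_re_le (h1 : ψ 1 = 1) (hmul : ∀ I J, ψ (I * J) = ψ I * ψ J) (hψ : ∀ I, ‖ψ I‖ ≤ 1)
    {ℓ : ℂ} (hL : Tendsto (fun s : ℝ => ∑' I : (Ideal (𝓞 K))⁰, ψ I * (iterm K s I : ℝ)) (𝓝[>] 1)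
      (𝓝 ℓ)) : ∃ C : ℝ, ∀ s ∈ Set.Ioc (1 : ℝ) 2, (Psum ψ s).re ≤ C := by
  have h2 : ∀ᶠ s in 𝓝[>] (1 : ℝ), (Psum ψ s).re ≤ Real.log (‖ℓ‖ + 1) +
      ∑' q : PI K, iterm K 2 q.1 := by
    have h3 : ∀ᶠ s in 𝓝[>] (1 : ℝ),
        ‖∑' I : (Ideal (𝓞 K))⁰, ψ I * (iterm K s I : ℝ)‖ < ‖ℓ‖ + 1 :=
      hL.norm.eventually_lt_const (by linarith)
    filter_upwards [h3, self_mem_nhdsWithin] with s hs hs1
    have hs1 : 1 < s := hs1
    rw [← exp_Gsum h1 hmul hψ hs1, Complex.norm_exp] at hs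
    have h4 : (Gsum ψ s).re < Real.log (‖ℓ‖ + 1) := by
      rw [← Real.log_exp (Gsum ψ s).re]
      exact Real.log_lt_log (Real.exp_pos _) hs
    have h5 := norm_Gsum_sub_Psum_le hψ hs1
    have h6 := (Complex.abs_re_le_norm (Gsum ψ s - Psum ψ s)).trans h5
    rw [Complex.sub_re] at h6
    have := (abs_le.mp h6).1
    linarith
  exact bound_of_eventually hψ (f := Complex.re) Complex.re_le_norm h2

/-- If `L` converges and the real part of the prime sum is bounded below then the prime sum is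
bounded. -/
theorem exists_norm_le (h1 : ψ 1 = 1) (hmul : ∀ I J, ψ (I * J) = ψ I * ψ J)
    (hψ : ∀ I, ‖ψ I‖ ≤ 1)
    {ℓ : ℂ} (hL : Tendsto (fun s : ℝ => ∑' I : (Ideal (𝓞 K))⁰, ψ I * (iterm K s I : ℝ)) (𝓝[>] 1)
      (𝓝 ℓ)) {C : ℝ} (hC : ∀ s ∈ Set.Ioc (1 : ℝ) 2, C ≤ (Psum ψ s).re) :
    ∃ C' : ℝ, ∀ s ∈ Set.Ioc (1 : ℝ) 2, ‖Psum ψ s‖ ≤ C' := by
  have hℓ : ℓ ≠ 0 := by
    have h2 : ∀ᶠ s in 𝓝[>] (1 : ℝ), Real.exp (C - ∑' q : PI K, iterm K 2 q.1) ≤
        ‖∑' I : (Ideal (𝓞 K))⁰, ψ I * (iterm K s I : ℝ)‖ := by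
      have hIoc : ∀ᶠ s in 𝓝[>] (1 : ℝ), s ∈ Set.Ioc (1 : ℝ) 2 := Ioc_mem_nhdsGT (by norm_num)
      filter_upwards [hIoc] with s hs
      rw [← exp_Gsum h1 hmul hψ hs.1, Complex.norm_exp]
      refine Real.exp_le_exp.mpr ?_
      have h5 := norm_Gsum_sub_Psum_le hψ hs.1
      have h6 := (Complex.abs_re_le_norm (Gsum ψ s - Psum ψ s)).trans h5
      rw [Complex.sub_re] at h6
      have := (abs_le.mp h6).1
      have := hC s hs
      linarith
    have h3 := ge_of_tendsto hL.norm h2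
    intro h0
    rw [h0, norm_zero] at h3
    exact absurd h3 (not_le.mpr (Real.exp_pos _))
  obtain ⟨C₁, hC₁⟩ := exists_bound_log (continuousOn_Gsum hψ)
    (fun s hs => exp_Gsum h1 hmul hψ hs) hL hℓ
  have h4 : ∀ᶠ s in 𝓝[>] (1 : ℝ), ‖Psum ψ s‖ ≤ C₁ + ∑' q : PI K, iterm K 2 q.1 := by
    filter_upwards [hC₁, self_mem_nhdsWithin] with s hs hs1
    have h5 := norm_Gsum_sub_Psum_le hψ (s := s) hs1
    have h6 : Psum ψ s = Gsum ψ s - (Gsum ψ s - Psum ψ s) := by ring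
    rw [h6]
    exact (norm_sub_le _ _).trans (add_le_add hs h5)
  exact bound_of_eventually hψ (f := norm) (fun z => le_rfl) h4

end Fermat.Agent.IdealL
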