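import Fermat.Agent.IdealL.Main
import Fermat.Agent.S14Lib.DensityFinal

open NumberField Ideal

open scoped nonZeroDivisors

namespace Fermat.Agent.IdealL

theorem primeBound (K : Type) [Field K] [NumberField K] : S14Lib.PrimeBound K := by
  intro H
  obtain ⟨C, hC⟩ := exists_bound_prime_in_subgroup K H
  exact ⟨C, fun s hs hs2 => ⟨summable_prime_in_subgroup H hs, hC s ⟨hs, hs2⟩⟩⟩

end Fermat.Agent.IdealL
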